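import Fermat.Agent.RTLift.LocalRings.Main
import Mathlib.RingTheory.KrullDimension.Basic

/-!
# Interface of the local rings

Primality and dimension of the local rings, and separation of configurations.
-/

set_option autoImplicit false

noncomputable section

namespace FermatAgent.RTLift.LocalRings

open IsLocalRing

variable {O : Type} [CommRing O] [IsDomain O] [IsDiscreteValuationRing O]
  [IsAdicComplete (maximalIdeal O) O] [CharZero O] [Finite (ResidueField O)]
  {I : Type} [Fintype I] {r : ℕ} (D : Datum O I) {p : ℕ} {ζ : I → O}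

omit [Finite (ResidueField O)] in
/-- L1, L2: `I_A` is prime, of characteristic zero, and `R/I_A` has dimension
`1 + r + Σ dim A_i` (three for each index, two for a wall). -/
theorem cfgIdeal_isPrime_and_dim (hV : D.Valid p ζ) {A : I → Cfg}
    (hA : ∀ i, D.Allowed i (A i)) :
    (D.cfgIdeal r A).IsPrime ∧ (∀ x : O, algebraMap O _ x ∈ D.cfgIdeal r A → x = 0) ∧
      ringKrullDim (Ambient O I r ⧸ D.cfgIdeal r A) = ((1 + r + ∑ i, (A i).dim : ℕ) : WithBot ℕ∞) :=
  isPrime_and_dim D hV hA

omit [Finite (ResidueField O)] in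
/-- L3: two configurations are separated on the generic fibre. At a wall `wall ε` the competitor
is neither `ur` nor `St_ε`. -/
theorem not_cfgIdeal_le (hV : D.Valid p ζ) {A B : I → Cfg} (hA : ∀ i, D.Allowed i (A i))
    (hB : ∀ i, B i = .ur ∨ ∃ ε, B i = .st ε)
    (hne : ∃ i, B i ≠ A i ∧ ∀ ε, A i = .wall ε → B i = .st (-ε)) :
    ¬ D.cfgIdeal r B ≤ D.cfgIdeal r A := by
  classical
  obtain ⟨i, hi, hwall⟩ := hne
  intro hle
  obtain ⟨hprime, hchar, -⟩ := cfgIdeal_isPrime_and_dim (r := r) D hV hA
  set f := Ideal.Quotient.mk (D.cfgIdeal r A) with hf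
  have hA' := (localIdeal_le_ker_iff D f i _).mp
    (((cfgIdeal_le_iff D _ A).mp le_rfl i).trans Ideal.mk_ker.ge)
  have hB' := (localIdeal_le_ker_iff D f i _).mp
    (((cfgIdeal_le_iff D _ B).mp hle i).trans Ideal.mk_ker.ge)
  have hconst : ∀ x : O, f (algebraMap O _ x) = 0 → x = 0 := fun x hx =>
    hchar x (Ideal.Quotient.eq_zero_iff_mem.mp hx)
  by_cases hu : A i = .ur ∨ ∃ ε, A i = .st ε
  · obtain ⟨F, -, hAF, -, hsep⟩ := exists_fibre_prime (r := r) D hV hA
    exact hsep B i hu (hB i) hi (hle.trans hAF)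
  push Not at hu
  cases hAi : A i with
  | ur => exact hu.1 hAi
  | st ε => exact hu.2 ε hAi
  | cc =>
    rw [hAi] at hA'
    have htr := (sat_cc_iff.mp hA').2.2.1
    have h0 : ((D.mono r i).map f).trace = 0 := by
      rcases hB i with h | ⟨ε, h⟩ <;> rw [h] at hB'
      · rw [(sat_ur_iff.mp hB').1, Matrix.trace_zero]
      · exact (sat_st_iff.mp hB').2.2.1
    rw [trace_one_add, h0, add_zero] at htr
    have hc := hconst (D.c i - 2) (by rw [map_sub, map_sub, ← htr, map_ofNat, map_ofNat, sub_self])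
    -- `c = 2` would force `ζ = 1`
    rw [sub_eq_zero] at hc
    have hsq : (ζ i - 1) ^ 2 = 0 := by linear_combination ζ i * hc - hV.c_eq i
    exact hV.zeta_ne_one i (sub_eq_zero.mp (eq_zero_of_pow_eq_zero hsq))
  | wall ε =>
    rw [hAi] at hA'
    rw [hwall ε hAi] at hB'
    have h1 := (sat_wall_iff.mp hA').2.2
    rw [(sat_st_iff.mp hB').2.1, Units.val_neg, Int.cast_neg] at h1
    have h2 : f (algebraMap O _ (2 * ((ε : ℤ) : O) * ((D.q i : O) + 1))) = 0 := by
      simp only [map_mul, map_add, map_one, map_natCast, map_intCast, map_ofNat]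
      linear_combination -h1
    have h3 : (2 : O) * ((ε : ℤ) : O) * ((D.q i : O) + 1) = 0 := hconst _ h2
    have hε : ((ε : ℤ) : O) ≠ 0 := fun h => by
      simpa [h] using int_units_mul_self (S := O) ε
    rcases mul_eq_zero.mp h3 with h | h
    · exact hε ((mul_eq_zero.mp h).resolve_left two_ne_zero)
    · exact Nat.cast_add_one_ne_zero (D.q i) h

end FermatAgent.RTLift.LocalRings

end
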