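import Fermat.Agent.RTLift.LocalRings.ModelFree

/-!
# The model of `St` at a scalar residual point with `q ≡ 1`
-/

set_option autoImplicit false

noncomputable section

namespace FermatAgent.RTLift.LocalRings

open MvPowerSeries

variable {O : Type} [CommRing O] [IsDomain O] [IsDiscreteValuationRing O]
  {O' : Type} [CommRing O'] [IsDomain O'] [IsDiscreteValuationRing O'] [Algebra O O']
  {k : Type} [Field k] {ϖ : O} {π : O'} {res : O' →+* k}

/-- The equations in the variables `P` (`0` to `3`) and `n` (`4` to `7`). -/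
def nodeEqns (t : O) : Set (MvPowerSeries (Fin 8) O) :=
  {X 0 + X 3 - C t, X 0 * X 3 - X 1 * X 2, X 4 + X 7, X 4 * X 7 - X 5 * X 6,
    X 4 * X 0 + X 5 * X 2, X 4 * X 1 + X 5 * X 3, X 6 * X 0 + X 7 * X 2, X 6 * X 1 + X 7 * X 3,
    X 0 * X 4 + X 1 * X 6 - C t * X 4, X 0 * X 5 + X 1 * X 7 - C t * X 5,
    X 2 * X 4 + X 3 * X 6 - C t * X 6, X 2 * X 5 + X 3 * X 7 - C t * X 7}

/-- The ideal of the node model. -/
def nodeIdeal (t : O) : Ideal (MvPowerSeries (Fin 8) O) := Ideal.span (nodeEqns t)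

theorem nodeCases (b c e5 e7 P22 : ℕ) (h12 : b = 0 ∨ c = 0) (h7 : e7 ≤ 1)
    (h35 : P22 = 0 ∨ e5 = 0) (h25 : c = 0 ∨ e5 = 0) (h37 : P22 = 0 ∨ e7 = 0)
    (h27 : c = 0 ∨ e7 = 0) :
    (e5 = 0 ∧ e7 = 0 ∧ b = 0) ∨ (e5 = 0 ∧ e7 = 0 ∧ c = 0) ∨
      (1 ≤ e5 + e7 ∧ c = 0 ∧ P22 = 0 ∧ e7 ≤ 1) := by
  rcases Nat.eq_zero_or_pos (e5 + e7) with h0 | h1
  · obtain ⟨h5, h7'⟩ := Nat.add_eq_zero_iff.mp h0
    rcases h12 with hb | hc
    · exact Or.inl ⟨h5, h7', hb⟩
    · exact Or.inr (Or.inl ⟨h5, h7', hc⟩)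
  · refine Or.inr (Or.inr ⟨h1, ?_, ?_, h7⟩) <;> clear h12 h7 <;> omega

/-- The exponents of a reduced monomial of the node model are determined by three weights. -/
theorem nodeInj {b c d e5 e6 e7 b' c' d' f5 f6 f7 : ℕ}
    (a : (e5 = 0 ∧ e7 = 0 ∧ b = 0) ∨ (e5 = 0 ∧ e7 = 0 ∧ c = 0) ∨
      (1 ≤ e5 + e7 ∧ c = 0 ∧ d = 0 ∧ e7 ≤ 1))
    (a' : (f5 = 0 ∧ f7 = 0 ∧ b' = 0) ∨ (f5 = 0 ∧ f7 = 0 ∧ c' = 0) ∨
      (1 ≤ f5 + f7 ∧ c' = 0 ∧ d' = 0 ∧ f7 ≤ 1))
    (n0 : b + 2 * e5 + e7 + c' = b' + 2 * f5 + f7 + c) (n1 : b + c + d = b' + c' + d')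
    (n2 : e5 + e6 + e7 = f5 + f6 + f7) :
    b = b' ∧ c = c' ∧ d = d' ∧ e5 = f5 ∧ e6 = f6 ∧ e7 = f7 := by
  rcases a with a | a | a <;> rcases a' with x | x | x <;>
    refine ⟨?_, ?_, ?_, ?_, ?_, ?_⟩ <;> omega

set_option maxHeartbeats 1600000 in
/-- The node model. -/
def modelNode (hE : Extends ϖ π res) (h2 : IsUnit (2 : O)) (t : O) (ht : ϖ ∣ t) (c : O')
    (hc : algebraMap O O' t = π * c) (hc0 : res c = 0) : Model ϖ π res where
  J := nodeIdeal t
  d := 3
  w _ := 1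
  hw _ := le_rfl
  L := ![AddMonoidAlgebra.single 0 c + AddMonoidAlgebra.single ![0, 1, 0] (-1),
    AddMonoidAlgebra.single ![1, 1, 0] 1,
    AddMonoidAlgebra.single ![-1, 0, 0] c + AddMonoidAlgebra.single ![-1, 1, 0] (-1),
    AddMonoidAlgebra.single ![0, 1, 0] 1, AddMonoidAlgebra.single ![1, 0, 1] (-1),
    AddMonoidAlgebra.single ![2, 0, 1] 1, AddMonoidAlgebra.single ![0, 0, 1] (-1),
    AddMonoidAlgebra.single ![1, 0, 1] 1]
  hJ φ hφ := by
    have hC : φ (C t) = C π * C c := by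
      rw [← map_mul, ← hc]
      exact (φ.commutes t).trans (MvPowerSeries.algebraMap_apply (R := O) (A := O') (r := t))
    have h0 := hφ 0
    have h1 := hφ 1
    have h2 := hφ 2
    have h3 := hφ 3
    have h4 := hφ 4
    have h5 := hφ 5
    have h6 := hφ 6
    have h7 := hφ 7
    simp [-coe_tUnit, emb_single_eq, Fin.prod_univ_three] at h0 h1 h2 h3 h4 h5 h6 h7
    have hT := pv_mul_pvi (S := O') (0 : Fin 3)
    rw [nodeIdeal, nodeEqns, Ideal.span_le]
    intro x hx
    show φ x = 0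
    rcases hx with rfl | rfl | rfl | rfl | rfl | rfl | rfl | rfl | rfl | rfl | rfl | rfl <;>
      simp only [map_add, map_sub, map_mul, hC, h0, h1, h2, h3, h4, h5, h6, h7]
    · ring
    · linear_combination (C π ^ 2 * pv 1 * (pv 1 - C c) : MvPowerSeries (Fin 3) O') * hT
    · ring
    · ring
    · linear_combination (C π ^ 2 * pv 0 * pv 2 * (C c - pv 1) : MvPowerSeries (Fin 3) O') * hT
    · ring
    · linear_combination (C π ^ 2 * pv 2 * (C c - pv 1) : MvPowerSeries (Fin 3) O') * hT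
    · ring
    · ring
    · ring
    · linear_combination (C π ^ 2 * pv 2 * (pv 1 - C c) : MvPowerSeries (Fin 3) O') * hT
    · linear_combination (C π ^ 2 * pv 0 * pv 2 * (C c - pv 1) : MvPowerSeries (Fin 3) O') * hT
  G := 0
  ℓ := ![![0, 1, 0], ![1, 1, 0], ![-1, 1, 0], ![0, 1, 0], ![1, 0, 1], ![2, 0, 1], ![0, 0, 1],
    ![1, 0, 1]]
  rules := [(Finsupp.single 0 1, -1, Finsupp.single 3 1),
    (Finsupp.single 4 1, -1, Finsupp.single 7 1),
    (Finsupp.single 1 1 + Finsupp.single 2 1, -1, Finsupp.single 3 2),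
    (Finsupp.single 7 2, -1, Finsupp.single 5 1 + Finsupp.single 6 1),
    (Finsupp.single 3 1 + Finsupp.single 5 1, 1, Finsupp.single 1 1 + Finsupp.single 7 1),
    (Finsupp.single 2 1 + Finsupp.single 5 1, -1, Finsupp.single 3 1 + Finsupp.single 7 1),
    (Finsupp.single 3 1 + Finsupp.single 7 1, -1, Finsupp.single 1 1 + Finsupp.single 6 1),
    (Finsupp.single 2 1 + Finsupp.single 7 1, 1, Finsupp.single 3 1 + Finsupp.single 6 1)]
  μ := ![4, 0, 5, 2, 3, 1, 2, 2]
  hrules := by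
    intro ρ hρ
    set K := nodeIdeal t ⊔ Ideal.span {algebraMap O (MvPowerSeries (Fin 8) O) ϖ}
    have hJ : ∀ {x}, x ∈ nodeEqns t → x ∈ K := fun h => Ideal.mem_sup_left (Ideal.subset_span h)
    have hd : (C t : MvPowerSeries (Fin 8) O) ∈ K := by
      obtain ⟨a, rfl⟩ := ht
      refine Ideal.mem_sup_right (Ideal.mem_span_singleton'.mpr ⟨C a, ?_⟩)
      rw [MvPowerSeries.algebraMap_apply, Algebra.algebraMap_self, RingHom.id_apply, ← map_mul,
        mul_comm]
    have ha := hJ (show X 0 + X 3 - C t ∈ nodeEqns t by simp [nodeEqns])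
    have hD := hJ (show X 0 * X 3 - X 1 * X 2 ∈ nodeEqns t by simp [nodeEqns])
    have hb := hJ (show X 4 + X 7 ∈ nodeEqns t by simp [nodeEqns])
    have hF := hJ (show X 4 * X 7 - X 5 * X 6 ∈ nodeEqns t by simp [nodeEqns])
    have q00 := hJ (show X 4 * X 0 + X 5 * X 2 ∈ nodeEqns t by simp [nodeEqns])
    have q01 := hJ (show X 4 * X 1 + X 5 * X 3 ∈ nodeEqns t by simp [nodeEqns])
    have q10 := hJ (show X 6 * X 0 + X 7 * X 2 ∈ nodeEqns t by simp [nodeEqns])
    have q11 := hJ (show X 6 * X 1 + X 7 * X 3 ∈ nodeEqns t by simp [nodeEqns])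
    have ha' : (X 0 + X 3 : MvPowerSeries (Fin 8) O) ∈ K := by simpa using K.add_mem ha hd
    refine ⟨?_, ?_⟩
    · simp only [List.mem_cons, List.not_mem_nil, or_false] at hρ
      rcases hρ with rfl | rfl | rfl | rfl | rfl | rfl | rfl | rfl <;>
        simp only [mon11, mon2, mon1, map_one, one_mul, map_neg, sub_neg_eq_add]
      · exact ha'
      · exact hb
      · convert K.sub_mem (K.mul_mem_left (X 3) ha') hD using 1
        ring
      · convert K.sub_mem (K.mul_mem_left (X 7) hb) hF using 1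
        ring
      · convert K.sub_mem q01 (K.mul_mem_left (X 1) hb) using 1
        ring
      · convert K.add_mem (K.sub_mem q00 (K.mul_mem_left (X 0) hb)) (K.mul_mem_left (X 7) ha')
          using 1
        ring
      · convert q11 using 1
        ring
      · convert K.sub_mem q10 (K.mul_mem_left (X 6) ha') using 1
        ring
    · simp only [List.mem_cons, List.not_mem_nil, or_false] at hρ
      rcases hρ with rfl | rfl | rfl | rfl | rfl | rfl | rfl | rfl <;>
        exact Or.inr ⟨by simp [Finsupp.degree_eq_sum, Fin.sum_univ_eight],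
          by simp [Fin.sum_univ_eight]⟩
  hlead := by
    intro m hm v hv
    fin_cases v <;> simp [hc0] <;>
      (try rw [← AddMonoidAlgebra.single_neg]) <;>
      exact hasLead_single (by norm_num)
  hinj := by
    intro m m' hm hm' he
    simp only [List.forall_mem_cons, List.not_mem_nil, single_le_iff,
      single2_le_iff (show (1 : Fin 8) ≠ 2 by decide),
      single2_le_iff (show (3 : Fin 8) ≠ 5 by decide),
      single2_le_iff (show (2 : Fin 8) ≠ 5 by decide),
      single2_le_iff (show (3 : Fin 8) ≠ 7 by decide),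
      single2_le_iff (show (2 : Fin 8) ≠ 7 by decide)] at hm hm'
    have e0 := congrFun he 0
    have e1 := congrFun he 1
    have e2 := congrFun he 2
    simp [Fin.sum_univ_eight] at e0 e1 e2
    obtain ⟨p0, p4, p12, p7, p35, p25, p37, p27, -⟩ := hm
    obtain ⟨q0, q4, q12, q7, q35, q25, q37, q27, -⟩ := hm'
    have z0 := Nat.eq_zero_of_not_pos p0
    have z4 := Nat.eq_zero_of_not_pos p4
    have w0 := Nat.eq_zero_of_not_pos q0
    have w4 := Nat.eq_zero_of_not_pos q4
    clear he p0 p4 q0 q4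
    rw [z0, w0] at e1
    rw [z4, w4] at e0 e2
    have n0 : m 1 + 2 * m 5 + m 7 + m' 2 = m' 1 + 2 * m' 5 + m' 7 + m 2 := by
      clear p12 p7 p35 p25 p37 p27 q12 q7 q35 q25 q37 q27 e1 e2; omega
    have n1 : m 1 + m 2 + m 3 = m' 1 + m' 2 + m' 3 := by
      clear p12 p7 p35 p25 p37 p27 q12 q7 q35 q25 q37 q27 e0 e2; omega
    have n2 : m 5 + m 6 + m 7 = m' 5 + m' 6 + m' 7 := by
      clear p12 p7 p35 p25 p37 p27 q12 q7 q35 q25 q37 q27 e0 e1; omega
    have or0 : ∀ {a b : ℕ}, ¬(1 ≤ a ∧ 1 ≤ b) → a = 0 ∨ b = 0 := fun {a b} h => by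
      clear * - h; omega
    have h := nodeInj
      (nodeCases (m 1) (m 2) (m 5) (m 7) (m 3) (or0 p12) (Nat.lt_succ_iff.mp (not_le.mp p7))
        (or0 p35) (or0 p25) (or0 p37) (or0 p27))
      (nodeCases (m' 1) (m' 2) (m' 5) (m' 7) (m' 3) (or0 q12) (Nat.lt_succ_iff.mp (not_le.mp q7))
        (or0 q35) (or0 q25) (or0 q37) (or0 q27)) n0 n1 n2
    ext v
    fin_cases v <;>
      simp [h.1, h.2.1, h.2.2.1, h.2.2.2.1, h.2.2.2.2.1, h.2.2.2.2.2, z0, z4, w0, w4]
  u := ![X 5 - X 2, X 7, X 1 - X 6]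
  hum s := by fin_cases s <;> simp
  hu P hP hJ hϖ hu := by
    have := hP
    set q := Ideal.Quotient.mk P with hq
    have g : ∀ {x}, x ∈ nodeEqns t → q x = 0 :=
      fun h => Ideal.Quotient.eq_zero_iff_mem.mpr (hJ (Ideal.subset_span h))
    have hd : q (C t) = 0 := by
      obtain ⟨a, rfl⟩ := ht
      rw [MvPowerSeries.algebraMap_apply, Algebra.algebraMap_self, RingHom.id_apply] at hϖ
      rw [map_mul C, map_mul, Ideal.Quotient.eq_zero_iff_mem.mpr hϖ, zero_mul]
    have z : ∀ i, q (![X 5 - X 2, X 7, X 1 - X 6] i) = 0 :=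
      fun i => Ideal.Quotient.eq_zero_iff_mem.mpr (hu i)
    have u0 := z 0; have u1 := z 1; have u2 := z 2
    simp only [Matrix.cons_val_zero, Matrix.cons_val_one, Matrix.cons_val, map_sub] at u0 u1 u2
    have ha := g (show X 0 + X 3 - C t ∈ nodeEqns t by simp [nodeEqns])
    have hD := g (show X 0 * X 3 - X 1 * X 2 ∈ nodeEqns t by simp [nodeEqns])
    have hb := g (show X 4 + X 7 ∈ nodeEqns t by simp [nodeEqns])
    have hF := g (show X 4 * X 7 - X 5 * X 6 ∈ nodeEqns t by simp [nodeEqns])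
    have q00 := g (show X 4 * X 0 + X 5 * X 2 ∈ nodeEqns t by simp [nodeEqns])
    have q11 := g (show X 6 * X 1 + X 7 * X 3 ∈ nodeEqns t by simp [nodeEqns])
    simp only [map_add, map_sub, map_mul, hd, sub_zero] at ha hD hb hF q00 q11
    have z7 : q (X 7) = 0 := u1
    have z4 : q (X 4) = 0 := by rw [z7, add_zero] at hb; exact hb
    have z3 : q (X 3) = 0 := (pow_eq_zero_iff two_ne_zero).mp (by
      linear_combination q (X 3) * ha - hD + hF - q (X 4) * z7 + q (X 6) * u0 - q (X 2) * u2)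
    have z0 : q (X 0) = 0 := by rw [z3, add_zero] at ha; exact ha
    have z5 : q (X 5) = 0 := (pow_eq_zero_iff two_ne_zero).mp (by
      linear_combination q00 - q (X 0) * z4 + q (X 5) * u0)
    have z6 : q (X 6) = 0 := (pow_eq_zero_iff two_ne_zero).mp (by
      linear_combination q11 - q (X 3) * z7 - q (X 6) * u2)
    have z2 : q (X 2) = 0 := by linear_combination z5 - u0
    have z1 : q (X 1) = 0 := by linear_combination u2 + z6
    intro v
    refine Ideal.Quotient.eq_zero_iff_mem.mp ?_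
    fin_cases v <;> assumption
  htri φ hφ s := by
    have hCϖ : φ (C ϖ) = C π ^ 2 := by
      rw [← map_pow, hE.sq]
      exact (φ.commutes ϖ).trans (MvPowerSeries.algebraMap_apply (R := O) (A := O') (r := ϖ))
    have h3 := hφ 3
    have h6 := hφ 6
    have h7 := hφ 7
    simp [-coe_tUnit, emb_single3] at h3 h6 h7
    have hπ : (C π : MvPowerSeries (Fin 3) O') ≠ 0 := fun hh =>
      hE.irrπ.ne_zero (by simpa using congrArg constantCoeff hh)
    have key : ∀ v : Fin 3, (C π : MvPowerSeries (Fin 3) O') ^ 2 * (pv v ^ 2 - 1) ≠ 0 := fun v =>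
      mul_ne_zero (pow_ne_zero 2 hπ) (pv_sq_sub_one_ne_zero v (two_ne_zero_of_isUnit h2))
    fin_cases s
    · refine ⟨X 7 + X 6, ?_, ?_⟩ <;> rw [map_add, h7, h6] <;>
        simp only [map_mul, map_add, map_neg, proj_C]
      · rw [proj_pv_notMem (v := (0 : Fin 3)) (by simp), proj_pv_notMem (v := (2 : Fin 3)) (by simp)]
        ring
      · rw [proj_pv_mem (v := (0 : Fin 3)) (by simp), proj_pv_notMem (v := (2 : Fin 3)) (by simp)]
        exact fun h => mul_ne_zero hπ (pv_sub_one_ne_zero (0 : Fin 3)) (by linear_combination h)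
    · refine ⟨X 3 ^ 2 - C ϖ, ?_, ?_⟩ <;> rw [map_sub, map_pow, h3, hCϖ] <;>
        simp only [map_mul, map_pow, map_sub, proj_C]
      · rw [proj_pv_notMem (by simp)]
        ring
      · rw [proj_pv_mem (by simp)]
        exact fun h => key 1 (by linear_combination h)
    · refine ⟨X 6 ^ 2 - C ϖ, ?_, ?_⟩ <;> rw [map_sub, map_pow, h6, hCϖ] <;>
        simp only [map_mul, map_pow, map_sub, map_neg, proj_C]
      · rw [proj_pv_notMem (by simp)]
        ring
      · rw [proj_pv_mem (by simp)]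
        exact fun h => key 2 (by linear_combination h)

end FermatAgent.RTLift.LocalRings

end
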