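import Fermat.Agent.RTLift.LocalRings.Local
import Fermat.Agent.RTLift.LocalRings.ModelNode

/-!
# The configurations `ur`, `St_ε` and the walls as models
-/

set_option autoImplicit false

noncomputable section

namespace FermatAgent.RTLift.LocalRings

open IsLocalRing MvPowerSeries Matrix

variable {O : Type} [CommRing O] [IsDomain O] [IsDiscreteValuationRing O]
  [IsAdicComplete (maximalIdeal O) O]

section Aux

omit [IsDomain O] [IsDiscreteValuationRing O] [IsAdicComplete (maximalIdeal O) O] in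
theorem free_apply_eq_zero {S : Type} [CommRing S] [Algebra O S] {d : ℕ}
    (f : MvPowerSeries (Fin 8) O →ₐ[O] S) :
    freeIdeal O d ≤ RingHom.ker f ↔ ∀ v : Fin 8, d ≤ v.val → f (X v) = 0 := by
  rw [freeIdeal, Ideal.span_le]
  simp [Set.subset_def, RingHom.mem_ker]

omit [IsDomain O] [IsDiscreteValuationRing O] [IsAdicComplete (maximalIdeal O) O] in
theorem free_mk_X {d : ℕ} (v : Fin 8) (h : d ≤ v.val) :
    Ideal.Quotient.mk (freeIdeal O d) (X v) = 0 :=
  Ideal.Quotient.eq_zero_iff_mem.mpr (Ideal.subset_span ⟨v, h, rfl⟩)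

omit [IsAdicComplete (maximalIdeal O) O] in
theorem X_mem_max (v : Fin 8) :
    (X v : MvPowerSeries (Fin 8) O) ∈ maximalIdeal (MvPowerSeries (Fin 8) O) :=
  FermatAgent.DefRing.varIdeal_le (Ideal.subset_span ⟨v, rfl⟩)

omit [IsDomain O] [IsDiscreteValuationRing O] [IsAdicComplete (maximalIdeal O) O] in
theorem isPt_mk (A : Cfg) (q : ℕ) (c : O) (Φ₀ n₀ : Matrix (Fin 2) (Fin 2) O) :
    IsPt A q c Φ₀ n₀ fun v => Ideal.Quotient.mk (cfgIdeal8 A q c Φ₀ n₀) (X v) :=
  (cfgIdeal8_le_ker_iff A q c Φ₀ n₀ (Ideal.Quotient.mkₐ O (cfgIdeal8 A q c Φ₀ n₀))).mp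
    Ideal.mk_ker.ge

omit [IsAdicComplete (maximalIdeal O) O] in
theorem isUnit_add_of_mem {a b : MvPowerSeries (Fin 8) O} (ha : IsUnit a)
    (hb : b ∈ maximalIdeal (MvPowerSeries (Fin 8) O)) : IsUnit (a + b) := by
  by_contra h
  have h' : a + b ∈ maximalIdeal (MvPowerSeries (Fin 8) O) := (IsLocalRing.mem_maximalIdeal _).mpr h
  exact (IsLocalRing.mem_maximalIdeal _).mp (by simpa using sub_mem h' hb) ha

end Aux

/-- The equations of `ur`, when the upper left entry of the Frobenius is a unit. -/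
theorem ur_equiv_free {q : ℕ} {c : O} {Φ₀ n₀ : Matrix (Fin 2) (Fin 2) O}
    (h : Sat .ur (q : ResidueField O) (residue O c) (Φ₀.map (residue O)) (n₀.map (residue O)))
    (ha : residue O (Φ₀ 0 0) ≠ 0) :
    LocalEquiv (cfgIdeal8 .ur q c Φ₀ n₀) (freeIdeal O 3) := by
  obtain ⟨hn, hd⟩ := sat_ur_iff.mp h
  set al : O →+* MvPowerSeries (Fin 8) O := algebraMap O (MvPowerSeries (Fin 8) O) with hal
  have hu : IsUnit (al (Φ₀ 0 0) + X 0) := isUnit_add_of_mem
    (((residue_ne_zero_iff_isUnit _).mp ha).map al) (X_mem_max 0)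
  obtain ⟨w, hw⟩ := hu.exists_right_inv
  have hcn : ∀ i j, residue O (n₀ i j) = 0 := fun i j => congrFun (congrFun hn i) j
  have hcc : ∀ o, constantCoeff (al o) = o := fun o => by
    show constantCoeff (algebraMap O (MvPowerSeries (Fin 8) O) o) = o
    rw [MvPowerSeries.algebraMap_apply, constantCoeff_C]; rfl
  refine LocalEquiv.of_formula
    ![X 0, X 1, X 2,
      w * (al q + (al (Φ₀ 0 1) + X 1) * (al (Φ₀ 1 0) + X 2)) - al (Φ₀ 1 1),
      -al (n₀ 0 0), -al (n₀ 0 1), -al (n₀ 1 0), -al (n₀ 1 1)]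
    ![X 0, X 1, X 2, 0, 0, 0, 0, 0] ?_ ?_ ?_ ?_ ?_ ?_
  · intro v
    rw [FermatAgent.DefRing.mem_maximalIdeal_iff, ← residue_eq_zero_iff]
    fin_cases v
    case «3» =>
      have e := congrArg constantCoeff hw
      rw [map_mul, map_add, hcc, constantCoeff_X, add_zero, map_one] at e
      have e' := congrArg (residue O) e
      rw [map_mul, map_one] at e'
      rw [Matrix.det_fin_two] at hd
      simp only [Matrix.map_apply] at hd
      simp [hcc]
      linear_combination (residue O (constantCoeff w)) * (-hd) + residue O (Φ₀ 1 1) * e'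
    all_goals simp [hcc, hcn]
  · intro v
    fin_cases v <;> first | exact X_mem_max _ | exact zero_mem _
  · intro f hf
    rw [cfgIdeal8_le_ker_iff, IsPt, sat_ur_iff]
    have e := congrArg (Ideal.Quotient.mk (freeIdeal O 3)) hw
    rw [map_mul, map_add, map_one] at e
    refine ⟨Matrix.ext fun i j => ?_, ?_⟩
    · fin_cases i <;> fin_cases j <;>
        simp [matN, idxN, hf, hal, Ideal.Quotient.mk_algebraMap]
    · rw [Matrix.det_fin_two]
      simp only [Matrix.add_apply, Matrix.map_apply, (matP_apply _).1, (matP_apply _).2.1,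
        (matP_apply _).2.2.1, (matP_apply _).2.2.2, hf]
      simp [hal, Ideal.Quotient.mk_algebraMap] at e ⊢
      linear_combination ((q : MvPowerSeries (Fin 8) O ⧸ freeIdeal O 3) +
        (algebraMap O _ (Φ₀ 0 1) + Ideal.Quotient.mk _ (X 1)) *
          (algebraMap O _ (Φ₀ 1 0) + Ideal.Quotient.mk _ (X 2))) * e
  · intro f hf
    rw [free_apply_eq_zero]
    intro v hv
    fin_cases v <;> simp at hv <;> simp [hf]
  · intro f hf v
    obtain ⟨hN, hdet⟩ := sat_ur_iff.mp (isPt_mk .ur q c Φ₀ n₀)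
    rw [Matrix.det_fin_two] at hdet
    simp only [Matrix.add_apply, Matrix.map_apply, (matP_apply _).1, (matP_apply _).2.1,
      (matP_apply _).2.2.1, (matP_apply _).2.2.2] at hdet
    have hN' : ∀ i j, algebraMap O _ (n₀ i j) + matN (fun v => Ideal.Quotient.mk
        (cfgIdeal8 .ur q c Φ₀ n₀) (X v)) i j = 0 := fun i j => congrFun (congrFun hN i) j
    have e := congrArg f hw
    rw [map_mul, map_add, map_one, hf] at e
    fin_cases v
    case «3» =>
      simp [hal, f.commutes, hf] at e ⊢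
      linear_combination (-(f w)) * hdet +
        (algebraMap O _ (Φ₀ 1 1) + Ideal.Quotient.mk _ (X 3)) * e
    case «4» => simpa [hal, f.commutes, matN, idxN] using neg_eq_of_add_eq_zero_right (hN' 0 0)
    case «5» => simpa [hal, f.commutes, matN, idxN] using neg_eq_of_add_eq_zero_right (hN' 0 1)
    case «6» => simpa [hal, f.commutes, matN, idxN] using neg_eq_of_add_eq_zero_right (hN' 1 0)
    case «7» => simpa [hal, f.commutes, matN, idxN] using neg_eq_of_add_eq_zero_right (hN' 1 1)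
    all_goals simp [hf]
  · intro f hf v
    fin_cases v <;> simp [hf, free_mk_X]

section Normal

variable {ε : ℤˣ} {q : ℕ} {c b₀ z₀ : O}

omit [IsDomain O] [IsDiscreteValuationRing O] [IsAdicComplete (maximalIdeal O) O] in
/-- The scalar equations of `St_ε` at normalised matrices. -/
theorem isPt_st_normal {S : Type} [CommRing S] [Algebra O S] {x : Fin 8 → S} :
    IsPt (.st ε) q c (!![((ε : ℤ) : O) * q, b₀; 0, ((ε : ℤ) : O)]) (!![0, z₀; 0, 0]) x →
    let e : S := ((ε : ℤ) : S); let B := algebraMap O S b₀ + x 1; let Z := algebraMap O S z₀ + x 5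
    x 0 + x 3 = 0 ∧ e * q * x 3 + e * x 0 + x 0 * x 3 - B * x 2 = 0 ∧ x 4 + x 7 = 0 ∧
      x 4 * x 7 - Z * x 6 = 0 ∧ x 0 * Z + B * x 7 = 0 ∧ x 2 * x 4 = (e * q - e - x 3) * x 6 ∧
      x 0 * x 4 + B * x 6 = 0 ∧ x 2 * Z = (e * q - e - x 3) * x 7 ∧
      x 4 * (e * q - e + x 0) + Z * x 2 = 0 := by
  intro h
  obtain ⟨h1, h2, h3, h4, h5, h6⟩ := sat_st_iff.mp h
  have he := int_units_mul_self (S := S) ε
  simp [Matrix.det_fin_two, Matrix.trace_fin_two, matP, matN, idxΦ, idxN, map_intCast] at h1 h2 h3 h4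
  have p00 := congrFun (congrFun h5 0) 0
  have p01 := congrFun (congrFun h5 0) 1
  have p10 := congrFun (congrFun h5 1) 0
  have p11 := congrFun (congrFun h5 1) 1
  have r00 := congrFun (congrFun h6 0) 0
  simp [Matrix.mul_apply, Fin.sum_univ_two, matP, matN, idxΦ, idxN, map_intCast]
    at p00 p01 p10 p11 r00
  refine ⟨?_, ?_, ?_, ?_, ?_, ?_, ?_, ?_, ?_⟩
  · linear_combination h2
  · linear_combination h1 - (q : S) * he
  · linear_combination h3
  · linear_combination h4
  · linear_combination p01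
  · linear_combination p10
  · linear_combination p00
  · linear_combination p11
  · linear_combination r00

omit [IsDomain O] [IsDiscreteValuationRing O] [IsAdicComplete (maximalIdeal O) O] in
/-- The parametrised points of `St_ε`. -/
theorem isPt_st_param {S : Type} [CommRing S] [Algebra O S] {x : Fin 8 → S} (y₀ y₁ y₂ : S)
    (h0 : x 0 = -((algebraMap O S b₀ + y₀) * y₁)) (h1 : x 1 = y₀)
    (h2 : x 2 = y₁ * (((ε : ℤ) : S) * q - ((ε : ℤ) : S) - (algebraMap O S b₀ + y₀) * y₁))
    (h3 : x 3 = (algebraMap O S b₀ + y₀) * y₁) (h4 : x 4 = -((algebraMap O S z₀ + y₂) * y₁))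
    (h5 : x 5 = y₂) (h6 : x 6 = -((algebraMap O S z₀ + y₂) * y₁ ^ 2))
    (h7 : x 7 = (algebraMap O S z₀ + y₂) * y₁) :
    IsPt (.st ε) q c (!![((ε : ℤ) : O) * q, b₀; 0, ((ε : ℤ) : O)]) (!![0, z₀; 0, 0]) x := by
  have he := int_units_mul_self (S := S) ε
  refine sat_st_iff.mpr ⟨?_, ?_, ?_, ?_, Matrix.ext fun i j => ?_, Matrix.ext fun i j => ?_⟩
  case refine_5 | refine_6 =>
    fin_cases i <;> fin_cases j <;>
      simp [Matrix.mul_apply, Fin.sum_univ_two, matP, matN, idxΦ, idxN, map_intCast, h0, h1, h2,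
        h3, h4, h5, h6, h7] <;> ring
  all_goals
    simp [Matrix.det_fin_two, Matrix.trace_fin_two, matP, matN, idxΦ, idxN, map_intCast, h0, h1, h2,
      h3, h4, h5, h6, h7]
  · linear_combination (q : S) * he
  · ring
  · ring

/-- `St_ε` away from the scalar point: a unit `u` with `u x = r` determines the slope `x`. -/
theorem st_equiv_free (u rr : MvPowerSeries (Fin 8) O) (hu : IsUnit u)
    (hr : rr ∈ maximalIdeal (MvPowerSeries (Fin 8) O))
    (hrel : ∀ (S : Type) [CommRing S] [Algebra O S] (f : MvPowerSeries (Fin 8) O →ₐ[O] S) (xh : S),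
      IsPt (.st ε) q c (!![((ε : ℤ) : O) * q, b₀; 0, ((ε : ℤ) : O)]) (!![0, z₀; 0, 0])
        (fun v => f (X v)) → IsUnit (f u) → f u * xh = f rr →
      let e : S := ((ε : ℤ) : S); let B := algebraMap O S b₀ + f (X 1)
      let Z := algebraMap O S z₀ + f (X 5)
      f (X 0) = -(B * xh) ∧ f (X 2) = xh * (e * q - e - B * xh) ∧ f (X 6) = -(Z * xh ^ 2) ∧
        f (X 7) = Z * xh)
    (hpar : ∀ (S : Type) [CommRing S] [Algebra O S] (f : MvPowerSeries (Fin 8) O →ₐ[O] S)
      (y₀ y₁ y₂ : S),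
      f (X 0) = -((algebraMap O S b₀ + y₀) * y₁) → f (X 1) = y₀ →
      f (X 2) = y₁ * (((ε : ℤ) : S) * q - ((ε : ℤ) : S) - (algebraMap O S b₀ + y₀) * y₁) →
      f (X 3) = (algebraMap O S b₀ + y₀) * y₁ → f (X 5) = y₂ →
      f (X 7) = (algebraMap O S z₀ + y₂) * y₁ → f u * y₁ = f rr) :
    LocalEquiv (cfgIdeal8 (.st ε) q c (!![((ε : ℤ) : O) * q, b₀; 0, ((ε : ℤ) : O)])
      (!![0, z₀; 0, 0])) (freeIdeal O 3) := by
  set al : O →+* MvPowerSeries (Fin 8) O := algebraMap O (MvPowerSeries (Fin 8) O) with hal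
  obtain ⟨w, hw⟩ := hu.exists_right_inv
  set e : MvPowerSeries (Fin 8) O := ((ε : ℤ) : MvPowerSeries (Fin 8) O)
  set B := al b₀ + X 0
  set Z := al z₀ + X 2
  have hX := X_mem_max (O := O)
  refine LocalEquiv.of_formula
    ![-(B * X 1), X 0, X 1 * (e * (q : MvPowerSeries (Fin 8) O) - e - B * X 1), B * X 1, -(Z * X 1), X 2, -(Z * X 1 ^ 2),
      Z * X 1]
    ![X 1, w * rr, X 5, 0, 0, 0, 0, 0] ?_ ?_ ?_ ?_ ?_ ?_
  · intro v
    fin_cases v
    exacts [neg_mem (Ideal.mul_mem_left _ _ (hX 1)), hX 0, Ideal.mul_mem_right _ _ (hX 1),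
      Ideal.mul_mem_left _ _ (hX 1), neg_mem (Ideal.mul_mem_left _ _ (hX 1)), hX 2,
      neg_mem (Ideal.mul_mem_left _ _ (Ideal.pow_mem_of_mem _ (hX 1) 2 two_pos)),
      Ideal.mul_mem_left _ _ (hX 1)]
  · intro v
    fin_cases v <;> first | exact X_mem_max _ | exact zero_mem _ | exact Ideal.mul_mem_left _ _ hr
  · intro f hf
    rw [cfgIdeal8_le_ker_iff]
    refine isPt_st_param (Ideal.Quotient.mk _ (X 0)) (Ideal.Quotient.mk _ (X 1))
      (Ideal.Quotient.mk _ (X 2)) ?_ ?_ ?_ ?_ ?_ ?_ ?_ ?_ <;>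
      simp [hf, B, Z, e, hal, Ideal.Quotient.mk_algebraMap]
  · intro f hf
    rw [free_apply_eq_zero]
    intro v hv
    fin_cases v <;> simp at hv <;> simp [hf]
  · set J := cfgIdeal8 (.st ε) q c (!![((ε : ℤ) : O) * q, b₀; 0, ((ε : ℤ) : O)]) (!![0, z₀; 0, 0])
    intro f hf v
    let g := Ideal.Quotient.mkₐ O J
    have hpt : IsPt (.st ε) q c (!![((ε : ℤ) : O) * q, b₀; 0, ((ε : ℤ) : O)]) (!![0, z₀; 0, 0])
        (fun v => g (X v)) := isPt_mk _ _ _ _ _
    have hxh : g u * g (w * rr) = g rr := by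
      rw [← map_mul, ← mul_assoc, hw, one_mul]
    obtain ⟨r0, r2, r6, r7⟩ := hrel _ g (g (w * rr)) hpt (hu.map g) hxh
    obtain ⟨t0, -, t4, -⟩ := isPt_st_normal hpt
    have hg : ∀ p, g p = Ideal.Quotient.mk J p := fun p => rfl
    simp only [hg] at r0 r2 r6 r7 t0 t4
    fin_cases v <;> simp [hf, B, Z, e, hal, f.commutes, map_intCast] <;>
      simp only [← map_mul (Ideal.Quotient.mk J)]
    · exact r0.symm
    · exact r2.symm
    · linear_combination r0 - t0
    · linear_combination r7 - t4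
    · exact r6.symm
    · exact r7.symm
  · intro f hf v
    have hxh : f u * Ideal.Quotient.mk (freeIdeal O 3) (X 1) = f rr := by
      refine hpar _ f (Ideal.Quotient.mk _ (X 0)) _ (Ideal.Quotient.mk _ (X 2)) ?_ ?_ ?_ ?_ ?_ ?_ <;>
        simp [hf, B, Z, e, hal, Ideal.Quotient.mk_algebraMap]
    have hfw : f w * f rr = Ideal.Quotient.mk (freeIdeal O 3) (X 1) := by
      rw [← hxh, ← mul_assoc, mul_comm (f w), ← map_mul, hw, map_one, one_mul]
    fin_cases v <;> simp [hf, free_mk_X, hfw]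

/-- `St_ε` away from the scalar point. -/
theorem st_free_of_not_scalar (h : (q : ResidueField O) ≠ 1 ∨ residue O b₀ ≠ 0 ∨ residue O z₀ ≠ 0) :
    LocalEquiv (cfgIdeal8 (.st ε) q c (!![((ε : ℤ) : O) * q, b₀; 0, ((ε : ℤ) : O)])
      (!![0, z₀; 0, 0])) (freeIdeal O 3) := by
  set al : O →+* MvPowerSeries (Fin 8) O := algebraMap O (MvPowerSeries (Fin 8) O) with hal
  rcases h with h | h | h
  · refine st_equiv_free (al (((ε : ℤ) : O) * q - ((ε : ℤ) : O)) + -X 3) (X 2)
      (isUnit_add_of_mem (((residue_ne_zero_iff_isUnit _).mp ?_).map al) (neg_mem (X_mem_max _)))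
      (X_mem_max _) ?_ ?_
    · intro h0
      rw [map_sub, map_mul, map_intCast, map_natCast] at h0
      exact h (by linear_combination ((ε : ℤ) : ResidueField O) * h0 -
        ((q : ResidueField O) - 1) * int_units_mul_self (S := ResidueField O) ε)
    · intro S _ _ f xh hpt hU hxh
      obtain ⟨t0, D, t4, -, -, p10, -, p11, -⟩ := isPt_st_normal hpt
      simp [hal, map_intCast] at hU hxh
      dsimp only
      have r0 : f (X 0) = -((algebraMap O S b₀ + f (X 1)) * xh) := hU.mul_left_cancel (by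
        linear_combination (-1) * D + (algebraMap O S b₀ + f (X 1)) * hxh +
          ((((ε : ℤ) : S) * q)) * t0)
      have r7 : f (X 7) = (algebraMap O S z₀ + f (X 5)) * xh := hU.mul_left_cancel (by
        linear_combination (-1) * p11 - (algebraMap O S z₀ + f (X 5)) * hxh)
      refine ⟨r0, ?_, hU.mul_left_cancel ?_, r7⟩
      · linear_combination -hxh - xh * t0 + xh * r0
      · linear_combination (-1) * p10 + f (X 2) * t4 - f (X 2) * r7 +
          (algebraMap O S z₀ + f (X 5)) * xh * hxh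
    · intro S _ _ f y₀ y₁ y₂ h0 h1 h2 h3 h5 h7
      simp [hal, map_intCast, h2, h3]
      ring
  · refine st_equiv_free (al b₀ + X 1) (-X 0)
      (isUnit_add_of_mem (((residue_ne_zero_iff_isUnit _).mp h).map al) (X_mem_max _))
      (neg_mem (X_mem_max _)) ?_ ?_
    · intro S _ _ f xh hpt hU hxh
      obtain ⟨t0, D, t4, -, p01, -, p00, -, -⟩ := isPt_st_normal hpt
      simp [hal, f.commutes] at hU hxh
      dsimp only
      have r0 : f (X 0) = -((algebraMap O S b₀ + f (X 1)) * xh) := by linear_combination hxh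
      have r7 : f (X 7) = (algebraMap O S z₀ + f (X 5)) * xh := hU.mul_left_cancel (by
        linear_combination p01 - (algebraMap O S z₀ + f (X 5)) * r0)
      refine ⟨r0, hU.mul_left_cancel ?_, hU.mul_left_cancel ?_, r7⟩
      · linear_combination (-1) * D + (((ε : ℤ) : S) * q + f (X 0)) * t0 +
          (-(((ε : ℤ) : S) * q) + ((ε : ℤ) : S) - f (X 0) + (algebraMap O S b₀ + f (X 1)) * xh) * r0
      · linear_combination p00 - f (X 0) * t4 + f (X 0) * r7 +
          (algebraMap O S z₀ + f (X 5)) * xh * r0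
    · intro S _ _ f y₀ y₁ y₂ h0 h1 h2 h3 h5 h7
      simp [hal, f.commutes, h0, h1]
  · refine st_equiv_free (al z₀ + X 5) (X 7)
      (isUnit_add_of_mem (((residue_ne_zero_iff_isUnit _).mp h).map al) (X_mem_max _))
      (X_mem_max _) ?_ ?_
    · intro S _ _ f xh hpt hU hxh
      obtain ⟨-, -, t4, dn, p01, -, -, -, r00⟩ := isPt_st_normal hpt
      simp [hal, f.commutes] at hU hxh
      dsimp only
      have r7 : f (X 7) = (algebraMap O S z₀ + f (X 5)) * xh := hxh.symm
      have r0 : f (X 0) = -((algebraMap O S b₀ + f (X 1)) * xh) := hU.mul_left_cancel (by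
        linear_combination p01 - (algebraMap O S b₀ + f (X 1)) * r7)
      refine ⟨r0, hU.mul_left_cancel ?_, hU.mul_left_cancel ?_, r7⟩
      · linear_combination r00 - (((ε : ℤ) : S) * q - ((ε : ℤ) : S) + f (X 0)) * (t4 - r7) +
          (algebraMap O S z₀ + f (X 5)) * xh * r0
      · linear_combination (-1) * dn + f (X 7) * t4 -
          (f (X 7) + (algebraMap O S z₀ + f (X 5)) * xh) * r7
    · intro S _ _ f y₀ y₁ y₂ h0 h1 h2 h3 h5 h7
      simp [hal, f.commutes, h5, h7]

omit [IsDomain O] [IsDiscreteValuationRing O] [IsAdicComplete (maximalIdeal O) O] in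
/-- `St_ε` at the scalar point. -/
theorem st_scalar_eq_node :
    cfgIdeal8 (.st ε) q c (!![((ε : ℤ) : O), 0; 0, ((ε : ℤ) : O)]) (0 : Matrix (Fin 2) (Fin 2) O) =
      nodeIdeal (((ε : ℤ) : O) * ((q : O) - 1)) := by
  set J' := nodeIdeal (((ε : ℤ) : O) * ((q : O) - 1)) with hJ'
  refine le_antisymm ?_ ?_
  · rw [← Ideal.mk_ker (I := J'), show RingHom.ker (Ideal.Quotient.mk J') =
      RingHom.ker (Ideal.Quotient.mkₐ O J') from rfl, cfgIdeal8_le_ker_iff, IsPt, sat_st_iff]
    set g := Ideal.Quotient.mkₐ O J'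
    have he := int_units_mul_self (S := MvPowerSeries (Fin 8) O ⧸ J') ε
    have hg : ∀ p ∈ nodeEqns (((ε : ℤ) : O) * ((q : O) - 1)), g p = 0 := fun p hp =>
      Ideal.Quotient.eq_zero_iff_mem.mpr (Ideal.subset_span hp)
    have hC : ∀ o : O, g (C o) = algebraMap O _ o := fun o => g.commutes o
    simp only [nodeEqns, Set.forall_mem_insert, Set.mem_singleton_iff, forall_eq, map_add, map_sub,
      map_mul, map_one, map_natCast, map_intCast] at hg
    obtain ⟨g1, g2, g3, g4, g5, g6, g7, g8, g9, g10, g11, g12⟩ := hg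
    refine ⟨?_, ?_, ?_, ?_, Matrix.ext fun i j => ?_, Matrix.ext fun i j => ?_⟩
    case refine_5 =>
      fin_cases i <;> fin_cases j <;>
        simp [Matrix.mul_apply, Fin.sum_univ_two, matP, matN, idxΦ, idxN, map_intCast]
      · linear_combination g9
      · linear_combination g10
      · linear_combination g11
      · linear_combination g12
    case refine_6 =>
      fin_cases i <;> fin_cases j <;>
        simp [Matrix.mul_apply, Fin.sum_univ_two, matP, matN, idxΦ, idxN, map_intCast]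
      · linear_combination g5
      · linear_combination g6
      · linear_combination g7
      · linear_combination g8
    all_goals
      simp [Matrix.det_fin_two, Matrix.trace_fin_two, matP, matN, idxΦ, idxN, map_intCast]
    · linear_combination g2 + ((ε : ℤ) : MvPowerSeries (Fin 8) O ⧸ J') * g1 +
        (q : MvPowerSeries (Fin 8) O ⧸ J') * he
    · linear_combination g1
    · linear_combination g3
    · linear_combination g4
  · rw [hJ', nodeIdeal, Ideal.span_le]
    intro p hp
    obtain ⟨s1, s2, s3, s4, s5, s6⟩ := sat_st_iff.mp (isPt_mk (.st ε) q c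
      (!![((ε : ℤ) : O), 0; 0, ((ε : ℤ) : O)]) (0 : Matrix (Fin 2) (Fin 2) O))
    refine Ideal.Quotient.eq_zero_iff_mem.mp ?_
    set J := cfgIdeal8 (.st ε) q c (!![((ε : ℤ) : O), 0; 0, ((ε : ℤ) : O)])
      (0 : Matrix (Fin 2) (Fin 2) O)
    have he := int_units_mul_self (S := MvPowerSeries (Fin 8) O ⧸ J) ε
    have hC : ∀ o : O, Ideal.Quotient.mk J (C o) = algebraMap O _ o := fun o =>
      (Ideal.Quotient.mkₐ O J).commutes o
    have p00 := congrFun (congrFun s5 0) 0
    have p01 := congrFun (congrFun s5 0) 1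
    have p10 := congrFun (congrFun s5 1) 0
    have p11 := congrFun (congrFun s5 1) 1
    have r00 := congrFun (congrFun s6 0) 0
    have r01 := congrFun (congrFun s6 0) 1
    have r10 := congrFun (congrFun s6 1) 0
    have r11 := congrFun (congrFun s6 1) 1
    simp [Matrix.det_fin_two, Matrix.trace_fin_two, Matrix.mul_apply, Fin.sum_univ_two, matP, matN,
      idxΦ, idxN, map_intCast] at s1 s2 s3 s4 p00 p01 p10 p11 r00 r01 r10 r11
    rcases hp with rfl | rfl | rfl | rfl | rfl | rfl | rfl | rfl | rfl | rfl | rfl | rfl <;>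
      simp [map_intCast]
    · linear_combination s2
    · linear_combination s1 - ((ε : ℤ) : MvPowerSeries (Fin 8) O ⧸ J) * s2 +
        (-(q : MvPowerSeries (Fin 8) O ⧸ J)) * he
    · linear_combination s3
    · linear_combination s4
    · linear_combination r00
    · linear_combination r01
    · linear_combination r10
    · linear_combination r11
    · linear_combination p00
    · linear_combination p01
    · linear_combination p10
    · linear_combination p11

/-- The walls. -/
theorem wall_equiv_free (h : (q : ResidueField O) ≠ 1) :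
    LocalEquiv (cfgIdeal8 (.wall ε) q c (!![((ε : ℤ) : O) * q, b₀; 0, ((ε : ℤ) : O)])
      (0 : Matrix (Fin 2) (Fin 2) O)) (freeIdeal O 2) := by
  set al : O →+* MvPowerSeries (Fin 8) O := algebraMap O (MvPowerSeries (Fin 8) O) with hal
  set e : MvPowerSeries (Fin 8) O := ((ε : ℤ) : MvPowerSeries (Fin 8) O) with hedef
  have hu : IsUnit (al (((ε : ℤ) : O) * q - ((ε : ℤ) : O)) + -X 3) := by
    refine isUnit_add_of_mem (((residue_ne_zero_iff_isUnit _).mp ?_).map al) (neg_mem (X_mem_max _))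
    intro h0
    rw [map_sub, map_mul, map_intCast, map_natCast] at h0
    exact h (by linear_combination ((ε : ℤ) : ResidueField O) * h0 -
      ((q : ResidueField O) - 1) * int_units_mul_self (S := ResidueField O) ε)
  obtain ⟨w, hw⟩ := hu.exists_right_inv
  set B := al b₀ + X 0
  have hX := X_mem_max (O := O)
  refine LocalEquiv.of_formula
    ![-(B * X 1), X 0, X 1 * (e * (q : MvPowerSeries (Fin 8) O) - e - B * X 1), B * X 1, 0, 0, 0, 0]
    ![X 1, w * X 2, 0, 0, 0, 0, 0, 0] ?_ ?_ ?_ ?_ ?_ ?_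
  · intro v
    fin_cases v
    exacts [neg_mem (Ideal.mul_mem_left _ _ (hX 1)), hX 0, Ideal.mul_mem_right _ _ (hX 1),
      Ideal.mul_mem_left _ _ (hX 1), zero_mem _, zero_mem _, zero_mem _, zero_mem _]
  · intro v
    fin_cases v <;>
      first | exact X_mem_max _ | exact zero_mem _ | exact Ideal.mul_mem_left _ _ (X_mem_max _)
  · intro f hf
    rw [cfgIdeal8_le_ker_iff, IsPt, sat_wall_iff]
    have he := int_units_mul_self (S := MvPowerSeries (Fin 8) O ⧸ freeIdeal O 2) ε
    refine ⟨Matrix.ext fun i j => ?_, ?_, ?_⟩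
    · fin_cases i <;> fin_cases j <;> simp [matN, idxN, hf]
    · simp [Matrix.det_fin_two, matP, idxΦ, hf, hal, B, e, Ideal.Quotient.mk_algebraMap, map_intCast]
      linear_combination (q : MvPowerSeries (Fin 8) O ⧸ freeIdeal O 2) * he
    · simp [Matrix.trace_fin_two, matP, idxΦ, hf, hal, B, e, Ideal.Quotient.mk_algebraMap, map_intCast]
      ring
  · intro f hf
    rw [free_apply_eq_zero]
    intro v hv
    fin_cases v <;> simp at hv <;> simp [hf]
  · obtain ⟨hN, hdet, htr⟩ := sat_wall_iff.mp (isPt_mk (.wall ε) q c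
      (!![((ε : ℤ) : O) * q, b₀; 0, ((ε : ℤ) : O)]) (0 : Matrix (Fin 2) (Fin 2) O))
    set J := cfgIdeal8 (.wall ε) q c (!![((ε : ℤ) : O) * q, b₀; 0, ((ε : ℤ) : O)])
      (0 : Matrix (Fin 2) (Fin 2) O)
    intro f hf v
    have he := int_units_mul_self (S := MvPowerSeries (Fin 8) O ⧸ J) ε
    have hN' : ∀ i j, matN (fun v => Ideal.Quotient.mk J (X v)) i j = 0 := fun i j => by
      simpa using congrFun (congrFun hN i) j
    have n4 := hN' 0 0
    have n5 := hN' 0 1
    have n6 := hN' 1 0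
    have n7 := hN' 1 1
    simp [matN, idxN] at n4 n5 n6 n7
    simp [Matrix.det_fin_two, Matrix.trace_fin_two, matP, idxΦ, map_intCast] at hdet htr
    have hU := (hu.map (Ideal.Quotient.mk J))
    have hxh := congrArg (fun p => Ideal.Quotient.mk J (p * X 2)) hw
    simp [hal, map_intCast] at hU hxh
    have r0 : Ideal.Quotient.mk J (X 0) = -((algebraMap O _ b₀ + Ideal.Quotient.mk J (X 1)) *
        (Ideal.Quotient.mk J w * Ideal.Quotient.mk J (X 2))) := hU.mul_left_cancel (by
      linear_combination (-1) * hdet + (((ε : ℤ) : MvPowerSeries (Fin 8) O ⧸ J) * q) * htr +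
        (algebraMap O _ b₀ + Ideal.Quotient.mk J (X 1)) * hxh +
        (q : MvPowerSeries (Fin 8) O ⧸ J) * he)
    fin_cases v <;>
      simp [hf, B, e, hal, f.commutes, map_intCast, n4, n5, n6, n7]
    · exact r0.symm
    · linear_combination hxh + (Ideal.Quotient.mk J w * Ideal.Quotient.mk J (X 2)) * htr -
        (Ideal.Quotient.mk J w * Ideal.Quotient.mk J (X 2)) * r0
    · linear_combination r0 - htr
  · intro f hf v
    have hfw : f w * f (X 2) = Ideal.Quotient.mk (freeIdeal O 2) (X 1) := by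
      have e1 := congrArg f hw
      rw [map_mul, map_one] at e1
      simp [hf, hal, B, e, map_intCast, Ideal.Quotient.mk_algebraMap] at e1 ⊢
      linear_combination Ideal.Quotient.mk (freeIdeal O 2) (X 1) * e1
    fin_cases v <;> simp [hf, free_mk_X]
    all_goals simpa [hf] using hfw

end Normal

end FermatAgent.RTLift.LocalRings

end
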