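import Fermat.Agent.RTLift.LocalRings.ModelAnn

/-!
# The model of two parallel traceless matrices `n`, `M` with `-det n = s²`
-/

set_option autoImplicit false

noncomputable section

namespace FermatAgent.RTLift.LocalRings

open MvPowerSeries

variable {O : Type} [CommRing O] [IsDomain O] [IsDiscreteValuationRing O]
  {O' : Type} [CommRing O'] [IsDomain O'] [IsDiscreteValuationRing O'] [Algebra O O']
  {k : Type} [Field k] {ϖ : O} {π : O'} {res : O' →+* k}

/-- The ideal in the variables `n_h, n_b, n_g, M_h, M_b, M_g`. -/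
def segIdeal (s : O) : Ideal (MvPowerSeries (Fin 8) O) :=
  Ideal.span {X 0 ^ 2 + X 1 * X 2 - C (s ^ 2), X 0 * X 4 - X 1 * X 3, X 0 * X 5 - X 2 * X 3,
    X 1 * X 5 - X 2 * X 4, X 6, X 7}

theorem segCases (h b g H B G : ℕ) (hB : h = 0 ∨ B = 0) (gB : g = 0 ∨ B = 0) (gH : g = 0 ∨ H = 0)
    (bg : b = 0 ∨ g = 0) (bbG : b ≤ 1 ∨ G = 0) (hbG : h = 0 ∨ b = 0 ∨ G = 0) :
    (1 ≤ B ∧ h = 0 ∧ g = 0 ∧ G = 0) ∨ (1 ≤ B ∧ h = 0 ∧ g = 0 ∧ 1 ≤ G ∧ b ≤ 1) ∨
      (1 ≤ g ∧ b = 0 ∧ H = 0 ∧ B = 0) ∨ (B = 0 ∧ g = 0 ∧ G = 0) ∨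
      (B = 0 ∧ g = 0 ∧ 1 ≤ G ∧ b = 0) ∨ (B = 0 ∧ g = 0 ∧ 1 ≤ G ∧ b = 1 ∧ h = 0) := by
  rcases Nat.eq_zero_or_pos B with rfl | B1
  · rcases Nat.eq_zero_or_pos g with rfl | g1
    · rcases Nat.eq_zero_or_pos G with rfl | G1
      · exact Or.inr (Or.inr (Or.inr (Or.inl ⟨rfl, rfl, rfl⟩)))
      · rcases Nat.eq_zero_or_pos b with rfl | b1
        · exact Or.inr (Or.inr (Or.inr (Or.inr (Or.inl ⟨rfl, rfl, G1, rfl⟩))))
        · exact Or.inr (Or.inr (Or.inr (Or.inr (Or.inr ⟨rfl, rfl, G1,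
            le_antisymm (bbG.resolve_right G1.ne') b1,
            hbG.resolve_right (fun h => h.elim b1.ne' G1.ne')⟩))))
    · exact Or.inr (Or.inr (Or.inl
        ⟨g1, bg.resolve_right g1.ne', gH.resolve_left g1.ne', rfl⟩))
  · have h0 : h = 0 := hB.resolve_right B1.ne'
    have g0 : g = 0 := gB.resolve_right B1.ne'
    rcases Nat.eq_zero_or_pos G with rfl | G1
    · exact Or.inl ⟨B1, h0, g0, rfl⟩
    · exact Or.inr (Or.inl ⟨B1, h0, g0, G1, bbG.resolve_right G1.ne'⟩)

/-- The exponents of a reduced monomial of the Segre model are determined by three weights. -/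
theorem segInj {h b g H B G h' b' g' H' B' G' : ℕ}
    (a : (1 ≤ B ∧ h = 0 ∧ g = 0 ∧ G = 0) ∨ (1 ≤ B ∧ h = 0 ∧ g = 0 ∧ 1 ≤ G ∧ b ≤ 1) ∨
      (1 ≤ g ∧ b = 0 ∧ H = 0 ∧ B = 0) ∨ (B = 0 ∧ g = 0 ∧ G = 0) ∨
      (B = 0 ∧ g = 0 ∧ 1 ≤ G ∧ b = 0) ∨ (B = 0 ∧ g = 0 ∧ 1 ≤ G ∧ b = 1 ∧ h = 0))
    (a' : (1 ≤ B' ∧ h' = 0 ∧ g' = 0 ∧ G' = 0) ∨ (1 ≤ B' ∧ h' = 0 ∧ g' = 0 ∧ 1 ≤ G' ∧ b' ≤ 1) ∨
      (1 ≤ g' ∧ b' = 0 ∧ H' = 0 ∧ B' = 0) ∨ (B' = 0 ∧ g' = 0 ∧ G' = 0) ∨
      (B' = 0 ∧ g' = 0 ∧ 1 ≤ G' ∧ b' = 0) ∨ (B' = 0 ∧ g' = 0 ∧ 1 ≤ G' ∧ b' = 1 ∧ h' = 0))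
    (e0 : h + b + g' + 2 * G' = h' + b' + g + 2 * G) (e1 : h + H = h' + H')
    (e2 : H + B + G = H' + B' + G') :
    h = h' ∧ b = b' ∧ g = g' ∧ H = H' ∧ B = B' ∧ G = G' := by
  rcases a with a | a | a | a | a | a <;> rcases a' with c | c | c | c | c | c <;>
    obtain ⟨a1, a2, a3, a4⟩ := a <;> obtain ⟨c1, c2, c3, c4⟩ := c <;>
    refine ⟨?_, ?_, ?_, ?_, ?_, ?_⟩ <;> omega

theorem eq_zero_or_of_not {a b : ℕ} (h : ¬(1 ≤ a ∧ 1 ≤ b)) : a = 0 ∨ b = 0 := by omega

set_option maxHeartbeats 1600000 in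
/-- The Segre model. -/
def modelSeg (hE : Extends ϖ π res) (h2 : IsUnit (2 : O)) (s : O) (hs : ϖ ∣ s) (e : ℕ) (u : O')
    (he : 1 ≤ e) (hsu : algebraMap O O' s = π ^ e * u) (hu : res u ≠ 0) : Model ϖ π res where
  J := segIdeal s
  d := 3
  w := ![e, e, e, 1, 1, 1, 1, 1]
  hw v := by fin_cases v <;> simp <;> omega
  L := ![AddMonoidAlgebra.single ![1, 1, 0] u, AddMonoidAlgebra.single ![1, 0, 0] u,
    AddMonoidAlgebra.single ![-1, 0, 0] u + AddMonoidAlgebra.single ![1, 2, 0] (-u),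
    AddMonoidAlgebra.single ![0, 1, 1] 1, AddMonoidAlgebra.single ![0, 0, 1] 1,
    AddMonoidAlgebra.single ![-2, 0, 1] 1 + AddMonoidAlgebra.single ![0, 2, 1] (-1), 0, 0]
  hJ φ hφ := by
    have hC : ∀ x : O, φ (C x) = C (algebraMap O O' x) := fun x =>
      (φ.commutes x).trans (MvPowerSeries.algebraMap_apply (R := O) (A := O') (r := x))
    have h0 := hφ 0
    have h1 := hφ 1
    have h2 := hφ 2
    have h3 := hφ 3
    have h4 := hφ 4
    have h5 := hφ 5
    simp [-coe_tUnit, emb_single3] at h0 h1 h2 h3 h4 h5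
    have hT := pv_mul_pvi (S := O') (0 : Fin 3)
    rw [segIdeal, Ideal.span_le]
    rintro x (rfl | rfl | rfl | rfl | rfl | rfl)
    · show φ (X 0 ^ 2 + X 1 * X 2 - C (s ^ 2)) = 0
      rw [map_sub, map_add, map_mul, map_pow, h0, h1, h2, hC, map_pow, hsu]
      simp only [map_pow, map_mul]
      linear_combination (C π ^ (2 * e) * C u ^ 2 : MvPowerSeries (Fin 3) O') * hT
    · show φ (X 0 * X 4 - X 1 * X 3) = 0
      rw [map_sub, map_mul, map_mul, h0, h1, h3, h4]
      ring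
    · show φ (X 0 * X 5 - X 2 * X 3) = 0
      rw [map_sub, map_mul, map_mul, h0, h2, h3, h5]
      linear_combination (C π ^ e * C π * C u * pvi 0 * pv 1 * pv 2 : MvPowerSeries (Fin 3) O') * hT
    · show φ (X 1 * X 5 - X 2 * X 4) = 0
      rw [map_sub, map_mul, map_mul, h1, h2, h4, h5]
      linear_combination (C π ^ e * C π * C u * pvi 0 * pv 2 : MvPowerSeries (Fin 3) O') * hT
    all_goals
      show φ (X _) = 0
      rw [hφ]
      simp
  G := Pi.evalAddMonoidHom (fun _ : Fin 3 => ℤ) 1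
  ℓ := ![![1, 1, 0], ![1, 0, 0], ![-1, 0, 0], ![0, 1, 1], ![0, 0, 1], ![-2, 0, 1], 0, 0]
  rules := [(Finsupp.single 0 1 + Finsupp.single 4 1, 1, Finsupp.single 1 1 + Finsupp.single 3 1),
    (Finsupp.single 2 1 + Finsupp.single 4 1, 1, Finsupp.single 1 1 + Finsupp.single 5 1),
    (Finsupp.single 2 1 + Finsupp.single 3 1, 1, Finsupp.single 0 1 + Finsupp.single 5 1),
    (Finsupp.single 1 1 + Finsupp.single 2 1, -1, Finsupp.single 0 2),
    (Finsupp.single 1 2 + Finsupp.single 5 1, -1, Finsupp.single 0 2 + Finsupp.single 4 1),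
    (Finsupp.single 0 1 + Finsupp.single 1 1 + Finsupp.single 5 1, -1,
      Finsupp.single 0 2 + Finsupp.single 3 1),
    (Finsupp.single 6 1, 0, 0), (Finsupp.single 7 1, 0, 0)]
  μ := ![1, 2, 5, 0, 2, 2, 0, 0]
  hrules := by
    intro ρ hρ
    obtain ⟨a, rfl⟩ := hs
    set Q : MvPowerSeries (Fin 8) O := X 0 ^ 2 + X 1 * X 2 - C ((ϖ * a) ^ 2)
    set K := segIdeal (ϖ * a) ⊔ Ideal.span {algebraMap O (MvPowerSeries (Fin 8) O) ϖ}
    have hJ : ∀ {x}, x ∈ ({X 0 ^ 2 + X 1 * X 2 - C ((ϖ * a) ^ 2), X 0 * X 4 - X 1 * X 3,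
        X 0 * X 5 - X 2 * X 3, X 1 * X 5 - X 2 * X 4, X 6, X 7} :
          Set (MvPowerSeries (Fin 8) O)) → x ∈ K :=
      fun h => Ideal.mem_sup_left (Ideal.subset_span h)
    have hd : (C ((ϖ * a) ^ 2) : MvPowerSeries (Fin 8) O) ∈ K := by
      refine Ideal.mem_sup_right (Ideal.mem_span_singleton'.mpr ⟨C (ϖ * a * a), ?_⟩)
      rw [MvPowerSeries.algebraMap_apply, Algebra.algebraMap_self, RingHom.id_apply, ← map_mul,
        show (ϖ * a) ^ 2 = ϖ * a * a * ϖ by ring]
    have hQ : (X 0 ^ 2 + X 1 * X 2 : MvPowerSeries (Fin 8) O) ∈ K := by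
      simpa [Q] using K.add_mem (hJ (Or.inl rfl)) hd
    refine ⟨?_, ?_⟩
    · simp only [List.mem_cons, List.not_mem_nil, or_false] at hρ
      rcases hρ with rfl | rfl | rfl | rfl | rfl | rfl | rfl | rfl <;>
        simp only [mon11, mon2, mon21, mon111, mon1, map_one, one_mul, map_neg, map_zero,
          sub_zero]
      · exact hJ (Or.inr (Or.inl rfl))
      · convert K.neg_mem (hJ (Or.inr (Or.inr (Or.inr (Or.inl rfl))))) using 1
        ring
      · convert K.neg_mem (hJ (Or.inr (Or.inr (Or.inl rfl)))) using 1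
        ring
      · convert hQ using 1
        ring
      · convert K.add_mem (K.mul_mem_left (X 1) (hJ (Or.inr (Or.inr (Or.inr (Or.inl rfl))))))
          (K.mul_mem_left (X 4) hQ) using 1
        ring
      · convert K.add_mem (K.mul_mem_left (X 1) (hJ (Or.inr (Or.inr (Or.inl rfl)))))
          (K.mul_mem_left (X 3) hQ) using 1
        ring
      · exact hJ (by simp)
      · exact hJ (by simp)
    · simp only [List.mem_cons, List.not_mem_nil, or_false] at hρ
      rcases hρ with rfl | rfl | rfl | rfl | rfl | rfl | rfl | rfl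
      case inr.inr.inr.inr.inr.inr.inl => exact Or.inl rfl
      case inr.inr.inr.inr.inr.inr.inr => exact Or.inl rfl
      all_goals exact Or.inr ⟨by simp [Finsupp.degree_eq_sum, Fin.sum_univ_eight],
        by simp [Fin.sum_univ_eight]⟩
  hlead := by
    intro m hm v hv
    simp only [List.forall_mem_cons, List.not_mem_nil, single_le_iff] at hm
    fin_cases v
    case «0» => simp; exact hasLead_single hu
    case «1» => simp; exact hasLead_single hu
    case «2» => simp [map_add]; rw [← AddMonoidAlgebra.single_neg]; refine hasLead_add_single hu ?_; show (0 : ℤ) < 2; norm_num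
    case «3» => simp; exact hasLead_single one_ne_zero
    case «4» => simp; exact hasLead_single one_ne_zero
    case «5» => simp [map_add]; rw [← AddMonoidAlgebra.single_neg]; refine hasLead_add_single one_ne_zero ?_; show (0 : ℤ) < 2; norm_num
    all_goals simp at hv; omega
  hinj := by
    intro m m' hm hm' he
    simp only [List.forall_mem_cons, List.not_mem_nil, single_le_iff,
      single3_le_iff (show (0 : Fin 8) ≠ 1 by decide) (show (0 : Fin 8) ≠ 5 by decide)
        (show (1 : Fin 8) ≠ 5 by decide),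
      single2_le_iff (show (0 : Fin 8) ≠ 4 by decide),
      single2_le_iff (show (2 : Fin 8) ≠ 4 by decide),
      single2_le_iff (show (2 : Fin 8) ≠ 3 by decide),
      single2_le_iff (show (1 : Fin 8) ≠ 2 by decide),
      single2_le_iff (show (1 : Fin 8) ≠ 5 by decide)] at hm hm'
    have e0 := congrFun he 0
    have e1 := congrFun he 1
    have e2 := congrFun he 2
    simp [Fin.sum_univ_eight] at e0 e1 e2
    obtain ⟨p1, p2, p3, p4, p5, p6, p7, p8, -⟩ := hm
    obtain ⟨q1, q2, q3, q4, q5, q6, q7, q8, -⟩ := hm'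
    have n0 : m 0 + m 1 + m' 2 + 2 * m' 5 = m' 0 + m' 1 + m 2 + 2 * m 5 := by
      clear p1 p2 p3 p4 p5 p6 q1 q2 q3 q4 q5 q6; omega
    have n1 : m 0 + m 3 = m' 0 + m' 3 := by exact_mod_cast e1
    have n2 : m 3 + m 4 + m 5 = m' 3 + m' 4 + m' 5 := by exact_mod_cast e2
    clear he e0 e1 e2
    have h := segInj
      (segCases (m 0) (m 1) (m 2) (m 3) (m 4) (m 5) (eq_zero_or_of_not p1) (eq_zero_or_of_not p2)
        (eq_zero_or_of_not p3) (eq_zero_or_of_not p4) (by clear n0 n1 n2; omega)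
        (by clear n0 n1 n2; omega))
      (segCases (m' 0) (m' 1) (m' 2) (m' 3) (m' 4) (m' 5) (eq_zero_or_of_not q1)
        (eq_zero_or_of_not q2) (eq_zero_or_of_not q3) (eq_zero_or_of_not q4)
        (by clear n0 n1 n2; omega) (by clear n0 n1 n2; omega)) n0 n1 n2
    ext v
    fin_cases v
    case «6» => exact (Nat.eq_zero_of_not_pos p7).trans (Nat.eq_zero_of_not_pos q7).symm
    case «7» => exact (Nat.eq_zero_of_not_pos p8).trans (Nat.eq_zero_of_not_pos q8).symm
    all_goals simp [h.1, h.2.1, h.2.2.1, h.2.2.2.1, h.2.2.2.2.1, h.2.2.2.2.2]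
  u := ![X 0 + X 3, X 1 + X 5, X 2 + C 2 * X 4]
  hum t := by fin_cases t <;> simp
  hu P hP hJ hϖ hu := by
    have := hP
    set q := Ideal.Quotient.mk P with hq
    have g : ∀ {x}, x ∈ ({X 0 ^ 2 + X 1 * X 2 - C (s ^ 2), X 0 * X 4 - X 1 * X 3,
        X 0 * X 5 - X 2 * X 3, X 1 * X 5 - X 2 * X 4, X 6, X 7} :
          Set (MvPowerSeries (Fin 8) O)) → q x = 0 :=
      fun h => Ideal.Quotient.eq_zero_iff_mem.mpr (hJ (Ideal.subset_span h))
    have hd : q (C s) = 0 := by
      obtain ⟨a, rfl⟩ := hs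
      rw [MvPowerSeries.algebraMap_apply, Algebra.algebraMap_self, RingHom.id_apply] at hϖ
      rw [map_mul C, map_mul, Ideal.Quotient.eq_zero_iff_mem.mpr hϖ, zero_mul]
    have htwo : q (C (2 : O)) ≠ 0 := by
      have := h2.map (q.comp (C : O →+* MvPowerSeries (Fin 8) O))
      exact this.ne_zero
    have hu' : ∀ t, q (![X 0 + X 3, X 1 + X 5, X 2 + C 2 * X 4] t) = 0 :=
      fun t => Ideal.Quotient.eq_zero_iff_mem.mpr (hu t)
    have u0 := hu' 0; have u1 := hu' 1; have u2 := hu' 2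
    simp only [Matrix.cons_val_zero, Matrix.cons_val_one, Matrix.cons_val, map_add, map_mul]
      at u0 u1 u2
    have q0 := g (Or.inl rfl)
    have m1 := g (Or.inr (Or.inl rfl))
    have m2 := g (Or.inr (Or.inr (Or.inl rfl)))
    have m3 := g (Or.inr (Or.inr (Or.inr (Or.inl rfl))))
    rw [map_sub, map_add, map_mul, map_pow, map_pow, map_pow, hd] at q0
    rw [map_sub, map_mul, map_mul] at m1 m2 m3
    have z0 : q (X 0) = 0 := by
      by_contra h
      have a1 : q (X 4) + q (X 1) = 0 := mul_left_cancel₀ h (by linear_combination m1 + q (X 1) * u0)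
      have a2 : q (X 1) + q (C 2) * q (X 4) = 0 :=
        mul_left_cancel₀ h (by linear_combination -m2 + q (X 0) * u1 - q (X 3) * u2 + q (C 2) * q (X 4) * u0)
      have htwo' : q (C (2 : O)) - 1 ≠ 0 := by
        have h1 : q (C (2 : O)) - 1 = q (C (1 : O)) := by
          rw [show (2 : O) = 1 + 1 by norm_num, map_add, map_add, map_one, map_one, add_sub_cancel_right]
        rw [h1, map_one, map_one]
        exact one_ne_zero
      have z4 : q (X 4) = 0 := mul_left_cancel₀ htwo' (by linear_combination a2 - a1)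
      rw [z4, zero_add] at a1
      exact h ((pow_eq_zero_iff two_ne_zero).mp (by linear_combination q0 - q (X 2) * a1))
    have z3 : q (X 3) = 0 := by rw [z0, zero_add] at u0; exact u0
    have z14 : q (X 1) * q (X 4) = 0 := mul_left_cancel₀ htwo (by
      linear_combination (-1) * q0 + q (X 1) * u2 + q (X 0) * z0)
    have z1 : q (X 1) = 0 ∧ q (X 4) = 0 := by
      rcases mul_eq_zero.mp z14 with h | h
      · refine ⟨h, (pow_eq_zero_iff two_ne_zero).mp (mul_left_cancel₀ htwo ?_)⟩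
        linear_combination m3 - q (X 5) * h + q (X 4) * u2
      · refine ⟨(pow_eq_zero_iff two_ne_zero).mp ?_, h⟩
        linear_combination q (X 1) * u1 - m3 - q (X 2) * h
    intro v
    refine Ideal.Quotient.eq_zero_iff_mem.mp ?_
    fin_cases v
    · exact z0
    · exact z1.1
    · show q (X 2) = 0
      linear_combination u2 - q (C 2) * z1.2
    · exact z3
    · exact z1.2
    · show q (X 5) = 0
      linear_combination u1 - z1.1
    all_goals exact g (by simp)
  htri φ hφ t := by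
    have hC : ∀ x : O, φ (C x) = C (algebraMap O O' x) := fun x =>
      (φ.commutes x).trans (MvPowerSeries.algebraMap_apply (R := O) (A := O') (r := x))
    have h0 := hφ 0
    have h1 := hφ 1
    have h4 := hφ 4
    simp [-coe_tUnit, emb_single3] at h0 h1 h4
    have hu0 : u ≠ 0 := fun h => hu (by rw [h, map_zero])
    have hne : (C π ^ e * C u : MvPowerSeries (Fin 3) O') ≠ 0 := by
      refine mul_ne_zero (pow_ne_zero _ fun h => ?_) fun h => ?_
      · exact hE.irrπ.ne_zero (by simpa using congrArg constantCoeff h)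
      · exact hu0 (by simpa using congrArg constantCoeff h)
    fin_cases t
    · refine ⟨X 1 - C s, ?_, ?_⟩ <;> rw [map_sub, h1, hC, hsu] <;>
        simp only [map_mul, map_pow, map_sub, proj_C]
      · rw [proj_pv_notMem (by simp)]
        ring
      · rw [proj_pv_mem (by simp)]
        exact fun h => mul_ne_zero hne (pv_sub_one_ne_zero (0 : Fin 3)) (by linear_combination h)
    · refine ⟨X 0 - X 1, ?_, ?_⟩ <;> rw [map_sub, h0, h1] <;>
        simp only [map_mul, map_pow, map_sub, proj_C]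
      · rw [proj_pv_notMem (v := (1 : Fin 3)) (by simp), proj_pv_mem (v := (0 : Fin 3)) (by simp)]
        ring
      · rw [proj_pv_mem (v := (1 : Fin 3)) (by simp), proj_pv_mem (v := (0 : Fin 3)) (by simp)]
        exact fun h => mul_ne_zero (mul_ne_zero hne (Units.ne_zero (tUnit (0 : Fin 3))))
          (pv_sub_one_ne_zero (1 : Fin 3)) (by linear_combination h)
    · refine ⟨X 4 ^ 2 - C ϖ, ?_, ?_⟩ <;> rw [map_sub, map_pow, h4, hC, ← hE.sq] <;>
        simp only [map_mul, map_pow, map_sub, proj_C]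
      · rw [proj_pv_notMem (by simp)]
        ring
      · rw [proj_pv_mem (by simp)]
        have key : (C π : MvPowerSeries (Fin 3) O') ^ 2 * (pv 2 ^ 2 - 1) ≠ 0 := by
          refine mul_ne_zero (pow_ne_zero 2 fun hh => ?_)
            (pv_sq_sub_one_ne_zero (2 : Fin 3) (two_ne_zero_of_isUnit h2))
          exact hE.irrπ.ne_zero (by simpa using congrArg constantCoeff hh)
        exact fun h => key (by linear_combination h)

end FermatAgent.RTLift.LocalRings

end
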