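import Fermat.Agent.RTLift.LocalRings.CcBasics
import Fermat.Agent.RTLift.LocalRings.CaseFlat
import Fermat.Agent.RTLift.LocalRings.ModelSeg

/-!
# The configuration `C_c` as a model
-/

set_option autoImplicit false

noncomputable section

namespace FermatAgent.RTLift.LocalRings

open IsLocalRing MvPowerSeries Matrix

variable {O : Type} [CommRing O] [IsDomain O] [IsDiscreteValuationRing O]
  [IsAdicComplete (maximalIdeal O) O]

/-- Reduction of a power series to the residue field. -/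
def red8 (O : Type) [CommRing O] [IsLocalRing O] :
    MvPowerSeries (Fin 8) O →+* ResidueField O :=
  (residue O).comp constantCoeff

omit [IsDomain O] [IsDiscreteValuationRing O] [IsAdicComplete (maximalIdeal O) O] in
theorem red8_X [IsLocalRing O] (v : Fin 8) : red8 O (X v) = 0 := by simp [red8]

omit [IsDomain O] [IsDiscreteValuationRing O] [IsAdicComplete (maximalIdeal O) O] in
theorem red8_algebraMap [IsLocalRing O] (o : O) :
    red8 O (algebraMap O (MvPowerSeries (Fin 8) O) o) = residue O o := by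
  simp [red8, MvPowerSeries.algebraMap_apply]

omit [IsAdicComplete (maximalIdeal O) O] in
theorem mem_max_iff (p : MvPowerSeries (Fin 8) O) :
    p ∈ maximalIdeal (MvPowerSeries (Fin 8) O) ↔ red8 O p = 0 := by
  rw [FermatAgent.DefRing.mem_maximalIdeal_iff, ← residue_eq_zero_iff]; rfl

omit [IsAdicComplete (maximalIdeal O) O] in
theorem isUnit_of_red8 {p : MvPowerSeries (Fin 8) O} (h : red8 O p ≠ 0) : IsUnit p := by
  by_contra hp
  exact h ((mem_max_iff p).mp ((IsLocalRing.mem_maximalIdeal _).mpr hp))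

variable {q : ℕ} {c ρ γ s b₀ z₀ hh : O}

set_option maxHeartbeats 1600000 in
/-- `C_c` when the monodromy is residually non-zero. -/
theorem cc_free (hρ : ρ ^ 2 = q) (hγ : 2 * γ = c) (hs : s ^ 2 = γ ^ 2 - 1) (hh2 : 2 * hh = 1)
    (hs0 : residue O s = 0) (hρ0 : residue O ρ ≠ 0) (hz : residue O z₀ ≠ 0) :
    LocalEquiv (cfgIdeal8 .cc q c (!![ρ, b₀; 0, ρ]) (!![γ - 1, z₀; 0, γ - 1])) (freeIdeal O 3) := by
  have h2r : (2 : ResidueField O) ≠ 0 := fun h => by
    simpa [h, map_ofNat] using congrArg (residue O) hh2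
  obtain ⟨uz, huz⟩ := (residue_ne_zero_iff_isUnit _).mp hz
  obtain ⟨uρ, huρ⟩ := (residue_ne_zero_iff_isUnit (2 * ρ)).mp (by
    rw [map_mul, map_ofNat]; exact mul_ne_zero h2r hρ0)
  set e₀ : O := b₀ * (uz⁻¹ : Oˣ) * (uρ⁻¹ : Oˣ) with he₀
  have he₀' : z₀ * (2 * ρ) * e₀ = b₀ := by
    rw [he₀, ← huz, ← huρ]
    linear_combination b₀ * ((uρ : O) * (uρ⁻¹ : Oˣ)) * uz.mul_inv + b₀ * uρ.mul_inv
  set al : O →+* MvPowerSeries (Fin 8) O := algebraMap O (MvPowerSeries (Fin 8) O) with hal
  set Z := al z₀ + X 1 with hZ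
  set E := al e₀ + X 2 with hE
  obtain ⟨W, hW⟩ := (isUnit_of_red8 (p := Z) (by simpa [hZ, hal, red8_X, red8_algebraMap] using hz)).exists_right_inv
  have hde : red8 O (E ^ 2 * al (s ^ 2)) = 0 := by simp [hal, red8_algebraMap, hs0]
  obtain ⟨V, hV⟩ := (isUnit_of_red8 (p := 1 - E ^ 2 * al (s ^ 2)) (by
    rw [map_sub, map_one, hde, sub_zero]; exact one_ne_zero)).exists_right_inv
  obtain ⟨w, hw⟩ := (isUnit_of_red8 (p := (al ρ + al ρ) + al hh * (X 0 + X 3)) (by
    simp [hal, red8_X, red8_algebraMap]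
    rw [← two_mul]
    exact mul_ne_zero h2r hρ0)).exists_right_inv
  obtain ⟨WZ, hWZ⟩ := (isUnit_of_red8 (p := al z₀ + X 5) (by
    simpa [hal, red8_X, red8_algebraMap] using hz)).exists_right_inv
  set g := (al (s ^ 2) - X 0 ^ 2) * W
  set e := E ^ 2 * al (s ^ 2)
  have hwr : red8 O w = (residue O (2 * ρ))⁻¹ := by
    refine eq_inv_of_mul_eq_one_right ?_
    have := congrArg (red8 O) hw
    simpa [hal, red8_X, red8_algebraMap, map_ofNat, two_mul] using this
  have hVr : red8 O V = 1 := by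
    have := congrArg (red8 O) hV
    rwa [map_mul, map_sub, map_one, hde, sub_zero, one_mul] at this
  have hgr : red8 O g = 0 := by simp [g, hal, red8_X, red8_algebraMap, hs0]
  refine LocalEquiv.of_formula
    ![(al ρ + al ρ) * V * (e + E * X 0), (al ρ + al ρ) * V * (E * Z) - al b₀, (al ρ + al ρ) * V * (E * g),
      (al ρ + al ρ) * V * (e - E * X 0), X 0, X 1, g, -X 0]
    ![X 4, X 5, (al b₀ + X 1) * w * WZ - al e₀, 0, 0, 0, 0, 0] ?_ ?_ ?_ ?_ ?_ ?_
  · intro v
    rw [mem_max_iff]
    fin_cases v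
    case «1» =>
      have := congrArg (residue O) he₀'
      simp [hVr, hal, hZ, hE, red8_X, red8_algebraMap]
      simp [map_ofNat] at this
      linear_combination this
    all_goals simp [e, hVr, hgr, red8_X, hal, red8_algebraMap, hs0]
  · intro v
    rw [mem_max_iff]
    fin_cases v
    case «2» =>
      have h1 := congrArg (residue O) he₀'
      have h2 := congrArg (red8 O) hWZ
      simp [hal, red8_X, red8_algebraMap, map_ofNat] at h1 h2
      simp [hwr, hal, red8_X, red8_algebraMap, map_ofNat]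
      field_simp
      linear_combination (-(red8 O WZ)) * h1 + (2 * residue O ρ * residue O e₀) * h2
    all_goals simp [red8_X]
  · intro f hf
    rw [cfgIdeal8_le_ker_iff, isPt_cc_iff hρ hγ hs]
    set m := Ideal.Quotient.mk (freeIdeal O 3)
    have eW := congrArg m hW
    have eV := congrArg m hV
    simp [m] at eW eV
    refine ccEqns_param (m (X 0)) (m Z) (m g) (m (E * X 0)) (m (E * Z)) (m (E * g)) (m e) (m V)
      ?_ ?_ ?_ ?_ ?_ ?_ ?_ ?_ ?_ ?_ ?_ ?_ ?_ ?_ <;>
      simp [m, hf, e, g, hal, hZ, hE, two_mul, Ideal.Quotient.mk_algebraMap] at eW eV ⊢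
    · linear_combination (algebraMap O _ s ^ 2 - Ideal.Quotient.mk _ (X 0) ^ 2) * eW
    · ring
    · ring
    · ring
    · linear_combination (-((algebraMap O _ e₀ + Ideal.Quotient.mk _ (X 2)) ^ 2 *
        (algebraMap O _ s ^ 2 - Ideal.Quotient.mk _ (X 0) ^ 2))) * eW
    · linear_combination eV
  · intro f hf
    rw [free_apply_eq_zero]
    intro v hv
    fin_cases v <;> simp at hv <;> simp [hf]
  · set J := cfgIdeal8 .cc q c (!![ρ, b₀; 0, ρ]) (!![γ - 1, z₀; 0, γ - 1]) with hJ
    intro f hf v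
    have hx := (isPt_cc_iff hρ hγ hs).mp (isPt_mk .cc q c (!![ρ, b₀; 0, ρ]) (!![γ - 1, z₀; 0, γ - 1]))
    rw [← hJ] at hx
    obtain ⟨t, hn, c00, c01, c10, -⟩ := id hx
    have ew := congrArg (Ideal.Quotient.mk J) hw
    have eWZ := congrArg (Ideal.Quotient.mk J) hWZ
    have eW := congrArg f hW
    have eV := congrArg f hV
    simp [e, hal, hZ, hE, f.commutes, hf, Ideal.Quotient.mk_algebraMap] at ew eWZ eW eV
    set m := Ideal.Quotient.mk J
    set a := algebraMap O (MvPowerSeries (Fin 8) O ⧸ J)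
    have eh : (2 : MvPowerSeries (Fin 8) O ⧸ J) * a hh = 1 := by
      rw [← map_ofNat a 2, ← map_mul, hh2, map_one]
    set Eh := (a b₀ + m (X 1)) * m w * m WZ with hEh
    have hH : Eh * m (X 4) = a hh * (m (X 0) - m (X 3)) * m w := by
      rw [hEh]
      linear_combination (-(a hh * m w * m WZ)) * c01 + (a hh * (m (X 0) - m (X 3)) * m w) * eWZ +
        (a hh * m w * m WZ * (a b₀ + m (X 1))) * t - ((a b₀ + m (X 1)) * m w * m WZ * m (X 4)) * eh
    have hB : Eh * (a z₀ + m (X 5)) = (a b₀ + m (X 1)) * m w := by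
      rw [hEh]; linear_combination (a b₀ + m (X 1)) * m w * eWZ
    have hG : Eh * m (X 6) = m (X 2) * m w := by
      rw [hEh]; linear_combination m w * m WZ * c00 + m (X 2) * m w * eWZ
    have he : Eh ^ 2 * a s ^ 2 = (Eh * m (X 4)) ^ 2 +
        Eh * (a z₀ + m (X 5)) * (Eh * m (X 6)) := by linear_combination (-(Eh ^ 2)) * hn
    have hfg : (a s ^ 2 - m (X 4) ^ 2) * f W = m (X 6) := by
      linear_combination (-(f W)) * hn + m (X 6) * eW
    obtain ⟨-, r0, r1, r2, r3⟩ := ccEqns_reconstruct hx eh (by rw [two_mul]; exact ew) _ _ _ _ (f V) hH hB hG he eV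
    fin_cases v <;> simp [e, g, hal, hZ, hE, f.commutes, hf]
    · linear_combination (-1) * r0
    · linear_combination (-1) * r1
    · linear_combination (-1) * r2 + 2 * a ρ * f V * Eh * hfg
    · linear_combination (-1) * r3
    · exact hfg
    · linear_combination (-1) * t
  · intro f hf v
    set a := algebraMap O (MvPowerSeries (Fin 8) O ⧸ freeIdeal O 3)
    set m := Ideal.Quotient.mk (freeIdeal O 3)
    have ew := congrArg f hw
    have eWZ := congrArg f hWZ
    have eV := congrArg m hV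
    simp [m, e, hal, hZ, hE, f.commutes, hf, Ideal.Quotient.mk_algebraMap] at ew eWZ eV
    have eh : (2 : MvPowerSeries (Fin 8) O ⧸ freeIdeal O 3) * a hh = 1 := by
      rw [← map_ofNat a 2, ← map_mul, hh2, map_one]
    fin_cases v
    case «2» =>
      simp [m, g, e, hal, hZ, hE, f.commutes, hf, Ideal.Quotient.mk_algebraMap]
      linear_combination (2 * a ρ * m V * (a e₀ + m (X 2)) * f w) * eWZ +
        (a e₀ + m (X 2)) * ew + (2 * a ρ * (a e₀ + m (X 2)) * f w) * eV -
        (2 * a ρ * m V * (a e₀ + m (X 2)) * f w * ((a e₀ + m (X 2)) ^ 2 * a s ^ 2)) * eh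
    all_goals simp [m, hf, free_mk_X]

set_option maxHeartbeats 1600000 in
/-- `C_c` at the scalar point. -/
theorem cc_seg (hρ : ρ ^ 2 = q) (hγ : 2 * γ = c) (hs : s ^ 2 = γ ^ 2 - 1) (hh2 : 2 * hh = 1)
    (hρ0 : residue O ρ ≠ 0) :
    LocalEquiv (cfgIdeal8 .cc q c (!![ρ, 0; 0, ρ]) (!![γ - 1, 0; 0, γ - 1])) (segIdeal s) := by
  have h2r : (2 : ResidueField O) ≠ 0 := fun h => by
    simpa [h, map_ofNat] using congrArg (residue O) hh2
  set al : O →+* MvPowerSeries (Fin 8) O := algebraMap O (MvPowerSeries (Fin 8) O) with hal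
  set e : MvPowerSeries (Fin 8) O := X 3 ^ 2 + X 4 * X 5 with he
  obtain ⟨V, hV⟩ := (isUnit_of_red8 (p := 1 - e) (by simp [he, red8_X])).exists_right_inv
  obtain ⟨w, hw⟩ := (isUnit_of_red8 (p := (al ρ + al ρ) + al hh * (X 0 + X 3)) (by
    simp [hal, red8_X, red8_algebraMap]
    rw [← two_mul]
    exact mul_ne_zero h2r hρ0)).exists_right_inv
  have hgen : ∀ p ∈ ({X 0 ^ 2 + X 1 * X 2 - C (s ^ 2), X 0 * X 4 - X 1 * X 3,
      X 0 * X 5 - X 2 * X 3, X 1 * X 5 - X 2 * X 4, X 6, X 7} : Set (MvPowerSeries (Fin 8) O)),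
      Ideal.Quotient.mk (segIdeal s) p = 0 := fun p hp =>
    Ideal.Quotient.eq_zero_iff_mem.mpr (Ideal.subset_span hp)
  have hC : ∀ o : O, Ideal.Quotient.mk (segIdeal s) (C o) =
      algebraMap O (MvPowerSeries (Fin 8) O ⧸ segIdeal s) o := fun o =>
    (Ideal.Quotient.mkₐ O (segIdeal s)).commutes o
  simp only [Set.forall_mem_insert, Set.mem_singleton_iff, forall_eq, map_sub, map_add, map_mul,
    map_pow, hC] at hgen
  obtain ⟨gn, g1, g2, g3, g6, g7⟩ := hgen
  refine LocalEquiv.of_formula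
    ![(al ρ + al ρ) * V * (e + X 3), (al ρ + al ρ) * V * X 4, (al ρ + al ρ) * V * X 5,
      (al ρ + al ρ) * V * (e - X 3), X 0, X 1, X 2, -X 0]
    ![X 4, X 5, X 6, al hh * (X 0 - X 3) * w, X 1 * w, X 2 * w, 0, 0] ?_ ?_ ?_ ?_ ?_ ?_
  · intro v
    rw [mem_max_iff]
    fin_cases v <;> simp [he, red8_X]
  · intro v
    rw [mem_max_iff]
    fin_cases v <;> simp [red8_X]
  · intro f hf
    rw [cfgIdeal8_le_ker_iff, isPt_cc_iff hρ hγ hs]
    set m := Ideal.Quotient.mk (segIdeal s)
    have eV := congrArg m hV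
    simp [m] at eV
    refine ccEqns_param (m (X 0)) (m (X 1)) (m (X 2)) (m (X 3)) (m (X 4)) (m (X 5)) (m e) (m V)
      ?_ ?_ ?_ ?_ ?_ ?_ ?_ ?_ ?_ ?_ ?_ ?_ ?_ ?_ <;>
      simp [m, hf, he, hal, two_mul, Ideal.Quotient.mk_algebraMap] at eV ⊢
    · linear_combination gn
    · linear_combination g1
    · linear_combination g2
    · linear_combination g3
    · linear_combination eV
  · set J := cfgIdeal8 .cc q c (!![ρ, 0; 0, ρ]) (!![γ - 1, 0; 0, γ - 1]) with hJ
    intro f hf
    have hx := (isPt_cc_iff hρ hγ hs).mp (isPt_mk .cc q c (!![ρ, 0; 0, ρ]) (!![γ - 1, 0; 0, γ - 1]))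
    rw [← hJ] at hx
    obtain ⟨t, hn, c00, c01, c10, -⟩ := id hx
    set a := algebraMap O (MvPowerSeries (Fin 8) O ⧸ J)
    have eh : (2 : MvPowerSeries (Fin 8) O ⧸ J) * a hh = 1 := by
      rw [← map_ofNat a 2, ← map_mul, hh2, map_one]
    simp only [map_zero, zero_add] at hn c00 c01 c10
    have hCf : ∀ o : O, f (C o) = a o := fun o => f.commutes o
    rw [segIdeal, Ideal.span_le]
    intro p hp
    show f p = 0
    set m := Ideal.Quotient.mk J
    rcases hp with rfl | rfl | rfl | rfl | rfl | rfl <;>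
      simp [m, hf, hal, hCf, Ideal.Quotient.mk_algebraMap]
    · linear_combination hn
    · linear_combination (-(a hh * m w)) * c01 + (a hh * m w * m (X 1)) * t -
        (m (X 4) * m (X 1) * m w) * eh
    · linear_combination (a hh * m w) * c10 + (a hh * m w * m (X 2)) * t -
        (m (X 4) * m (X 2) * m w) * eh
    · linear_combination (-(m w)) * c00
  · set J := cfgIdeal8 .cc q c (!![ρ, 0; 0, ρ]) (!![γ - 1, 0; 0, γ - 1]) with hJ
    intro f hf v
    have hx := (isPt_cc_iff hρ hγ hs).mp (isPt_mk .cc q c (!![ρ, 0; 0, ρ]) (!![γ - 1, 0; 0, γ - 1]))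
    rw [← hJ] at hx
    obtain ⟨t, -⟩ := id hx
    have ew := congrArg (Ideal.Quotient.mk J) hw
    have eV := congrArg f hV
    simp [hal, he, hf, Ideal.Quotient.mk_algebraMap] at ew eV
    set a := algebraMap O (MvPowerSeries (Fin 8) O ⧸ J)
    set m := Ideal.Quotient.mk J
    have eh : (2 : MvPowerSeries (Fin 8) O ⧸ J) * a hh = 1 := by
      rw [← map_ofNat a 2, ← map_mul, hh2, map_one]
    obtain ⟨-, r0, r1, r2, r3⟩ := ccEqns_reconstruct hx eh (by rw [two_mul]; exact ew)
      (a hh * (m (X 0) - m (X 3)) * m w) ((a 0 + m (X 1)) * m w) (m (X 2) * m w) _ (f V) rfl rfl rfl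
      rfl (by simpa using eV)
    simp only [map_zero, zero_add] at r0 r1 r2 r3
    fin_cases v <;> simp [m, he, hal, f.commutes, hf, Ideal.Quotient.mk_algebraMap]
    · linear_combination (-1) * r0
    · linear_combination (-1) * r1
    · linear_combination (-1) * r2
    · linear_combination (-1) * r3
    · linear_combination (-1) * t
  · intro f hf v
    have ew := congrArg f hw
    have eV := congrArg (Ideal.Quotient.mk (segIdeal s)) hV
    simp [he, hal, f.commutes, hf, Ideal.Quotient.mk_algebraMap] at ew eV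
    set a := algebraMap O (MvPowerSeries (Fin 8) O ⧸ segIdeal s)
    set m := Ideal.Quotient.mk (segIdeal s)
    have eh : (2 : MvPowerSeries (Fin 8) O ⧸ segIdeal s) * a hh = 1 := by
      rw [← map_ofNat a 2, ← map_mul, hh2, map_one]
    set E := m (X 3) ^ 2 + m (X 4) * m (X 5) with hEdef
    have hT : 2 * a ρ * m V * f w = 1 := by
      linear_combination ew + 2 * a ρ * f w * eV - (2 * a ρ * m V * E * f w) * eh
    fin_cases v <;> simp [m, he, hal, f.commutes, hf, Ideal.Quotient.mk_algebraMap, g6, g7]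
    · linear_combination (m (X 3)) * hT + (2 * a ρ * m V * m (X 3) * f w) * eh
    · linear_combination (m (X 4)) * hT
    · linear_combination (m (X 5)) * hT

set_option maxHeartbeats 1600000 in
/-- `C_c` when only the Frobenius is residually non-scalar. -/
theorem cc_ann (hρ : ρ ^ 2 = q) (hγ : 2 * γ = c) (hs : s ^ 2 = γ ^ 2 - 1) (hh2 : 2 * hh = 1)
    (hρ0 : residue O ρ ≠ 0) (hb : residue O b₀ ≠ 0) :
    LocalEquiv (cfgIdeal8 .cc q c (!![ρ, b₀; 0, ρ]) (!![γ - 1, 0; 0, γ - 1])) (annIdeal s) := by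
  have h2r : (2 : ResidueField O) ≠ 0 := fun h => by
    simpa [h, map_ofNat] using congrArg (residue O) hh2
  obtain ⟨uρ, huρ⟩ := (residue_ne_zero_iff_isUnit (2 * ρ)).mp (by
    rw [map_mul, map_ofNat]; exact mul_ne_zero h2r hρ0)
  set β : O := b₀ * (uρ⁻¹ : Oˣ) with hβ
  have hβ' : 2 * ρ * β = b₀ := by
    rw [hβ, ← huρ]; linear_combination b₀ * uρ.mul_inv
  have hβr : residue O β ≠ 0 := fun h => hb (by rw [← hβ', map_mul, h, mul_zero])
  set al : O →+* MvPowerSeries (Fin 8) O := algebraMap O (MvPowerSeries (Fin 8) O) with hal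
  set B := al β + X 2 with hB
  obtain ⟨W, hW⟩ := (isUnit_of_red8 (p := B) (by
    simpa [hB, hal, red8_X, red8_algebraMap] using hβr)).exists_right_inv
  obtain ⟨V, hV⟩ := (isUnit_of_red8 (p := (1 - X 1 : MvPowerSeries (Fin 8) O)) (by simp [red8_X])).exists_right_inv
  obtain ⟨w, hw⟩ := (isUnit_of_red8 (p := (al ρ + al ρ) + al hh * (X 0 + X 3)) (by
    simp [hal, red8_X, red8_algebraMap]
    rw [← two_mul]
    exact mul_ne_zero h2r hρ0)).exists_right_inv
  obtain ⟨WB, hWB⟩ := (isUnit_of_red8 (p := al b₀ + X 1) (by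
    simpa [hal, red8_X, red8_algebraMap] using hb)).exists_right_inv
  set G := (X 1 - X 3 ^ 2) * W with hG
  set T := (al ρ + al ρ) + al hh * (X 0 + X 3) with hT
  have hVr : red8 O V = 1 := by
    have := congrArg (red8 O) hV
    simpa [red8_X] using this
  have hwr : red8 O w * residue O (2 * ρ) = 1 := by
    have := congrArg (red8 O) hw
    rw [mul_comm]
    simpa [hT, hal, red8_X, red8_algebraMap, map_ofNat, two_mul] using this
  have hgn : Ideal.Quotient.mk (annIdeal s) (X 0) ^ 2 * Ideal.Quotient.mk (annIdeal s) (X 1) =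
      algebraMap O (MvPowerSeries (Fin 8) O ⧸ annIdeal s) s ^ 2 := by
    have h := (Ideal.Quotient.eq_zero_iff_mem (I := annIdeal s)).mpr
      (Ideal.subset_span (Or.inl rfl))
    have hC : Ideal.Quotient.mk (annIdeal s) (C (s ^ 2)) =
        algebraMap O (MvPowerSeries (Fin 8) O ⧸ annIdeal s) (s ^ 2) :=
      (Ideal.Quotient.mkₐ O (annIdeal s)).commutes _
    rw [map_sub, map_mul, map_pow, hC, map_pow] at h
    linear_combination h
  have hz : ∀ v : Fin 8, 4 ≤ v.val → Ideal.Quotient.mk (annIdeal s) (X v) = 0 := fun v hv => by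
    refine Ideal.Quotient.eq_zero_iff_mem.mpr (Ideal.subset_span ?_)
    fin_cases v <;> simp at hv ⊢
  refine LocalEquiv.of_formula
    ![(al ρ + al ρ) * V * (X 1 + X 3), (al ρ + al ρ) * V * B - al b₀, (al ρ + al ρ) * V * G,
      (al ρ + al ρ) * V * (X 1 - X 3), X 0 * X 3, X 0 * B, X 0 * G, -(X 0 * X 3)]
    ![X 5 * WB * T, (al hh * (X 0 - X 3) * w) ^ 2 + (al b₀ + X 1) * X 2 * w ^ 2,
      (al b₀ + X 1) * w - al β, al hh * (X 0 - X 3) * w, 0, 0, 0, 0] ?_ ?_ ?_ ?_ ?_ ?_
  · intro v
    rw [mem_max_iff]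
    fin_cases v
    case «1» =>
      have := congrArg (residue O) hβ'
      simp [hVr, hB, hal, red8_X, red8_algebraMap]
      simp [map_ofNat] at this
      linear_combination this
    all_goals simp [hG, red8_X]
  · intro v
    rw [mem_max_iff]
    fin_cases v
    case «2» =>
      have h1 := congrArg (residue O) hβ'
      simp [hal, red8_X, red8_algebraMap, map_ofNat] at h1 hwr ⊢
      linear_combination (residue O β) * hwr - red8 O w * h1
    all_goals simp [red8_X]
  · intro f hf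
    rw [cfgIdeal8_le_ker_iff, isPt_cc_iff hρ hγ hs]
    set m := Ideal.Quotient.mk (annIdeal s)
    have eW := congrArg m hW
    have eV := congrArg m hV
    simp [m, hB, hal, Ideal.Quotient.mk_algebraMap] at eW eV
    refine ccEqns_param (m (X 0 * X 3)) (m (X 0 * B)) (m (X 0 * G)) (m (X 3)) (m B) (m G) (m (X 1))
      (m V) ?_ ?_ ?_ ?_ ?_ ?_ ?_ ?_ ?_ ?_ ?_ ?_ ?_ ?_ <;>
      simp [m, hf, hG, hB, hal, two_mul, Ideal.Quotient.mk_algebraMap] at eW eV ⊢
    · linear_combination hgn + (Ideal.Quotient.mk _ (X 0) ^ 2 * (Ideal.Quotient.mk _ (X 1) -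
        Ideal.Quotient.mk _ (X 3) ^ 2)) * eW
    · ring
    · ring
    · ring
    · linear_combination (-(Ideal.Quotient.mk _ (X 1) - Ideal.Quotient.mk _ (X 3) ^ 2)) * eW
    · linear_combination eV
  · set J := cfgIdeal8 .cc q c (!![ρ, b₀; 0, ρ]) (!![γ - 1, 0; 0, γ - 1]) with hJ
    intro f hf
    have hx := (isPt_cc_iff hρ hγ hs).mp (isPt_mk .cc q c (!![ρ, b₀; 0, ρ]) (!![γ - 1, 0; 0, γ - 1]))
    rw [← hJ] at hx
    obtain ⟨t, hn, c00, c01, c10, -⟩ := id hx
    simp only [map_zero, zero_add] at hn c00 c01 c10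
    have ew := congrArg (Ideal.Quotient.mk J) hw
    have eWB := congrArg (Ideal.Quotient.mk J) hWB
    simp [hT, hal, Ideal.Quotient.mk_algebraMap] at ew eWB
    set a := algebraMap O (MvPowerSeries (Fin 8) O ⧸ J)
    set m := Ideal.Quotient.mk J
    have eh : (2 : MvPowerSeries (Fin 8) O ⧸ J) * a hh = 1 := by
      rw [← map_ofNat a 2, ← map_mul, hh2, map_one]
    have hCf : ∀ o : O, f (C o) = a o := fun o => f.commutes o
    have yH : m (X 5) * m WB * (2 * a ρ + a hh * (m (X 0) + m (X 3))) *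
        (a hh * (m (X 0) - m (X 3)) * m w) = m (X 4) := by
      linear_combination (m (X 5) * m WB * a hh * (m (X 0) - m (X 3))) * ew + m WB * a hh * c01 -
        (m WB * a hh * (a b₀ + m (X 1))) * t + m (X 4) * eWB +
        (m WB * m (X 4) * (a b₀ + m (X 1))) * eh
    have yB : m (X 5) * m WB * (2 * a ρ + a hh * (m (X 0) + m (X 3))) *
        ((a b₀ + m (X 1)) * m w) = m (X 5) := by
      linear_combination (m (X 5) * m WB * (a b₀ + m (X 1))) * ew + m (X 5) * eWB
    have yG : m (X 5) * m WB * (2 * a ρ + a hh * (m (X 0) + m (X 3))) *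
        (m (X 2) * m w) = m (X 6) := by
      linear_combination (m (X 5) * m WB * m (X 2)) * ew + m (X 6) * eWB - m WB * c00
    rw [annIdeal, Ideal.span_le]
    intro p hp
    show f p = 0
    rcases hp with rfl | rfl | rfl | rfl | rfl <;>
      simp [m, hT, hf, hal, hCf, Ideal.Quotient.mk_algebraMap]
    set y := m (X 5) * m WB * (2 * a ρ + a hh * (m (X 0) + m (X 3)))
    linear_combination hn + (y * (a hh * (m (X 0) - m (X 3)) * m w) + m (X 4)) * yH +
      (y * (m (X 2) * m w)) * yB + m (X 5) * yG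
  · set J := cfgIdeal8 .cc q c (!![ρ, b₀; 0, ρ]) (!![γ - 1, 0; 0, γ - 1]) with hJ
    intro f hf v
    have hx := (isPt_cc_iff hρ hγ hs).mp (isPt_mk .cc q c (!![ρ, b₀; 0, ρ]) (!![γ - 1, 0; 0, γ - 1]))
    rw [← hJ] at hx
    obtain ⟨t, hn, c00, c01, c10, -⟩ := id hx
    simp only [map_zero, zero_add] at hn c00 c01 c10
    have ew := congrArg (Ideal.Quotient.mk J) hw
    have eWB := congrArg (Ideal.Quotient.mk J) hWB
    have eW := congrArg f hW
    have eV := congrArg f hV
    simp [hT, hB, hal, f.commutes, hf, Ideal.Quotient.mk_algebraMap] at ew eWB eW eV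
    set a := algebraMap O (MvPowerSeries (Fin 8) O ⧸ J)
    set m := Ideal.Quotient.mk J
    have eh : (2 : MvPowerSeries (Fin 8) O ⧸ J) * a hh = 1 := by
      rw [← map_ofNat a 2, ← map_mul, hh2, map_one]
    set T' := 2 * a ρ + a hh * (m (X 0) + m (X 3))
    set H1 := a hh * (m (X 0) - m (X 3)) * m w with hH1
    set B1 := (a b₀ + m (X 1)) * m w with hB1
    set G1 := m (X 2) * m w with hG1
    set e := H1 ^ 2 + B1 * G1 with he
    have he' : (a hh * (m (X 0) - m (X 3)) * m w) ^ 2 + (a b₀ + m (X 1)) * m (X 2) * m w ^ 2 = e := by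
      rw [he, hH1, hB1, hG1]; ring
    obtain ⟨-, r0, r1, r2, r3⟩ := ccEqns_reconstruct hx eh (by rw [two_mul]; exact ew) H1 B1 G1 e (f V) hH1 hB1 hG1 he
      (by linear_combination eV + f V * he')
    have yH : m (X 5) * m WB * T' * H1 = m (X 4) := by
      linear_combination (m (X 5) * m WB * a hh * (m (X 0) - m (X 3))) * ew + m WB * a hh * c01 -
        (m WB * a hh * (a b₀ + m (X 1))) * t + m (X 4) * eWB +
        (m WB * m (X 4) * (a b₀ + m (X 1))) * eh
    have yB : m (X 5) * m WB * T' * B1 = m (X 5) := by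
      linear_combination (m (X 5) * m WB * (a b₀ + m (X 1))) * ew + m (X 5) * eWB
    have yG : m (X 5) * m WB * T' * G1 = m (X 6) := by
      linear_combination (m (X 5) * m WB * m (X 2)) * ew + m (X 6) * eWB - m WB * c00
    have fG : (e - H1 ^ 2) * f W = G1 := by linear_combination G1 * eW + f W * he
    fin_cases v <;> simp [hT, hG, hB, hal, f.commutes, hf]
    · linear_combination (2 * a ρ * f V) * he' - r0
    · linear_combination (-1) * r1
    · linear_combination (2 * a ρ * f V * f W) * he' + (2 * a ρ * f V) * fG - r2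
    · linear_combination (2 * a ρ * f V) * he' - r3
    · linear_combination yH
    · linear_combination yB
    · linear_combination (m (X 5) * m WB * T') * fG + (m (X 5) * m WB * T' * f W) * he' + yG
    · linear_combination (-1) * yH - t
  · intro f hf v
    have ew := congrArg f hw
    have eWB := congrArg f hWB
    have eW := congrArg (Ideal.Quotient.mk (annIdeal s)) hW
    have eV := congrArg (Ideal.Quotient.mk (annIdeal s)) hV
    simp [hT, hG, hB, hal, f.commutes, hf, Ideal.Quotient.mk_algebraMap] at ew eWB eW eV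
    set a := algebraMap O (MvPowerSeries (Fin 8) O ⧸ annIdeal s)
    set m := Ideal.Quotient.mk (annIdeal s)
    have eh : (2 : MvPowerSeries (Fin 8) O ⧸ annIdeal s) * a hh = 1 := by
      rw [← map_ofNat a 2, ← map_mul, hh2, map_one]
    set B' := a β + m (X 2) with hB'
    have hTw : 2 * a ρ * m V * f w = 1 := by
      linear_combination ew + 2 * a ρ * f w * eV - (2 * a ρ * m V * m (X 1) * f w) * eh
    have hTp : 2 * a ρ + a hh * (2 * a ρ * m V * (m (X 1) + m (X 3)) +
        2 * a ρ * m V * (m (X 1) - m (X 3))) = 2 * a ρ * m V := by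
      linear_combination (2 * a ρ * m V * m (X 1)) * eh - (2 * a ρ) * eV
    fin_cases v
    case «0» =>
      simp [m, hT, hG, hB, hal, f.commutes, hf, Ideal.Quotient.mk_algebraMap]
      linear_combination m (X 0) * eWB + (m (X 0) * B' * f WB) * hTp
    case «1» =>
      simp [m, hT, hG, hB, hal, f.commutes, hf, Ideal.Quotient.mk_algebraMap]
      linear_combination (m (X 3) ^ 2 * (2 * a ρ * m V * f w) ^ 2 * (2 * a hh + 1)) * eh +
        ((2 * a ρ * m V * f w) ^ 2 * (m (X 1) - m (X 3) ^ 2)) * eW +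
        (m (X 1) * (2 * a ρ * m V * f w + 1)) * hTw
    case «2» =>
      simp [m, hT, hG, hB, hal, f.commutes, hf, Ideal.Quotient.mk_algebraMap]
      linear_combination B' * hTw
    case «3» =>
      simp [m, hT, hG, hB, hal, f.commutes, hf, Ideal.Quotient.mk_algebraMap]
      linear_combination m (X 3) * hTw + (2 * a ρ * m V * m (X 3) * f w) * eh
    all_goals simp [m, hz]

end FermatAgent.RTLift.LocalRings

end
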