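import Fermat.Agent.RTLift.LocalRings.ModelFree

/-!
# The model of a traceless matrix `M` with `-det M = δ²`
-/

set_option autoImplicit false

noncomputable section

namespace FermatAgent.RTLift.LocalRings

open MvPowerSeries

variable {O : Type} [CommRing O] [IsDomain O] [IsDiscreteValuationRing O]
  {O' : Type} [CommRing O'] [IsDomain O'] [IsDiscreteValuationRing O'] [Algebra O O']
  {k : Type} [Field k] {ϖ : O} {π : O'} {res : O' →+* k}

/-- The cone in the variables `h, b, g`. -/
def coneIdeal (δ : O) : Ideal (MvPowerSeries (Fin 8) O) :=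
  Ideal.span {X 0 ^ 2 + X 1 * X 2 - C (δ ^ 2), X 3, X 4, X 5, X 6, X 7}

/-- The cone model. -/
def modelCone (hE : Extends ϖ π res) (δ : O) (hs : ϖ ∣ δ) (e : ℕ) (u : O')
    (he : 1 ≤ e) (hsu : algebraMap O O' δ = π ^ e * u) (hu : res u ≠ 0) : Model ϖ π res where
  J := coneIdeal δ
  d := 2
  w := ![e, e, e, 1, 1, 1, 1, 1]
  hw v := by fin_cases v <;> simp <;> omega
  L := ![AddMonoidAlgebra.single ![0, 1] u, AddMonoidAlgebra.single ![1, 0] u,
    AddMonoidAlgebra.single ![-1, 0] u + AddMonoidAlgebra.single ![-1, 2] (-u), 0, 0, 0, 0, 0]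
  hJ φ hφ := by
    have hC : ∀ x : O, φ (C x) = C (algebraMap O O' x) := fun x =>
      (φ.commutes x).trans (MvPowerSeries.algebraMap_apply (R := O) (A := O') (r := x))
    have h0 := hφ 0
    have h1 := hφ 1
    have h2 := hφ 2
    simp [-coe_tUnit, emb_single_eq, Fin.prod_univ_two] at h0 h1 h2
    have hT := pv_mul_pvi (S := O') (0 : Fin 2)
    rw [coneIdeal, Ideal.span_le]
    rintro x (rfl | rfl | rfl | rfl | rfl | rfl)
    · show φ (X 0 ^ 2 + X 1 * X 2 - C (δ ^ 2)) = 0
      rw [map_sub, map_add, map_mul, map_pow, h0, h1, h2, hC, map_pow, hsu]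
      simp only [map_pow, map_mul]
      linear_combination
        (C π ^ (2 * e) * C u ^ 2 * (1 - pv 1 ^ 2) : MvPowerSeries (Fin 2) O') * hT
    all_goals
      show φ (X _) = 0
      rw [hφ]
      simp
  G := Pi.evalAddMonoidHom (fun _ : Fin 2 => ℤ) 1
  ℓ := ![![0, 1], ![1, 0], ![-1, 0], 0, 0, 0, 0, 0]
  rules := [(Finsupp.single 1 1 + Finsupp.single 2 1, -1, Finsupp.single 0 2),
    (Finsupp.single 3 1, 0, 0), (Finsupp.single 4 1, 0, 0), (Finsupp.single 5 1, 0, 0),
    (Finsupp.single 6 1, 0, 0), (Finsupp.single 7 1, 0, 0)]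
  μ := ![0, 1, 1, 0, 0, 0, 0, 0]
  hrules := by
    intro ρ hρ
    refine ⟨?_, ?_⟩
    · simp only [List.mem_cons, List.not_mem_nil, or_false] at hρ
      rcases hρ with rfl | rfl | rfl | rfl | rfl | rfl
      · obtain ⟨a, rfl⟩ := hs
        rw [mon11, mon2, map_neg, map_one, one_mul,
          show (X 1 * X 2 : MvPowerSeries (Fin 8) O) - -1 * X 0 ^ 2 =
            (X 0 ^ 2 + X 1 * X 2 - C ((ϖ * a) ^ 2)) + C (ϖ * a * a) * algebraMap O _ ϖ by
              rw [MvPowerSeries.algebraMap_apply, Algebra.algebraMap_self, RingHom.id_apply,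
                ← map_mul, show (ϖ * a) ^ 2 = ϖ * a * a * ϖ by ring]
              ring]
        exact Submodule.add_mem_sup (Ideal.subset_span (Or.inl rfl))
          (Ideal.mem_span_singleton'.mpr ⟨_, rfl⟩)
      all_goals
        rw [map_zero, sub_zero, mon1, map_one, one_mul]
        exact Ideal.mem_sup_left (Ideal.subset_span (by simp))
    · simp only [List.mem_cons, List.not_mem_nil, or_false] at hρ
      rcases hρ with rfl | rfl | rfl | rfl | rfl | rfl
      · exact Or.inr ⟨by simp [Finsupp.degree_eq_sum, Fin.sum_univ_eight],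
          by simp [Fin.sum_univ_eight]⟩
      all_goals exact Or.inl rfl
  hlead := by
    intro m hm v hv
    simp only [List.forall_mem_cons, List.not_mem_nil, single_le_iff] at hm
    fin_cases v
    case «0» => simp; exact hasLead_single hu
    case «1» => simp; exact hasLead_single hu
    case «2» =>
      simp [map_add]
      rw [← AddMonoidAlgebra.single_neg]
      refine hasLead_add_single hu ?_
      show (0 : ℤ) < 2
      norm_num
    all_goals simp at hv; omega
  hinj := by
    intro m m' hm hm' he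
    simp only [List.forall_mem_cons, List.not_mem_nil, single_le_iff,
      single2_le_iff (show (1 : Fin 8) ≠ 2 by decide)] at hm hm'
    have e0 := congrFun he 0
    have e1 := congrFun he 1
    simp [Fin.sum_univ_eight] at e0 e1
    ext v
    fin_cases v <;> simp <;> omega
  u := ![X 0, X 1 + X 2]
  hum t := by fin_cases t <;> simp
  hu P hP hJ hϖ hu := by
    have := hP
    have g : ∀ {x}, x ∈ ({X 0 ^ 2 + X 1 * X 2 - C (δ ^ 2), X 3, X 4, X 5, X 6, X 7} :
        Set (MvPowerSeries (Fin 8) O)) → x ∈ P := fun h => hJ (Ideal.subset_span h)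
    have hd : C (δ ^ 2) ∈ P := by
      obtain ⟨a, rfl⟩ := hs
      rw [show (ϖ * a) ^ 2 = ϖ * (a * a * ϖ) by ring, map_mul]
      rw [MvPowerSeries.algebraMap_apply, Algebra.algebraMap_self, RingHom.id_apply] at hϖ
      exact P.mul_mem_right _ hϖ
    have h0 : (X 0 : MvPowerSeries (Fin 8) O) ∈ P := hu 0
    have h12 : X 1 + X 2 ∈ P := hu 1
    have hb : (X 1 : MvPowerSeries (Fin 8) O) ∈ P := by
      refine hP.mem_of_pow_mem 2 ?_
      rw [show (X 1 : MvPowerSeries (Fin 8) O) ^ 2 = X 1 * (X 1 + X 2) -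
        ((X 0 ^ 2 + X 1 * X 2 - C (δ ^ 2)) + C (δ ^ 2) - X 0 * X 0) by ring]
      exact P.sub_mem (P.mul_mem_left _ h12)
        (P.sub_mem (P.add_mem (g (Or.inl rfl)) hd) (P.mul_mem_left _ h0))
    intro v
    fin_cases v
    · exact h0
    · exact hb
    · simpa using P.sub_mem h12 hb
    all_goals exact g (by simp)
  htri φ hφ t := by
    have hC : ∀ x : O, φ (C x) = C (algebraMap O O' x) := fun x =>
      (φ.commutes x).trans (MvPowerSeries.algebraMap_apply (R := O) (A := O') (r := x))
    have h0 := hφ 0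
    have h1 := hφ 1
    simp [-coe_tUnit, emb_single_eq, Fin.prod_univ_two] at h0 h1
    have hu0 : u ≠ 0 := fun h => hu (by rw [h, map_zero])
    have hne : (C π ^ e * C u : MvPowerSeries (Fin 2) O') ≠ 0 := by
      refine mul_ne_zero (pow_ne_zero _ fun h => ?_) fun h => ?_
      · exact hE.irrπ.ne_zero (by simpa using congrArg constantCoeff h)
      · exact hu0 (by simpa using congrArg constantCoeff h)
    fin_cases t
    · refine ⟨X 1 - C δ, ?_, ?_⟩ <;> rw [map_sub, h1, hC, hsu] <;>
        simp only [map_mul, map_pow, map_sub, proj_C]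
      · rw [proj_pv_notMem (by simp)]
        ring
      · rw [proj_pv_mem (by simp)]
        exact fun h => mul_ne_zero hne (pv_sub_one_ne_zero (0 : Fin 2)) (by linear_combination h)
    · refine ⟨X 0 - C δ, ?_, ?_⟩ <;> rw [map_sub, h0, hC, hsu] <;>
        simp only [map_mul, map_pow, map_sub, proj_C]
      · rw [proj_pv_notMem (by simp)]
        ring
      · rw [proj_pv_mem (by simp)]
        exact fun h => mul_ne_zero hne (pv_sub_one_ne_zero (1 : Fin 2)) (by linear_combination h)

end FermatAgent.RTLift.LocalRings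

end
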