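import Fermat.Agent.RTLift.LocalRings.CaseFlat
import Fermat.Agent.RTLift.LocalRings.ModelCone

/-!
# The walls when the Frobenius is residually non-semisimple or scalar
-/

set_option autoImplicit false

noncomputable section

namespace FermatAgent.RTLift.LocalRings

open IsLocalRing MvPowerSeries Matrix

variable {O : Type} [CommRing O] [IsDomain O] [IsDiscreteValuationRing O]
  [IsAdicComplete (maximalIdeal O) O] {ε : ℤˣ} {q : ℕ} {c b₀ : O}

/-- The walls when the Frobenius is residually non-semisimple. -/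
theorem wall_equiv_free_of_b (h : residue O b₀ ≠ 0) :
    LocalEquiv (cfgIdeal8 (.wall ε) q c (!![((ε : ℤ) : O) * q, b₀; 0, ((ε : ℤ) : O)])
      (0 : Matrix (Fin 2) (Fin 2) O)) (freeIdeal O 2) := by
  set al : O →+* MvPowerSeries (Fin 8) O := algebraMap O (MvPowerSeries (Fin 8) O) with hal
  set e : MvPowerSeries (Fin 8) O := ((ε : ℤ) : MvPowerSeries (Fin 8) O) with hedef
  have hu : IsUnit (al b₀ + X 1) :=
    isUnit_add_of_mem (((residue_ne_zero_iff_isUnit _).mp h).map al) (X_mem_max _)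
  obtain ⟨w, hw⟩ := hu.exists_right_inv
  set B := al b₀ + X 0
  have hX := X_mem_max (O := O)
  refine LocalEquiv.of_formula
    ![-(B * X 1), X 0, X 1 * (e * (q : MvPowerSeries (Fin 8) O) - e - B * X 1), B * X 1, 0, 0, 0, 0]
    ![X 1, -(w * X 0), 0, 0, 0, 0, 0, 0] ?_ ?_ ?_ ?_ ?_ ?_
  · intro v
    fin_cases v
    exacts [neg_mem (Ideal.mul_mem_left _ _ (hX 1)), hX 0, Ideal.mul_mem_right _ _ (hX 1),
      Ideal.mul_mem_left _ _ (hX 1), zero_mem _, zero_mem _, zero_mem _, zero_mem _]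
  · intro v
    fin_cases v <;>
      first | exact X_mem_max _ | exact zero_mem _ |
        exact neg_mem (Ideal.mul_mem_left _ _ (X_mem_max _))
  · intro f hf
    rw [cfgIdeal8_le_ker_iff, IsPt, sat_wall_iff]
    have he := int_units_mul_self (S := MvPowerSeries (Fin 8) O ⧸ freeIdeal O 2) ε
    refine ⟨Matrix.ext fun i j => ?_, ?_, ?_⟩
    · fin_cases i <;> fin_cases j <;> simp [matN, idxN, hf]
    · simp [Matrix.det_fin_two, matP, idxΦ, hf, hal, B, e, Ideal.Quotient.mk_algebraMap, map_intCast]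
      linear_combination (q : MvPowerSeries (Fin 8) O ⧸ freeIdeal O 2) * he
    · simp [Matrix.trace_fin_two, matP, idxΦ, hf, hal, B, e, Ideal.Quotient.mk_algebraMap, map_intCast]
      ring
  · intro f hf
    rw [free_apply_eq_zero]
    intro v hv
    fin_cases v <;> simp at hv <;> simp [hf]
  · obtain ⟨hN, hdet, htr⟩ := sat_wall_iff.mp (isPt_mk (.wall ε) q c
      (!![((ε : ℤ) : O) * q, b₀; 0, ((ε : ℤ) : O)]) (0 : Matrix (Fin 2) (Fin 2) O))
    set J := cfgIdeal8 (.wall ε) q c (!![((ε : ℤ) : O) * q, b₀; 0, ((ε : ℤ) : O)])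
      (0 : Matrix (Fin 2) (Fin 2) O)
    intro f hf v
    have he := int_units_mul_self (S := MvPowerSeries (Fin 8) O ⧸ J) ε
    have hN' : ∀ i j, matN (fun v => Ideal.Quotient.mk J (X v)) i j = 0 := fun i j => by
      simpa using congrFun (congrFun hN i) j
    have n4 := hN' 0 0
    have n5 := hN' 0 1
    have n6 := hN' 1 0
    have n7 := hN' 1 1
    simp [matN, idxN] at n4 n5 n6 n7
    simp [Matrix.det_fin_two, Matrix.trace_fin_two, matP, idxΦ, map_intCast] at hdet htr
    have hU := (hu.map (Ideal.Quotient.mk J))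
    have hxh := congrArg (fun p => Ideal.Quotient.mk J (p * X 0)) hw
    simp [hal, Ideal.Quotient.mk_algebraMap] at hU hxh
    have r2 : Ideal.Quotient.mk J (X 2) = -(Ideal.Quotient.mk J w * Ideal.Quotient.mk J (X 0)) *
        (((ε : ℤ) : MvPowerSeries (Fin 8) O ⧸ J) * q - ((ε : ℤ) : MvPowerSeries (Fin 8) O ⧸ J) +
          Ideal.Quotient.mk J (X 0)) := hU.mul_left_cancel (by
      linear_combination (-1) * hdet + ((((ε : ℤ) : MvPowerSeries (Fin 8) O ⧸ J) * q) +
        Ideal.Quotient.mk J (X 0)) * htr + (((ε : ℤ) : MvPowerSeries (Fin 8) O ⧸ J) * q -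
          ((ε : ℤ) : MvPowerSeries (Fin 8) O ⧸ J) + Ideal.Quotient.mk J (X 0)) * hxh +
        (q : MvPowerSeries (Fin 8) O ⧸ J) * he)
    fin_cases v <;>
      simp [hf, B, e, hal, f.commutes, map_intCast, n4, n5, n6, n7]
    · linear_combination hxh
    · linear_combination (-1) * r2 - (Ideal.Quotient.mk J w * Ideal.Quotient.mk J (X 0)) * hxh
    · linear_combination (-1) * hxh - htr
  · intro f hf v
    have hfw : -(f w * f (X 0)) = Ideal.Quotient.mk (freeIdeal O 2) (X 1) := by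
      have e1 := congrArg f hw
      rw [map_mul, map_one] at e1
      simp [hf, hal, B, f.commutes, Ideal.Quotient.mk_algebraMap] at e1 ⊢
      linear_combination Ideal.Quotient.mk (freeIdeal O 2) (X 1) * e1
    fin_cases v <;> simp [hf, free_mk_X]
    all_goals simpa [hf] using hfw

/-- The walls at a scalar point. -/
theorem wall_equiv_cone {σ δ : O} (hσ : 2 * σ = ((ε : ℤ) : O) * ((q : O) + 1))
    (hδ : δ ^ 2 = σ ^ 2 - (q : O)) :
    LocalEquiv (cfgIdeal8 (.wall ε) q c (!![σ, 0; 0, σ]) (0 : Matrix (Fin 2) (Fin 2) O))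
      (coneIdeal δ) := by
  have hX := X_mem_max (O := O)
  have hs : ∀ {S : Type} [CommRing S] [Algebra O S],
      2 * algebraMap O S σ = ((ε : ℤ) : S) * ((q : S) + 1) ∧
        algebraMap O S δ ^ 2 = algebraMap O S σ ^ 2 - (q : S) := by
    intro S _ _
    constructor
    · have := congrArg (algebraMap O S) hσ
      simpa [map_ofNat] using this
    · have := congrArg (algebraMap O S) hδ
      simpa using this
  have hgen : ∀ p ∈ ({X 0 ^ 2 + X 1 * X 2 - C (δ ^ 2), X 3, X 4, X 5, X 6, X 7} :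
      Set (MvPowerSeries (Fin 8) O)), Ideal.Quotient.mk (coneIdeal δ) p = 0 := fun p hp =>
    Ideal.Quotient.eq_zero_iff_mem.mpr (Ideal.subset_span hp)
  have hC : ∀ o : O, Ideal.Quotient.mk (coneIdeal δ) (C o) =
      algebraMap O (MvPowerSeries (Fin 8) O ⧸ coneIdeal δ) o := fun o =>
    (Ideal.Quotient.mkₐ O (coneIdeal δ)).commutes o
  simp only [Set.forall_mem_insert, Set.mem_singleton_iff, forall_eq, map_sub, map_add, map_mul,
    map_pow, hC] at hgen
  obtain ⟨g0, g3, g4, g5, g6, g7⟩ := hgen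
  refine LocalEquiv.of_formula ![X 0, X 1, X 2, -X 0, 0, 0, 0, 0] ![X 0, X 1, X 2, 0, 0, 0, 0, 0]
    ?_ ?_ ?_ ?_ ?_ ?_
  · intro v
    fin_cases v
    exacts [hX 0, hX 1, hX 2, neg_mem (hX 0), zero_mem _, zero_mem _, zero_mem _, zero_mem _]
  · intro v
    fin_cases v <;> first | exact X_mem_max _ | exact zero_mem _
  · intro f hf
    rw [cfgIdeal8_le_ker_iff, IsPt, sat_wall_iff]
    obtain ⟨es, ed⟩ := hs (S := MvPowerSeries (Fin 8) O ⧸ coneIdeal δ)
    refine ⟨Matrix.ext fun i j => ?_, ?_, ?_⟩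
    · fin_cases i <;> fin_cases j <;> simp [matN, idxN, hf]
    · simp [Matrix.det_fin_two, matP, idxΦ, hf]
      linear_combination (-1) * g0 - ed
    · simp [Matrix.trace_fin_two, matP, idxΦ, hf]
      linear_combination es
  · obtain ⟨hN, hdet, htr⟩ := sat_wall_iff.mp (isPt_mk (.wall ε) q c (!![σ, 0; 0, σ])
      (0 : Matrix (Fin 2) (Fin 2) O))
    set J := cfgIdeal8 (.wall ε) q c (!![σ, 0; 0, σ]) (0 : Matrix (Fin 2) (Fin 2) O)
    intro f hf
    obtain ⟨es, ed⟩ := hs (S := MvPowerSeries (Fin 8) O ⧸ J)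
    simp [Matrix.det_fin_two, Matrix.trace_fin_two, matP, idxΦ] at hdet htr
    have hCf : ∀ o : O, f (C o) = algebraMap O _ o := fun o => f.commutes o
    rw [coneIdeal, Ideal.span_le]
    intro p hp
    show f p = 0
    rcases hp with rfl | rfl | rfl | rfl | rfl | rfl <;> simp [hf, hCf]
    linear_combination (algebraMap O _ σ + Ideal.Quotient.mk J (X 0)) * (htr - es) - hdet - ed
  · obtain ⟨hN, hdet, htr⟩ := sat_wall_iff.mp (isPt_mk (.wall ε) q c (!![σ, 0; 0, σ])
      (0 : Matrix (Fin 2) (Fin 2) O))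
    set J := cfgIdeal8 (.wall ε) q c (!![σ, 0; 0, σ]) (0 : Matrix (Fin 2) (Fin 2) O)
    intro f hf v
    obtain ⟨es, ed⟩ := hs (S := MvPowerSeries (Fin 8) O ⧸ J)
    simp [Matrix.trace_fin_two, matP, idxΦ] at htr
    have hN' : ∀ i j, matN (fun v => Ideal.Quotient.mk J (X v)) i j = 0 := fun i j => by
      simpa using congrFun (congrFun hN i) j
    have n4 := hN' 0 0
    have n5 := hN' 0 1
    have n6 := hN' 1 0
    have n7 := hN' 1 1
    simp [matN, idxN] at n4 n5 n6 n7
    fin_cases v <;> simp [hf, n4, n5, n6, n7]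
    linear_combination es - htr
  · intro f hf v
    fin_cases v <;> simp [hf, g3, g4, g5, g6, g7]

end FermatAgent.RTLift.LocalRings

end
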