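import Fermat.Agent.RTLift.LocalRings.Local

/-!
# The equations of `C_c` at normalised matrices, and their rational parametrisation
-/

set_option autoImplicit false

noncomputable section

namespace FermatAgent.RTLift.LocalRings

open IsLocalRing MvPowerSeries Matrix

section Algebra

variable {S : Type*} [CommRing S]

/-- The equations of `C_c` in the deviations `x` from `!![ρ, b; 0, ρ]` and `!![γ - 1, z; 0, γ - 1]`,
with `s² = γ² - 1`. -/
def CcEqns (ρ b z s : S) (x : Fin 8 → S) : Prop :=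
  x 4 + x 7 = 0 ∧ x 4 ^ 2 + (z + x 5) * x 6 = s ^ 2 ∧ (b + x 1) * x 6 = (z + x 5) * x 2 ∧
    (z + x 5) * (x 0 - x 3) = (b + x 1) * (x 4 - x 7) ∧
    x 2 * (x 4 - x 7) = x 6 * (x 0 - x 3) ∧
    ρ * (x 0 + x 3) + x 0 * x 3 - (b + x 1) * x 2 = 0

/-- Points from the parameters `n = (h, Z, g)` and `M = (H, B, G)` with `e = H² + BG`. -/
theorem ccEqns_param {ρ b z s : S} {x : Fin 8 → S} (h Z g H B G e V : S)
    (hn : h ^ 2 + Z * g = s ^ 2) (m1 : h * B = Z * H) (m2 : h * G = g * H) (m3 : Z * G = g * B)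
    (he : e = H ^ 2 + B * G) (hV : (1 - e) * V = 1)
    (h0 : x 0 = 2 * ρ * V * (e + H)) (h1 : b + x 1 = 2 * ρ * V * B) (h2 : x 2 = 2 * ρ * V * G)
    (h3 : x 3 = 2 * ρ * V * (e - H)) (h4 : x 4 = h) (h5 : z + x 5 = Z) (h6 : x 6 = g)
    (h7 : x 7 = -h) : CcEqns ρ b z s x := by
  refine ⟨?_, ?_, ?_, ?_, ?_, ?_⟩ <;> rw [h4] at * <;> try simp only [h0, h1, h2, h3, h5, h6, h7]
  · ring
  · linear_combination hn
  · linear_combination (-(2 * ρ * V)) * m3
  · linear_combination (-(4 * ρ * V)) * m1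
  · linear_combination (4 * ρ * V) * m2
  · linear_combination (-(4 * ρ ^ 2 * V * e)) * hV + (4 * ρ ^ 2 * V ^ 2) * he

/-- Every point comes from the parameters, when `T = 2ρ + (x₀ + x₃)/2` is invertible. -/
theorem ccEqns_reconstruct {ρ b z s hh w : S} {x : Fin 8 → S} (hx : CcEqns ρ b z s x)
    (h2 : 2 * hh = 1) (hw : (2 * ρ + hh * (x 0 + x 3)) * w = 1) (H B G e V : S)
    (hH : H = hh * (x 0 - x 3) * w) (hB : B = (b + x 1) * w) (hG : G = x 2 * w)
    (he : e = H ^ 2 + B * G) (hV : (1 - e) * V = 1) :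
    2 * ρ * V = 2 * ρ + hh * (x 0 + x 3) ∧ x 0 = 2 * ρ * V * (e + H) ∧
      b + x 1 = 2 * ρ * V * B ∧ x 2 = 2 * ρ * V * G ∧ x 3 = 2 * ρ * V * (e - H) := by
  obtain ⟨-, -, -, -, -, D⟩ := hx
  set T := 2 * ρ + hh * (x 0 + x 3) with hTdef
  have he' : 1 - e = 2 * ρ * w := by
    rw [he, hH, hB, hG]
    linear_combination (-(1 + T * w) + 2 * ρ * w) * hw +
      (w ^ 2) * D + (w ^ 2 * (ρ * (x 0 + x 3) + x 0 * x 3 * (2 * hh + 1))) * h2
  have hT : 2 * ρ * V = T := by linear_combination T * hV - T * V * he' - 2 * ρ * V * hw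
  refine ⟨hT, ?_, ?_, ?_, ?_⟩ <;> rw [hT]
  · linear_combination T * he' + (2 * ρ - hh * (x 0 - x 3)) * hw - T * hH - (x 0) * h2
  · rw [hB]; linear_combination (-(b + x 1)) * hw
  · rw [hG]; linear_combination (-x 2) * hw
  · linear_combination T * he' + (2 * ρ + hh * (x 0 - x 3)) * hw + T * hH - (x 3) * h2

end Algebra

variable {O : Type} [CommRing O] {q : ℕ} {c ρ γ s b₀ z₀ : O}

/-- The equations of `C_c` at normalised matrices. -/
theorem isPt_cc_iff (hρ : ρ ^ 2 = q) (hγ : 2 * γ = c) (hs : s ^ 2 = γ ^ 2 - 1) {S : Type}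
    [CommRing S] [Algebra O S] {x : Fin 8 → S} :
    IsPt .cc q c (!![ρ, b₀; 0, ρ]) (!![γ - 1, z₀; 0, γ - 1]) x ↔
      CcEqns (algebraMap O S ρ) (algebraMap O S b₀) (algebraMap O S z₀) (algebraMap O S s) x := by
  set a := algebraMap O S
  have eρ : a ρ ^ 2 = (q : S) := by rw [← map_pow, hρ, map_natCast]
  have eγ : 2 * a γ = a c := by rw [← hγ, map_mul, map_ofNat]
  have es : a s ^ 2 = a γ ^ 2 - 1 := by rw [← map_pow, hs, map_sub, map_pow, map_one]
  rw [IsPt, sat_cc_iff, ← Matrix.ext_iff]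
  simp only [Fin.forall_fin_two]
  simp [Matrix.det_fin_two, Matrix.trace_fin_two, Matrix.mul_apply, Fin.sum_univ_two, matP, matN,
    idxΦ, idxN]
  constructor
  · rintro ⟨d1, d2, t, ⟨c00, c01⟩, c10, -⟩
    have ht : x 4 + x 7 = 0 := by linear_combination t - eγ
    refine ⟨ht, ?_, ?_, ?_, ?_, ?_⟩
    · linear_combination (x 4 + a γ) * ht - d2 - es
    · linear_combination c00
    · linear_combination c01
    · linear_combination c10
    · linear_combination d1 - eρ
  · rintro ⟨ht, hn, c00, c01, c10, D⟩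
    refine ⟨?_, ?_, ?_, ⟨?_, ?_⟩, ?_, ?_⟩
    · linear_combination D + eρ
    · linear_combination (x 4 + a γ) * ht - hn - es
    · linear_combination ht + eγ
    · linear_combination c00
    · linear_combination c01
    · linear_combination c10
    · linear_combination (-1) * c00

end FermatAgent.RTLift.LocalRings

end
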