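import Fermat.Agent.RTLift.LocalRings.Dichotomy
import Fermat.Agent.DefRing.PowerSeriesBase
import Mathlib.RingTheory.DiscreteValuationRing.Basic
import Mathlib.RingTheory.MvPowerSeries.NoZeroDivisors
import Mathlib.RingTheory.MvPowerSeries.Substitution

/-!
# Separation of configurations

Separation of configurations, the special fibre of `C_c`, and the dichotomy for homomorphisms.
-/

set_option autoImplicit false

noncomputable section

namespace FermatAgent.RTLift.LocalRings

open Matrix IsLocalRing MvPowerSeries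

section Map

variable {S S' : Type*} [CommRing S] [CommRing S'] (f : S →+* S')

theorem entries_map (M : Matrix (Fin 2) (Fin 2) S) : entries (M.map f) = f '' entries M := by
  rw [entries, entries, ← Set.range_comp]
  rfl

theorem cfgEqns_map (A : Cfg) (q c : S) (P N : Matrix (Fin 2) (Fin 2) S) :
    cfgEqns A (f q) (f c) (P.map f) (N.map f) = f '' cfgEqns A q c P N := by
  have hsub : ∀ M M' : Matrix (Fin 2) (Fin 2) S, (M - M').map f = M.map f - M'.map f :=
    fun M M' => Matrix.map_sub f (map_sub f) M M'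
  have hsmul : ∀ (a : S) (M : Matrix (Fin 2) (Fin 2) S), (a • M).map f = f a • M.map f :=
    fun a M => Matrix.ext fun _ _ => map_mul f a _
  have hone : (1 + N).map f = 1 + N.map f := by
    rw [Matrix.map_add f (map_add f), Matrix.map_one f (map_zero f) (map_one f)]
  have htr : ∀ M : Matrix (Fin 2) (Fin 2) S, f M.trace = (M.map f).trace :=
    fun M => by simp [Matrix.trace_fin_two]
  have hdet : ∀ M : Matrix (Fin 2) (Fin 2) S, f M.det = (M.map f).det := fun M => f.map_det M
  cases A <;>
    simp only [cfgEqns, Set.image_union, Set.image_insert_eq, Set.image_singleton, ← entries_map,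
      map_sub, map_mul, map_add, map_one, map_intCast, hdet, htr, hone, hsub, hsmul,
      Matrix.map_mul]

theorem Sat.map {A : Cfg} {q c : S} {P N : Matrix (Fin 2) (Fin 2) S} (h : Sat A q c P N) :
    Sat A (f q) (f c) (P.map f) (N.map f) := by
  intro x hx
  rw [cfgEqns_map] at hx
  obtain ⟨y, hy, rfl⟩ := hx
  rw [h y hy, map_zero]

theorem span_le_ker_iff (A : Cfg) (q c : S) (P N : Matrix (Fin 2) (Fin 2) S) :
    Ideal.span (cfgEqns A q c P N) ≤ RingHom.ker f ↔
      Sat A (f q) (f c) (P.map f) (N.map f) := by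
  rw [Ideal.span_le, Sat, cfgEqns_map]
  simp [Set.subset_def, RingHom.mem_ker]

theorem int_units_mul_self (ε : ℤˣ) : ((ε : ℤ) : S) * ((ε : ℤ) : S) = 1 := by
  rw [← Int.cast_mul, ← Units.val_mul, Int.units_mul_self, Units.val_one, Int.cast_one]

end Map

section Curves

variable {S : Type*} [CommRing S]

/-- A point of `St_ε` with non-zero monodromy near a given one, over `k[[T]]`. -/
theorem exists_curve_st {k : Type*} [Field k] {ε : ℤˣ} {q c : k}
    {P N : Matrix (Fin 2) (Fin 2) k} (h : Sat (.st ε) q c P N) :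
    ∃ P' N' : Matrix (Fin 2) (Fin 2) (PowerSeries k),
      (∀ a b, PowerSeries.constantCoeff (P' a b) = P a b) ∧ (∀ a b, PowerSeries.constantCoeff (N' a b) = N a b) ∧
      Sat (.st ε) (PowerSeries.C q) (PowerSeries.C c) P' N' ∧ N' ≠ 0 := by
  have hC : ∀ M : Matrix (Fin 2) (Fin 2) k, ∀ a b,
      PowerSeries.constantCoeff ((M.map (PowerSeries.C : k →+* PowerSeries k)) a b) = M a b :=
    fun M a b => PowerSeries.constantCoeff_C _
  by_cases hN : N = 0
  · subst hN
    obtain ⟨hdet, htr, -, -, -, -⟩ := sat_st_iff.mp h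
    set e : k := ((ε : ℤ) : k)
    have he : e * e = 1 := int_units_mul_self ε
    -- a non-zero `M₀` with the relations of `St_ε`
    obtain ⟨M₀, hne, h1, h2, h3, h4⟩ : ∃ M₀ : Matrix (Fin 2) (Fin 2) k, M₀ ≠ 0 ∧
        M₀.trace = 0 ∧ M₀.det = 0 ∧ P * M₀ = (e * q) • M₀ ∧ M₀ * P = e • M₀ := by
      obtain ⟨v, hv0, hv⟩ : ∃ v : Fin 2 → k, v ≠ 0 ∧ P *ᵥ v = (e * q) • v := by
        have hd : (P - (e * q) • (1 : Matrix (Fin 2) (Fin 2) k)).det = 0 := by
          rw [Matrix.det_fin_two] at hdet ⊢
          rw [Matrix.trace_fin_two] at htr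
          simp [Matrix.sub_apply]
          linear_combination hdet - e * q * htr + (-(q : k)) * he
        obtain ⟨v, hv0, hv⟩ := Matrix.exists_mulVec_eq_zero_iff.mpr hd
        refine ⟨v, hv0, ?_⟩
        rwa [Matrix.sub_mulVec, Matrix.smul_mulVec, Matrix.one_mulVec, sub_eq_zero] at hv
      refine ⟨!![-(v 0 * v 1), v 0 * v 0; -(v 1 * v 1), v 0 * v 1], ?_, ?_, ?_, ?_, ?_⟩
      · intro h0
        have ha := congrArg (fun M : Matrix (Fin 2) (Fin 2) k => M 0 1) h0
        have hb := congrArg (fun M : Matrix (Fin 2) (Fin 2) k => M 1 0) h0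
        simp only [of_apply, cons_val', cons_val_zero, cons_val_one, Matrix.zero_apply,
          cons_val_fin_one, neg_eq_zero, mul_self_eq_zero] at ha hb
        refine hv0 (funext fun i => ?_)
        fin_cases i
        · simpa using ha
        · simpa using hb
      · simp [Matrix.trace_fin_two]
      · simp [Matrix.det_fin_two]
        ring
      all_goals
        have hv0' := congrFun hv 0
        have hv1' := congrFun hv 1
        simp only [Matrix.mulVec, dotProduct, Fin.sum_univ_two, Pi.smul_apply,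
          smul_eq_mul] at hv0' hv1'
        rw [Matrix.trace_fin_two] at htr
        ext a b
        fin_cases a <;> fin_cases b <;> simp [Matrix.mul_apply, Fin.sum_univ_two]
      · linear_combination (-v 1) * hv0'
      · linear_combination v 0 * hv0'
      · linear_combination (-v 1) * hv1'
      · linear_combination v 0 * hv1'
      · linear_combination v 0 * hv1' - v 0 * v 1 * htr
      · linear_combination -(v 0) * hv0' + v 0 * v 0 * htr
      · linear_combination v 1 * hv1' - v 1 * v 1 * htr
      · linear_combination -(v 1) * hv0' + v 0 * v 1 * htr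
    refine ⟨P.map (PowerSeries.C : k →+* PowerSeries k),
      (PowerSeries.X : PowerSeries k) • M₀.map (PowerSeries.C : k →+* PowerSeries k), hC P,
      fun a b => by
        rw [Matrix.smul_apply, smul_eq_mul, map_mul, PowerSeries.constantCoeff_X, zero_mul,
          Matrix.zero_apply], ?_, ?_⟩
    · have h' : Sat (.st ε) q c P M₀ := sat_st_iff.mpr ⟨hdet, htr, h1, h2, h3, h4⟩
      obtain ⟨g1, g2, g3, g4, g5, g6⟩ :=
        sat_st_iff.mp (Sat.map (PowerSeries.C : k →+* PowerSeries k) h')
      refine sat_st_iff.mpr ⟨g1, g2, by rw [Matrix.trace_smul, g3, smul_zero],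
        by rw [Matrix.det_smul, g4, mul_zero], ?_, ?_⟩
      · rw [mul_smul_comm, g5, smul_comm]
      · rw [smul_mul_assoc, g6, smul_comm]
    · intro h0
      obtain ⟨a, b, hab⟩ : ∃ a b, M₀ a b ≠ 0 := by
        by_contra hh
        push Not at hh
        exact hne (Matrix.ext hh)
      have := congrArg (fun M : Matrix (Fin 2) (Fin 2) (PowerSeries k) =>
        PowerSeries.coeff 1 (M a b)) h0
      simp at this
      exact hab this
  · refine ⟨P.map (PowerSeries.C : k →+* PowerSeries k), N.map (PowerSeries.C : k →+* PowerSeries k),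
      hC P, hC N, Sat.map _ h, fun h0 => hN ?_⟩
    ext a b
    have := congrArg (fun M : Matrix (Fin 2) (Fin 2) (PowerSeries k) =>
      PowerSeries.constantCoeff (M a b)) h0
    simpa using this

/-- A point of `ur` with non-constant trace near a given one, over `k[[T]]`. -/
theorem exists_curve_ur {k : Type*} [Field k] {q c : k} (hq : q ≠ 0)
    {P N : Matrix (Fin 2) (Fin 2) k} (h : Sat .ur q c P N) :
    ∃ P' N' : Matrix (Fin 2) (Fin 2) (PowerSeries k),
      (∀ a b, PowerSeries.constantCoeff (P' a b) = P a b) ∧ (∀ a b, PowerSeries.constantCoeff (N' a b) = N a b) ∧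
      Sat .ur (PowerSeries.C q) (PowerSeries.C c) P' N' ∧ ∀ y : k, P'.trace ≠ PowerSeries.C y := by
  obtain ⟨rfl, hdet⟩ := sat_ur_iff.mp h
  let Cm := (PowerSeries.C : k →+* PowerSeries k)
  set T : PowerSeries k := PowerSeries.X
  set u : PowerSeries k := 1 + T
  have hu : IsUnit u := by
    rw [PowerSeries.isUnit_iff_constantCoeff]
    simp [u, T]
  obtain ⟨w, hw⟩ := hu.exists_right_inv
  have hw0 : PowerSeries.constantCoeff w = 1 := by simpa [u, T] using congrArg PowerSeries.constantCoeff hw
  -- three deformations; one of them has non-constant trace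
  have key : ∀ E : Matrix (Fin 2) (Fin 2) (PowerSeries k), E.det = 1 →
      (∀ a b, PowerSeries.constantCoeff (E a b) = (1 : Matrix (Fin 2) (Fin 2) k) a b) →
      (∀ y : k, (P.map Cm * E).trace ≠ PowerSeries.C y) →
      ∃ P' N' : Matrix (Fin 2) (Fin 2) (PowerSeries k),
      (∀ a b, PowerSeries.constantCoeff (P' a b) = P a b) ∧
      (∀ a b, PowerSeries.constantCoeff (N' a b) = (0 : Matrix (Fin 2) (Fin 2) k) a b) ∧
      Sat .ur (PowerSeries.C q) (PowerSeries.C c) P' N' ∧ ∀ y : k, P'.trace ≠ PowerSeries.C y := by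
    intro E hE hE0 hne
    refine ⟨P.map Cm * E, 0, fun a b => ?_, fun a b => by simp, sat_ur_iff.mpr ⟨rfl, ?_⟩, hne⟩
    · fin_cases a <;> fin_cases b <;> simp [Matrix.mul_apply, Fin.sum_univ_two, hE0, Cm]
    · rw [Matrix.det_mul, hE, mul_one, ← RingHom.mapMatrix_apply, ← RingHom.map_det, hdet]
  by_cases hb : P 0 1 = 0
  · by_cases hc : P 1 0 = 0
    · refine key !![u, T; 0, w] (by simp [Matrix.det_fin_two, hw]) (fun a b => ?_) fun y hy => ?_
      · fin_cases a <;> fin_cases b <;> simp [u, T, hw0]
      · rw [Matrix.det_fin_two, hb, hc, mul_zero, sub_zero] at hdet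
        have h1 : PowerSeries.C (P 0 0) * u + PowerSeries.C (P 1 1) * w = PowerSeries.C y := by
          simpa [Matrix.trace_fin_two, Matrix.mul_apply, Fin.sum_univ_two, hb, hc, Cm] using hy
        have h2 : PowerSeries.C (P 0 0) * (u * u) + PowerSeries.C (P 1 1) = PowerSeries.C y * u := by
          linear_combination u * h1 - PowerSeries.C (P 1 1) * hw
        have h3 := congrArg (PowerSeries.coeff 2) h2
        have e1 : PowerSeries.coeff 2 (u * u) = 1 := by
          have : u * u = 1 + 2 * T + T ^ 2 := by ring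
          rw [this, two_mul]
          simp [T, PowerSeries.coeff_X, PowerSeries.coeff_one, PowerSeries.coeff_X_pow]
        have e2 : PowerSeries.coeff 2 u = 0 := by
          simp [u, T, PowerSeries.coeff_X, PowerSeries.coeff_one]
        rw [map_add, PowerSeries.coeff_C_mul, PowerSeries.coeff_C_mul, e1, e2,
          PowerSeries.coeff_C, if_neg (by simp)] at h3
        rw [mul_one, add_zero, mul_zero] at h3
        rw [h3, zero_mul] at hdet
        exact hq hdet.symm
    · refine key !![1, T; 0, 1] (by simp [Matrix.det_fin_two]) (fun a b => ?_) fun y hy => ?_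
      · fin_cases a <;> fin_cases b <;> simp [T]
      · have h3 := congrArg (PowerSeries.coeff 1) hy
        simp [Matrix.trace_fin_two, Matrix.mul_apply, Fin.sum_univ_two, Cm, T,
          PowerSeries.coeff_C] at h3
        exact hc h3
  · refine key !![1, 0; T, 1] (by simp [Matrix.det_fin_two]) (fun a b => ?_) fun y hy => ?_
    · fin_cases a <;> fin_cases b <;> simp [T]
    · have h3 := congrArg (PowerSeries.coeff 1) hy
      simp [Matrix.trace_fin_two, Matrix.mul_apply, Fin.sum_univ_two, Cm, T,
        PowerSeries.coeff_C] at h3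
      exact hb h3

end Curves

variable {O : Type} [CommRing O] [IsLocalRing O] {I : Type} {r : ℕ} (D : Datum O I)

omit [IsLocalRing O] in
theorem localIdeal_le_ker_iff {S : Type*} [CommRing S] (f : Ambient O I r →+* S) (i : I)
    (A : Cfg) : D.localIdeal r i A ≤ RingHom.ker f ↔
      Sat A (D.q i : S) (f (algebraMap O _ (D.c i))) ((D.frob r i).map f) ((D.mono r i).map f) := by
  rw [Datum.localIdeal, span_le_ker_iff, map_natCast]

omit [IsLocalRing O] in
theorem cfgIdeal_le_iff (J : Ideal (Ambient O I r)) (A : I → Cfg) :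
    D.cfgIdeal r A ≤ J ↔ ∀ i, D.localIdeal r i (A i) ≤ J :=
  iSup_le_iff

omit [IsLocalRing O] in
theorem det_one_add_smul {S : Type*} [CommRing S] {N : Matrix (Fin 2) (Fin 2) S}
    (ht : N.trace = 0) (hd : N.det = 0) : (1 + N).det = 1 ∧ (1 + N).trace = 2 := by
  rw [det_one_add, trace_one_add, ht, hd, add_zero, add_zero, add_zero]
  exact ⟨rfl, rfl⟩

/-- The residue of `c` is two. -/
theorem residue_c {p : ℕ} {ζ : I → O} (hV : D.Valid p ζ) (i : I) : residue O (D.c i) = 2 := by
  have := Fact.mk hV.prime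
  have : CharP (ResidueField O) p := (CharP.charP_iff_prime_eq_zero hV.prime).mpr hV.residueChar
  obtain ⟨m, hm⟩ := hV.zeta_pow i
  have h : (residue O (ζ i) - 1) ^ p ^ m = 0 := by
    rw [sub_pow_char_pow, one_pow, ← map_pow, hm, map_one, sub_self]
  have hz : residue O (ζ i) = 1 := sub_eq_zero.mp (eq_zero_of_pow_eq_zero h)
  have := congrArg (residue O) (hV.c_eq i)
  rw [map_mul, map_add, map_pow, map_one, hz, mul_one, one_pow, one_add_one_eq_two] at this
  exact this

/-- Modulo `ϖ`, `C_c` contains `ur` and `St_ε` when `q ≡ 1`. -/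
theorem localIdeal_cc_le_sup {p : ℕ} {ζ : I → O} (hV : D.Valid p ζ) (i : I)
    (hqi : (D.q i : ResidueField O) = 1) (B : Cfg) (hB : B = .ur ∨ ∃ ε, B = .st ε) :
    D.localIdeal r i .cc ≤
      D.localIdeal r i B ⊔ (maximalIdeal O).map (algebraMap O (Ambient O I r)) := by
  set J := D.localIdeal r i B ⊔ (maximalIdeal O).map (algebraMap O (Ambient O I r))
  set f := Ideal.Quotient.mk J with hf
  have hker : D.localIdeal r i B ≤ RingHom.ker f := le_sup_left.trans Ideal.mk_ker.ge
  have hm : ∀ x : O, residue O x = 0 → f (algebraMap O _ x) = 0 := fun x hx =>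
    Ideal.Quotient.eq_zero_iff_mem.mpr
      (Ideal.mem_sup_right (Ideal.mem_map_of_mem _ ((residue_eq_zero_iff x).mp hx)))
  have hc : f (algebraMap O _ (D.c i)) = 2 := by
    have := hm (D.c i - 2) (by rw [map_sub, residue_c D hV i, map_ofNat, sub_self])
    rwa [map_sub, map_sub, map_ofNat, map_ofNat, sub_eq_zero] at this
  have hq1 : (D.q i : (Ambient O I r) ⧸ J) = 1 := by
    have := hm ((D.q i : O) - 1) (by rw [map_sub, map_natCast, hqi, map_one, sub_self])
    rwa [map_sub, map_sub, map_natCast, map_natCast, map_one, map_one, sub_eq_zero] at this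
  have hB' := (localIdeal_le_ker_iff D f i B).mp hker
  refine le_trans ?_ Ideal.mk_ker.le
  rw [← hf, localIdeal_le_ker_iff, sat_cc_iff, hc]
  rcases hB with rfl | ⟨ε, rfl⟩
  · obtain ⟨hN, hd⟩ := sat_ur_iff.mp hB'
    obtain ⟨h1, h2⟩ := det_one_add_smul (N := (D.mono r i).map f) (by simp [hN]) (by simp [hN])
    exact ⟨hd, h1, h2, by rw [hN, add_zero, mul_one, one_mul]⟩
  · obtain ⟨hd, -, ht, hn, h5, h6⟩ := sat_st_iff.mp hB'
    obtain ⟨h1, h2⟩ := det_one_add_smul ht hn
    exact ⟨hd, h1, h2, by rw [mul_add, add_mul, mul_one, one_mul, h5, h6, hq1, mul_one]⟩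

section Complete

variable [IsDomain O] [IsDiscreteValuationRing O] [IsAdicComplete (maximalIdeal O) O] [CharZero O]

variable [Fintype I]

omit [IsDomain O] [IsDiscreteValuationRing O] [IsAdicComplete (maximalIdeal O) O] [CharZero O]
  [Fintype I] in
theorem exists_curve {p : ℕ} {ζ : I → O} (hV : D.Valid p ζ) (i : I) {A : Cfg} (hA : D.Allowed i A) :
    ∃ P N : Matrix (Fin 2) (Fin 2) (MvPowerSeries Unit (ResidueField O)),
      (∀ a b, constantCoeff (P a b) = residue O (D.Φ₀ i a b)) ∧
      (∀ a b, constantCoeff (N a b) = residue O (D.n₀ i a b)) ∧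
      Sat A (C (D.q i : ResidueField O)) (C (residue O (D.c i))) P N ∧
      (A = .ur → ∀ y, P.trace ≠ C y) ∧ ((∃ ε, A = .st ε) → N ≠ 0) := by
  have := Fact.mk hV.prime
  have : CharP (ResidueField O) p := (CharP.charP_iff_prime_eq_zero hV.prime).mpr hV.residueChar
  have hq : (D.q i : ResidueField O) ≠ 0 := by
    rw [Ne, CharP.cast_eq_zero_iff (ResidueField O) p,
      Nat.prime_dvd_prime_iff_eq hV.prime (hV.q_prime i)]
    exact fun h => hV.q_ne i h.symm
  let Cm := (C : ResidueField O →+* MvPowerSeries Unit (ResidueField O))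
  cases A with
  | ur =>
    obtain ⟨P, N, h1, h2, h3, h4⟩ := exists_curve_ur hq hA
    exact ⟨P, N, h1, h2, h3, fun _ => h4, fun ⟨_, h⟩ => (by simp at h)⟩
  | st ε =>
    obtain ⟨P, N, h1, h2, h3, h4⟩ := exists_curve_st hA
    exact ⟨P, N, h1, h2, h3, fun h => (by simp at h), fun _ => h4⟩
  | wall ε =>
    refine ⟨((D.Φ₀ i).map (residue O)).map Cm, ((D.n₀ i).map (residue O)).map Cm,
      fun a b => constantCoeff_C _, fun a b => constantCoeff_C _, Sat.map Cm hA,
      fun h => (by simp at h), fun ⟨_, h⟩ => (by simp at h)⟩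
  | cc =>
    obtain ⟨hq1, ε, hst⟩ := hA
    obtain ⟨hd, -, ht, hn, h5, h6⟩ := sat_st_iff.mp hst
    obtain ⟨h1, h2⟩ := det_one_add_smul ht hn
    have hres : D.ResidualSat i .cc := sat_cc_iff.mpr
      ⟨hd, h1, by rw [h2, residue_c D hV i],
        by rw [mul_add, add_mul, mul_one, one_mul, h5, h6, hq1, mul_one]⟩
    exact ⟨((D.Φ₀ i).map (residue O)).map Cm, ((D.n₀ i).map (residue O)).map Cm,
      fun a b => constantCoeff_C _, fun a b => constantCoeff_C _, Sat.map Cm hres,
      fun h => (by simp at h), fun ⟨_, h⟩ => (by simp at h)⟩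

omit [IsDomain O] [IsDiscreteValuationRing O] [IsAdicComplete (maximalIdeal O) O] [CharZero O] in
/-- A prime of the special fibre separating the unipotent configurations. -/
theorem exists_fibre_prime {p : ℕ} {ζ : I → O} (hV : D.Valid p ζ) {A : I → Cfg}
    (hA : ∀ i, D.Allowed i (A i)) :
    ∃ F : Ideal (Ambient O I r), F.IsPrime ∧ D.cfgIdeal r A ≤ F ∧
      (maximalIdeal O).map (algebraMap O (Ambient O I r)) ≤ F ∧
      ∀ (B : I → Cfg) (i : I), (A i = .ur ∨ ∃ ε, A i = .st ε) →
        (B i = .ur ∨ ∃ ε, B i = .st ε) → B i ≠ A i → ¬ D.cfgIdeal r B ≤ F := by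
  classical
  choose P N hP hN hSat hur hst using fun i => exists_curve D hV i (hA i)
  let k := ResidueField O
  let A' := MvPowerSeries I k
  have : IsAdicComplete (maximalIdeal k) k := by
    rw [show maximalIdeal k = ⊥ from IsLocalRing.isField_iff_maximalIdeal_eq.mp (Field.toIsField k)]
    infer_instance
  have : IsDomain A' := NoZeroDivisors.to_isDomain _
  have : IsAdicComplete (maximalIdeal A') A' :=
    FermatAgent.DefRing.isAdicComplete_mvPowerSeries
  let ren : ∀ i : I, MvPowerSeries Unit k →+* A' := fun i =>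
    (MvPowerSeries.rename (fun _ : Unit => i)).toRingHom
  let val : Vars I r → A' := Sum.elim (fun ix =>
    (![P ix.1 0 0, P ix.1 0 1, P ix.1 1 0, P ix.1 1 1,
      N ix.1 0 0, N ix.1 0 1, N ix.1 1 0, N ix.1 1 1] ix.2 |> ren ix.1) -
    C (![residue O (D.Φ₀ ix.1 0 0), residue O (D.Φ₀ ix.1 0 1), residue O (D.Φ₀ ix.1 1 0),
      residue O (D.Φ₀ ix.1 1 1), residue O (D.n₀ ix.1 0 0), residue O (D.n₀ ix.1 0 1),
      residue O (D.n₀ ix.1 1 0), residue O (D.n₀ ix.1 1 1)] ix.2)) fun _ => 0
  have hval : ∀ x, val x ∈ maximalIdeal A' := by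
    rintro (⟨i, x⟩ | x)
    · rw [FermatAgent.DefRing.mem_maximalIdeal_iff]
      fin_cases x <;> simp [val, ren, hP, hN]
    · exact zero_mem _
  let : Algebra O A' := ((C : k →+* A').comp (residue O)).toAlgebra
  obtain ⟨φ, hφ⟩ := FermatAgent.DefRing.exists_eval (𝒪 := O) val hval
  have hφa : ∀ x : O, φ.toRingHom (algebraMap O _ x) = C (residue O x) := fun x => φ.commutes x
  have hP' : ∀ i, (D.frob r i).map φ.toRingHom = (P i).map (ren i) := by
    intro i
    ext a b : 2
    simp only [Datum.frob, Matrix.map_apply, Matrix.of_apply, map_add, hφa]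
    rw [show φ.toRingHom (MvPowerSeries.X (Sum.inl (i, idxΦ a b))) = _ from hφ _]
    fin_cases a <;> fin_cases b <;> simp [val, idxΦ]
  have hN' : ∀ i, (D.mono r i).map φ.toRingHom = (N i).map (ren i) := by
    intro i
    ext a b : 2
    simp only [Datum.mono, Matrix.map_apply, Matrix.of_apply, map_add, hφa]
    rw [show φ.toRingHom (MvPowerSeries.X (Sum.inl (i, idxN a b))) = _ from hφ _]
    fin_cases a <;> fin_cases b <;> simp [val, idxN]
  have hrenC : ∀ i (y : k), ren i (C y) = C y := fun i y => by simp [ren]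
  have hsat : ∀ i, Sat (A i) (D.q i : A') (φ.toRingHom (algebraMap O _ (D.c i)))
      ((D.frob r i).map φ.toRingHom) ((D.mono r i).map φ.toRingHom) := by
    intro i
    have := Sat.map (ren i) (hSat i)
    rwa [hrenC, hrenC, map_natCast, ← hP', ← hN', ← hφa] at this
  have hinj : ∀ i, Function.Injective (ren i) := fun i =>
    MvPowerSeries.rename_injective (⟨fun _ : Unit => i, fun _ _ _ => Subsingleton.elim _ _⟩ : Unit ↪ I)
  refine ⟨RingHom.ker φ.toRingHom, RingHom.ker_isPrime _, ?_, ?_, ?_⟩
  · rw [cfgIdeal_le_iff]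
    exact fun i => (localIdeal_le_ker_iff D _ i _).mpr (hsat i)
  · rw [Ideal.map_le_iff_le_comap]
    intro x hx
    rw [Ideal.mem_comap, RingHom.mem_ker, hφa, (residue_eq_zero_iff x).mpr hx, map_zero]
  · intro B i hAi hBi hne hle
    have hB := (localIdeal_le_ker_iff D _ i _).mp ((cfgIdeal_le_iff D _ B).mp hle i)
    have hA' := hsat i
    rcases hAi with hAi | ⟨ε, hAi⟩
    · rw [hAi] at hA' hne
      rcases hBi with hBi | ⟨ε', hBi⟩
      · exact hne hBi
      · rw [hBi] at hB
        have htr := (sat_st_iff.mp hB).2.1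
        rw [hP'] at htr
        refine hur i hAi (((ε' : ℤ) : k) * ((D.q i : k) + 1)) (hinj i ?_)
        rw [hrenC, AddMonoidHom.map_trace, htr]
        simp
    · rw [hAi] at hA' hne
      have hNne : (D.mono r i).map φ.toRingHom ≠ 0 := fun h => by
        rw [hN'] at h
        exact hst i ⟨ε, hAi⟩ (Matrix.map_injective (hinj i) (by simpa using h))
      rcases hBi with hBi | ⟨ε', hBi⟩
      · rw [hBi] at hB
        exact hNne (sat_ur_iff.mp hB).1
      · rw [hBi] at hB hne
        have h1 := (sat_st_iff.mp hA').2.2.2.2.2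
        rw [(sat_st_iff.mp hB).2.2.2.2.2] at h1
        have h2 : (((ε' : ℤ) : A') - ((ε : ℤ) : A')) • (D.mono r i).map φ.toRingHom = 0 := by
          rw [sub_smul, h1, sub_self]
        obtain ⟨a, b, hab⟩ : ∃ a b, (D.mono r i).map φ.toRingHom a b ≠ 0 := by
          by_contra hh
          push Not at hh
          exact hNne (Matrix.ext hh)
        have h3 := congrArg (fun M : Matrix (Fin 2) (Fin 2) A' => M a b) h2
        simp only [Matrix.smul_apply, Matrix.zero_apply, smul_eq_mul, mul_eq_zero, or_iff_left hab,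
          sub_eq_zero] at h3
        have := Fact.mk hV.prime
        have : CharP k p := (CharP.charP_iff_prime_eq_zero hV.prime).mpr hV.residueChar
        have h4 : ((ε' : ℤ) : k) = ((ε : ℤ) : k) := by
          have := congrArg constantCoeff h3
          rwa [map_intCast, map_intCast] at this
        have h2k : (2 : k) ≠ 0 := Ring.two_ne_zero (by rw [ringChar.eq k p]; exact hV.odd)
        rcases Int.units_eq_one_or ε with rfl | rfl <;>
          rcases Int.units_eq_one_or ε' with rfl | rfl <;> first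
            | exact hne rfl
            | (simp at h4; exact h2k (by linear_combination h4))
            | (simp at h4; exact h2k (by linear_combination -h4))

end Complete

end FermatAgent.RTLift.LocalRings

end
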