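import Fermat.Agent.RTLift.LocalRings.Product
import Fermat.Agent.RTLift.LocalRings.Separation

/-!
# Changes of coordinates between local equations, and their products over the indices
-/

set_option autoImplicit false

noncomputable section

namespace FermatAgent.RTLift.LocalRings

open IsLocalRing MvPowerSeries

variable {O : Type} [CommRing O] [IsDomain O] [IsDiscreteValuationRing O]

section General

variable {ι : Type} [Finite ι]

omit [IsDomain O] [IsDiscreteValuationRing O] in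
theorem map_mem_maximalIdeal [IsLocalRing O] {A : Type} [CommRing A] [IsLocalRing A] [Algebra O A]
    [IsLocalHom (algebraMap O A)]
    (φ : MvPowerSeries ι O →ₐ[O] A) (h : ∀ x, φ (X x) ∈ maximalIdeal A)
    {p : MvPowerSeries ι O} (hp : p ∈ maximalIdeal (MvPowerSeries ι O)) :
    φ p ∈ maximalIdeal A := by
  rw [FermatAgent.DefRing.maximalIdeal_eq] at hp
  obtain ⟨a, ha, b, hb, rfl⟩ := Submodule.mem_sup.mp hp
  rw [map_add]
  refine add_mem ?_ (FermatAgent.DefRing.map_varIdeal_le φ h (Ideal.mem_map_of_mem φ hb))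
  refine (Ideal.map_le_iff_le_comap (f := algebraMap O (MvPowerSeries ι O))
    (K := (maximalIdeal A).comap φ)).mpr (fun o ho => ?_) ha
  rw [Ideal.mem_comap, Ideal.mem_comap, φ.commutes, IsLocalRing.mem_maximalIdeal, mem_nonunits_iff,
    isUnit_map_iff]
  exact (IsLocalRing.mem_maximalIdeal o).mp ho

instance : IsLocalHom (algebraMap O (MvPowerSeries ι O)) :=
  FermatAgent.DefRing.isLocalHom_algebraMap

/-- Two endomorphisms agreeing on the variables modulo an ideal agree modulo it. -/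
theorem sub_mem_of_vars {J : Ideal (MvPowerSeries ι O)}
    (f g : MvPowerSeries ι O →ₐ[O] MvPowerSeries ι O)
    (hf : ∀ x, f (X x) ∈ maximalIdeal (MvPowerSeries ι O))
    (hg : ∀ x, g (X x) ∈ maximalIdeal (MvPowerSeries ι O))
    (h : ∀ x, f (X x) - g (X x) ∈ J) (p : MvPowerSeries ι O) : f p - g p ∈ J := by
  refine mem_of_forall_mem_sup_pow J fun n => ?_
  have e : Ideal.Quotient.mkₐ O J (MvPolynomial.aeval (fun x => f (X x)) (truncTotal n p)) =
      Ideal.Quotient.mkₐ O J (MvPolynomial.aeval (fun x => g (X x)) (truncTotal n p)) := by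
    refine DFunLike.congr_fun (show (Ideal.Quotient.mkₐ O J).comp
        (MvPolynomial.aeval fun x => f (X x)) = (Ideal.Quotient.mkₐ O J).comp
        (MvPolynomial.aeval fun x => g (X x)) from MvPolynomial.algHom_ext fun x => ?_) _
    simp only [AlgHom.comp_apply, MvPolynomial.aeval_X, Ideal.Quotient.mkₐ_eq_mk,
      Ideal.Quotient.mk_eq_mk_iff_sub_mem]
    exact h x
  rw [Ideal.Quotient.mkₐ_eq_mk, Ideal.Quotient.mk_eq_mk_iff_sub_mem] at e
  have h1 := FermatAgent.DefRing.sub_aeval_mem f hf p n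
  have h2 := FermatAgent.DefRing.sub_aeval_mem g hg p n
  have := Submodule.add_mem_sup e (Ideal.sub_mem _ h1 h2)
  convert this using 1
  ring

/-- The ideals differ by a change of coordinates. -/
def LocalEquiv (J J' : Ideal (MvPowerSeries ι O)) : Prop :=
  ∃ σ τ : MvPowerSeries ι O →ₐ[O] MvPowerSeries ι O,
    (∀ x, σ (X x) ∈ maximalIdeal (MvPowerSeries ι O)) ∧
    (∀ x, τ (X x) ∈ maximalIdeal (MvPowerSeries ι O)) ∧
    J ≤ J'.comap σ ∧ J' ≤ J.comap τ ∧
    (∀ x, τ (σ (X x)) - X x ∈ J) ∧ (∀ x, σ (τ (X x)) - X x ∈ J')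

omit [Finite ι] in
theorem LocalEquiv.refl (J : Ideal (MvPowerSeries ι O)) : LocalEquiv J J :=
  ⟨AlgHom.id O _, AlgHom.id O _,
    fun x => FermatAgent.DefRing.varIdeal_le (Ideal.subset_span ⟨x, rfl⟩),
    fun x => FermatAgent.DefRing.varIdeal_le (Ideal.subset_span ⟨x, rfl⟩), le_rfl, le_rfl,
    fun x => by simp, fun x => by simp⟩

theorem LocalEquiv.trans {J J' J'' : Ideal (MvPowerSeries ι O)} (h : LocalEquiv J J')
    (h' : LocalEquiv J' J'') : LocalEquiv J J'' := by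
  obtain ⟨σ, τ, hσ, hτ, h1, h2, h3, h4⟩ := h
  obtain ⟨σ', τ', hσ', hτ', h1', h2', h3', h4'⟩ := h'
  have hm : ∀ x, (X x : MvPowerSeries ι O) ∈ maximalIdeal (MvPowerSeries ι O) := fun x =>
    FermatAgent.DefRing.varIdeal_le (Ideal.subset_span ⟨x, rfl⟩)
  refine ⟨σ'.comp σ, τ.comp τ', fun x => map_mem_maximalIdeal σ' hσ' (hσ x),
    fun x => map_mem_maximalIdeal τ hτ (hτ' x), fun p hp => h1' (h1 hp), fun p hp => h2 (h2' hp),
    fun x => ?_, fun x => ?_⟩
  · have k := sub_mem_of_vars (τ'.comp σ') (AlgHom.id O _)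
      (fun y => map_mem_maximalIdeal τ' hτ' (hσ' y)) hm h3' (σ (X x))
    have k' : τ (τ' (σ' (σ (X x)))) - τ (σ (X x)) ∈ J := by
      have := h2 k
      rwa [Ideal.mem_comap, map_sub] at this
    simpa using J.add_mem k' (h3 x)
  · have k := sub_mem_of_vars (σ.comp τ) (AlgHom.id O _)
      (fun y => map_mem_maximalIdeal σ hσ (hτ y)) hm h4 (τ' (X x))
    have k' : σ' (σ (τ (τ' (X x)))) - σ' (τ' (X x)) ∈ J'' := by
      have := h1' k
      rwa [Ideal.mem_comap, map_sub] at this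
    simpa using J''.add_mem k' (h4' x)

theorem LocalEquiv.exists_algEquiv {J J' : Ideal (MvPowerSeries ι O)} (h : LocalEquiv J J') :
    Nonempty ((MvPowerSeries ι O ⧸ J) ≃ₐ[O] (MvPowerSeries ι O ⧸ J')) := by
  obtain ⟨σ, τ, hσ, hτ, h1, h2, h3, h4⟩ := h
  have hm : ∀ x, (X x : MvPowerSeries ι O) ∈ maximalIdeal (MvPowerSeries ι O) := fun x =>
    FermatAgent.DefRing.varIdeal_le (Ideal.subset_span ⟨x, rfl⟩)
  refine ⟨AlgEquiv.ofAlgHom
    (Ideal.Quotient.liftₐ J ((Ideal.Quotient.mkₐ O J').comp σ)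
      fun p hp => Ideal.Quotient.eq_zero_iff_mem.mpr (h1 hp))
    (Ideal.Quotient.liftₐ J' ((Ideal.Quotient.mkₐ O J).comp τ)
      fun p hp => Ideal.Quotient.eq_zero_iff_mem.mpr (h2 hp)) (AlgHom.ext fun a => ?_)
      (AlgHom.ext fun a => ?_)⟩
  · obtain ⟨p, rfl⟩ := Ideal.Quotient.mk_surjective a
    show Ideal.Quotient.mk J' (σ (τ p)) = Ideal.Quotient.mk J' p
    rw [Ideal.Quotient.mk_eq_mk_iff_sub_mem]
    exact sub_mem_of_vars (σ.comp τ) (AlgHom.id O _)
      (fun y => map_mem_maximalIdeal σ hσ (hτ y)) hm h4 p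
  · obtain ⟨p, rfl⟩ := Ideal.Quotient.mk_surjective a
    show Ideal.Quotient.mk J (τ (σ p)) = Ideal.Quotient.mk J p
    rw [Ideal.Quotient.mk_eq_mk_iff_sub_mem]
    exact sub_mem_of_vars (τ.comp σ) (AlgHom.id O _)
      (fun y => map_mem_maximalIdeal τ hτ (hσ y)) hm h3 p

variable [IsAdicComplete (maximalIdeal O) O]

/-- A change of coordinates from the images of the variables. -/
theorem LocalEquiv.of_formula {J J' : Ideal (MvPowerSeries ι O)} (a b : ι → MvPowerSeries ι O)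
    (ha : ∀ x, a x ∈ maximalIdeal (MvPowerSeries ι O))
    (hb : ∀ x, b x ∈ maximalIdeal (MvPowerSeries ι O))
    (h1 : ∀ f : MvPowerSeries ι O →ₐ[O] MvPowerSeries ι O ⧸ J',
      (∀ x, f (X x) = Ideal.Quotient.mk J' (a x)) → J ≤ RingHom.ker f)
    (h2 : ∀ f : MvPowerSeries ι O →ₐ[O] MvPowerSeries ι O ⧸ J,
      (∀ x, f (X x) = Ideal.Quotient.mk J (b x)) → J' ≤ RingHom.ker f)
    (h3 : ∀ f : MvPowerSeries ι O →ₐ[O] MvPowerSeries ι O ⧸ J,
      (∀ x, f (X x) = Ideal.Quotient.mk J (b x)) → ∀ x, f (a x) = Ideal.Quotient.mk J (X x))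
    (h4 : ∀ f : MvPowerSeries ι O →ₐ[O] MvPowerSeries ι O ⧸ J',
      (∀ x, f (X x) = Ideal.Quotient.mk J' (a x)) → ∀ x, f (b x) = Ideal.Quotient.mk J' (X x)) :
    LocalEquiv J J' := by
  have := FermatAgent.DefRing.isAdicComplete_mvPowerSeries (ι := ι) (𝒪 := O)
  obtain ⟨σ, hσ⟩ := FermatAgent.DefRing.exists_eval (𝒪 := O) a ha
  obtain ⟨τ, hτ⟩ := FermatAgent.DefRing.exists_eval (𝒪 := O) b hb
  have eσ : ∀ x, ((Ideal.Quotient.mkₐ O J').comp σ) (X x) = Ideal.Quotient.mk J' (a x) :=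
    fun x => congrArg _ (hσ x)
  have eτ : ∀ x, ((Ideal.Quotient.mkₐ O J).comp τ) (X x) = Ideal.Quotient.mk J (b x) :=
    fun x => congrArg _ (hτ x)
  refine ⟨σ, τ, fun x => hσ x ▸ ha x, fun x => hτ x ▸ hb x,
    fun p hp => (Ideal.Quotient.eq_zero_iff_mem.mp (RingHom.mem_ker.mp (h1 _ eσ hp)) : σ p ∈ J'),
    fun p hp => (Ideal.Quotient.eq_zero_iff_mem.mp (RingHom.mem_ker.mp (h2 _ eτ hp)) : τ p ∈ J),
    fun x => ?_, fun x => ?_⟩
  · rw [← Ideal.Quotient.mk_eq_mk_iff_sub_mem, hσ]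
    exact h3 _ eτ x
  · rw [← Ideal.Quotient.mk_eq_mk_iff_sub_mem, hτ]
    exact h4 _ eσ x

end General

section Indices

variable {I : Type} [Fintype I] [IsAdicComplete (maximalIdeal O) O] (r : ℕ)

/-- Changes of coordinates at all indices give one for the product. -/
theorem LocalEquiv.iSup {J J' : I → Ideal (MvPowerSeries (Fin 8) O)}
    (h : ∀ i, LocalEquiv (J i) (J' i)) :
    LocalEquiv (⨆ i, (J i).map (rename (R := O) (emI r i)))
      (⨆ i, (J' i).map (rename (R := O) (emI r i))) := by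
  classical
  choose σ τ hσ hτ h1 h2 h3 h4 using h
  have := FermatAgent.DefRing.isAdicComplete_mvPowerSeries (ι := Vars I r) (𝒪 := O)
  have hmX : ∀ x : Vars I r, (X x : Ambient O I r) ∈ maximalIdeal (Ambient O I r) := fun x =>
    FermatAgent.DefRing.varIdeal_le (Ideal.subset_span ⟨x, rfl⟩)
  have hren : ∀ (i : I) {p : MvPowerSeries (Fin 8) O}, p ∈ maximalIdeal _ →
      rename (emI r i) p ∈ maximalIdeal (Ambient O I r) := fun i p hp =>
    map_mem_maximalIdeal (rename (R := O) (emI r i)) (fun v => by rw [rename_X]; exact hmX _) hp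
  -- the extension of a family of endomorphisms
  have ext : ∀ σ : I → (MvPowerSeries (Fin 8) O →ₐ[O] MvPowerSeries (Fin 8) O),
      (∀ i v, σ i (X v) ∈ maximalIdeal _) →
      ∃ F : Ambient O I r →ₐ[O] Ambient O I r, (∀ x, F (X x) ∈ maximalIdeal _) ∧
        (∀ j, F (X (Sum.inr j)) = X (Sum.inr j)) ∧
        ∀ i p, F (rename (emI r i) p) = rename (emI r i) (σ i p) := by
    intro σ hσ
    obtain ⟨F, hF⟩ := FermatAgent.DefRing.exists_eval (𝒪 := O) (A := Ambient O I r)
      (Sum.elim (fun iv : I × Fin 8 => rename (emI r iv.1) (σ iv.1 (X iv.2)))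
        fun j => X (Sum.inr j)) (by rintro (iv | j); exacts [hren _ (hσ _ _), hmX _])
    refine ⟨F, ?_, fun j => hF _, fun i p => ?_⟩
    · rintro (iv | j) <;> rw [hF]
      exacts [hren _ (hσ _ _), hmX _]
    refine DFunLike.congr_fun (FermatAgent.DefRing.algHom_ext_of_hausdorff
      (F.comp (rename (R := O) (emI r i))) ((rename (R := O) (emI r i)).comp (σ i))
      (fun v => ?_) (fun v => ?_)) p
    · rw [AlgHom.comp_apply, rename_X, show emI r i v = Sum.inl (i, v) from rfl, hF]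
      exact hren _ (hσ _ _)
    · rw [AlgHom.comp_apply, AlgHom.comp_apply, rename_X,
        show emI r i v = Sum.inl (i, v) from rfl, hF]
      rfl
  obtain ⟨F, hFm, hFr, hF⟩ := ext σ hσ
  obtain ⟨G, hGm, hGr, hG⟩ := ext τ hτ
  refine ⟨F, G, hFm, hGm, iSup_le fun i => ?_, iSup_le fun i => ?_, ?_, ?_⟩
  · rw [Ideal.map_le_iff_le_comap]
    intro p hp
    rw [Ideal.mem_comap, Ideal.mem_comap, hF]
    exact Ideal.mem_iSup_of_mem i (Ideal.mem_map_of_mem _ (h1 i hp))
  · rw [Ideal.map_le_iff_le_comap]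
    intro p hp
    rw [Ideal.mem_comap, Ideal.mem_comap, hG]
    exact Ideal.mem_iSup_of_mem i (Ideal.mem_map_of_mem _ (h2 i hp))
  · rintro (⟨i, v⟩ | j)
    · rw [show (X (Sum.inl (i, v)) : Ambient O I r) = rename (emI r i) (X v) by
        rw [rename_X]; rfl, hF, hG, ← map_sub]
      exact Ideal.mem_iSup_of_mem i (Ideal.mem_map_of_mem _ (h3 i v))
    · rw [hFr, hGr, sub_self]; exact zero_mem _
  · rintro (⟨i, v⟩ | j)
    · rw [show (X (Sum.inl (i, v)) : Ambient O I r) = rename (emI r i) (X v) by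
        rw [rename_X]; rfl, hG, hF, ← map_sub]
      exact Ideal.mem_iSup_of_mem i (Ideal.mem_map_of_mem _ (h4 i v))
    · rw [hGr, hFr, sub_self]; exact zero_mem _

end Indices

end FermatAgent.RTLift.LocalRings

end
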