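import Mathlib.RingTheory.MvPowerSeries.Inverse
import Mathlib.LinearAlgebra.Matrix.Trace
import Mathlib.LinearAlgebra.Matrix.Determinant.Basic
import Mathlib.LinearAlgebra.Matrix.Notation
import Mathlib.RingTheory.LocalRing.ResidueField.Basic

/-!
# Local configurations at the auxiliary primes

Local configurations at the auxiliary primes: the ambient power series ring, the universal
Frobenius and inertia matrices, and the ideals `ur`, `St_ε`, `C_c` and the walls.
-/

set_option autoImplicit false

noncomputable section

namespace FermatAgent.RTLift.LocalRings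

open Matrix

/-- The four kinds of local configuration. -/
inductive Cfg : Type
  | ur
  | st (ε : ℤˣ)
  | cc
  | wall (ε : ℤˣ)
deriving DecidableEq

/-- Whether a configuration is a wall. -/
def Cfg.IsWall : Cfg → Prop
  | .wall _ => True
  | _ => False

/-- The number of free parameters of a configuration. -/
def Cfg.dim : Cfg → ℕ
  | .wall _ => 2
  | _ => 3

/-- The set of entries of a matrix. -/
def entries {S : Type*} (M : Matrix (Fin 2) (Fin 2) S) : Set S :=
  Set.range fun ab : Fin 2 × Fin 2 => M ab.1 ab.2

section Equations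

variable {S : Type*} [CommRing S]

/-- The equations of a configuration in the Frobenius `P`, the monodromy `N = τ - 1`,
the prime `q` and the trace `c` of `τ`. -/
def cfgEqns (A : Cfg) (q : S) (c : S) (P N : Matrix (Fin 2) (Fin 2) S) : Set S :=
  match A with
  | .ur => entries N ∪ {P.det - q}
  | .st ε => {P.det - q, P.trace - ((ε : ℤ) : S) * (q + 1), N.trace, N.det} ∪
      entries (P * N - (((ε : ℤ) : S) * q) • N) ∪ entries (N * P - ((ε : ℤ) : S) • N)
  | .cc => {P.det - q, (1 + N).det - 1, (1 + N).trace - c} ∪ entries (P * (1 + N) - (1 + N) * P)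
  | .wall ε => entries N ∪ {P.det - q, P.trace - ((ε : ℤ) : S) * (q + 1)}

/-- The matrices satisfy the equations of the configuration. -/
def Sat (A : Cfg) (q : S) (c : S) (P N : Matrix (Fin 2) (Fin 2) S) : Prop :=
  ∀ x ∈ cfgEqns A q c P N, x = 0

end Equations

/-- Variables: eight matrix entries for each index, and `r` free variables. -/
abbrev Vars (I : Type) (r : ℕ) : Type := (I × Fin 8) ⊕ Fin r

/-- The ambient ring. -/
abbrev Ambient (O : Type) (I : Type) (r : ℕ) : Type := MvPowerSeries (Vars I r) O

/-- Residual and numerical data: the primes, and lifts of the residual matrices. -/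
structure Datum (O : Type) (I : Type) where
  /-- the primes -/
  q : I → ℕ
  /-- the trace of `τ` in the configuration `C_c` -/
  c : I → O
  /-- lift of the residual Frobenius -/
  Φ₀ : I → Matrix (Fin 2) (Fin 2) O
  /-- lift of the residual monodromy -/
  n₀ : I → Matrix (Fin 2) (Fin 2) O

/-- Numbering of the Frobenius entries. -/
def idxΦ (a b : Fin 2) : Fin 8 := !![(0 : Fin 8), 1; 2, 3] a b

/-- Numbering of the monodromy entries. -/
def idxN (a b : Fin 2) : Fin 8 := !![(4 : Fin 8), 5; 6, 7] a b

variable {O : Type} [CommRing O] {I : Type} (r : ℕ) (D : Datum O I)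

namespace Datum

/-- The universal Frobenius at `i`. -/
def frob (i : I) : Matrix (Fin 2) (Fin 2) (Ambient O I r) :=
  Matrix.of fun a b => algebraMap O _ (D.Φ₀ i a b) + MvPowerSeries.X (Sum.inl (i, idxΦ a b))

/-- The universal monodromy `n = τ - 1` at `i`. -/
def mono (i : I) : Matrix (Fin 2) (Fin 2) (Ambient O I r) :=
  Matrix.of fun a b => algebraMap O _ (D.n₀ i a b) + MvPowerSeries.X (Sum.inl (i, idxN a b))

/-- The local ideal at `i`. -/
def localIdeal (i : I) (A : Cfg) : Ideal (Ambient O I r) :=
  Ideal.span (cfgEqns A (D.q i : Ambient O I r) (algebraMap O _ (D.c i)) (D.frob r i) (D.mono r i))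

/-- The ideal of a choice of configurations. -/
def cfgIdeal (A : I → Cfg) : Ideal (Ambient O I r) :=
  ⨆ i, D.localIdeal r i (A i)

variable [IsLocalRing O]

/-- The residual matrices satisfy the equations of the configuration. -/
def ResidualSat (i : I) (A : Cfg) : Prop :=
  Sat A (D.q i : IsLocalRing.ResidueField O) (IsLocalRing.residue O (D.c i))
    ((D.Φ₀ i).map (IsLocalRing.residue O)) ((D.n₀ i).map (IsLocalRing.residue O))

/-- A configuration is allowed at `i`. -/
def Allowed (i : I) : Cfg → Prop
  | .cc => (D.q i : IsLocalRing.ResidueField O) = 1 ∧ ∃ ε, D.ResidualSat i (.st ε)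
  | .wall ε => D.ResidualSat i (.wall ε)
  | A => D.ResidualSat i A

/-- Standing hypotheses: `q_i` prime to the odd residue characteristic `p`, and `c = ζ + ζ⁻¹` for
non-trivial `p`-power roots of unity `ζ`. -/
structure Valid (p : ℕ) (ζ : I → O) : Prop where
  prime : p.Prime
  odd : p ≠ 2
  residueChar : (p : IsLocalRing.ResidueField O) = 0
  zeta_pow : ∀ i, ∃ m, ζ i ^ p ^ m = 1
  zeta_ne_one : ∀ i, ζ i ≠ 1
  c_eq : ∀ i, D.c i * ζ i = ζ i ^ 2 + 1
  q_prime : ∀ i, (D.q i).Prime
  q_ne : ∀ i, D.q i ≠ p

end Datum

end FermatAgent.RTLift.LocalRings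

end
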