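import Fermat.Agent.RTLift.LocalRings.Defs
import Mathlib.Algebra.CharZero.Defs
import Mathlib.LinearAlgebra.Matrix.Charpoly.Basic
import Mathlib.LinearAlgebra.Matrix.Charpoly.Coeff

/-!
# The dichotomy for tame pairs

Dichotomy: over a domain of characteristic zero a tame pair is unramified or Steinberg (or of
type `C_c`).
-/

set_option autoImplicit false

noncomputable section

namespace FermatAgent.RTLift.LocalRings

open Matrix

variable {S : Type*} [CommRing S]

theorem mul_self_eq (M : Matrix (Fin 2) (Fin 2) S) :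
    M * M = M.trace • M - M.det • (1 : Matrix (Fin 2) (Fin 2) S) := by
  ext a b
  fin_cases a <;> fin_cases b <;>
    simp [Matrix.mul_apply, Fin.sum_univ_two, Matrix.trace_fin_two, Matrix.det_fin_two] <;> ring

theorem det_one_add (M : Matrix (Fin 2) (Fin 2) S) : (1 + M).det = 1 + M.trace + M.det := by
  simp [Matrix.det_fin_two, Matrix.trace_fin_two]
  ring

theorem trace_one_add (M : Matrix (Fin 2) (Fin 2) S) : (1 + M).trace = 2 + M.trace := by
  simp [Matrix.trace_fin_two]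

theorem sat_ur_iff {q c : S} {P N : Matrix (Fin 2) (Fin 2) S} :
    Sat .ur q c P N ↔ N = 0 ∧ P.det = q := by
  simp only [Sat, cfgEqns, entries, Set.mem_union, Set.mem_range, Set.mem_singleton_iff]
  constructor
  · intro h
    exact ⟨Matrix.ext fun a b => h _ (Or.inl ⟨(a, b), rfl⟩), sub_eq_zero.mp (h _ (Or.inr rfl))⟩
  · rintro ⟨rfl, h⟩ x (⟨ab, rfl⟩ | rfl)
    · rfl
    · exact sub_eq_zero.mpr h

theorem sat_wall_iff {ε : ℤˣ} {q c : S} {P N : Matrix (Fin 2) (Fin 2) S} :
    Sat (.wall ε) q c P N ↔ N = 0 ∧ P.det = q ∧ P.trace = ((ε : ℤ) : S) * (q + 1) := by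
  simp only [Sat, cfgEqns, entries, Set.mem_union, Set.mem_range, Set.mem_insert_iff,
    Set.mem_singleton_iff]
  constructor
  · intro h
    exact ⟨Matrix.ext fun a b => h _ (Or.inl ⟨(a, b), rfl⟩),
      sub_eq_zero.mp (h _ (Or.inr (Or.inl rfl))), sub_eq_zero.mp (h _ (Or.inr (Or.inr rfl)))⟩
  · rintro ⟨rfl, h, h'⟩ x (⟨ab, rfl⟩ | rfl | rfl)
    · rfl
    · exact sub_eq_zero.mpr h
    · exact sub_eq_zero.mpr h'

theorem sat_st_iff {ε : ℤˣ} {q c : S} {P N : Matrix (Fin 2) (Fin 2) S} :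
    Sat (.st ε) q c P N ↔ P.det = q ∧ P.trace = ((ε : ℤ) : S) * (q + 1) ∧ N.trace = 0 ∧
      N.det = 0 ∧ P * N = (((ε : ℤ) : S) * q) • N ∧ N * P = ((ε : ℤ) : S) • N := by
  simp only [Sat, cfgEqns, entries, Set.mem_union, Set.mem_range, Set.mem_insert_iff,
    Set.mem_singleton_iff]
  constructor
  · intro h
    exact ⟨sub_eq_zero.mp (h _ (Or.inl (Or.inl (Or.inl rfl)))),
      sub_eq_zero.mp (h _ (Or.inl (Or.inl (Or.inr (Or.inl rfl))))),
      h _ (Or.inl (Or.inl (Or.inr (Or.inr (Or.inl rfl))))),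
      h _ (Or.inl (Or.inl (Or.inr (Or.inr (Or.inr rfl))))),
      Matrix.ext fun a b => sub_eq_zero.mp (h _ (Or.inl (Or.inr ⟨(a, b), rfl⟩))),
      Matrix.ext fun a b => sub_eq_zero.mp (h _ (Or.inr ⟨(a, b), rfl⟩))⟩
  · rintro ⟨h1, h2, h3, h4, h5, h6⟩ x (((rfl | rfl | rfl | rfl) | ⟨ab, rfl⟩) | ⟨ab, rfl⟩)
    · exact sub_eq_zero.mpr h1
    · exact sub_eq_zero.mpr h2
    · exact h3
    · exact h4
    · simp [h5]
    · simp [h6]

theorem sat_cc_iff {q c : S} {P N : Matrix (Fin 2) (Fin 2) S} :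
    Sat .cc q c P N ↔ P.det = q ∧ (1 + N).det = 1 ∧ (1 + N).trace = c ∧
      P * (1 + N) = (1 + N) * P := by
  simp only [Sat, cfgEqns, entries, Set.mem_union, Set.mem_range, Set.mem_insert_iff,
    Set.mem_singleton_iff]
  constructor
  · intro h
    exact ⟨sub_eq_zero.mp (h _ (Or.inl (Or.inl rfl))),
      sub_eq_zero.mp (h _ (Or.inl (Or.inr (Or.inl rfl)))),
      sub_eq_zero.mp (h _ (Or.inl (Or.inr (Or.inr rfl)))),
      Matrix.ext fun a b => sub_eq_zero.mp (h _ (Or.inr ⟨(a, b), rfl⟩))⟩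
  · rintro ⟨h1, h2, h3, h4⟩ x ((rfl | rfl | rfl) | ⟨ab, rfl⟩)
    · exact sub_eq_zero.mpr h1
    · exact sub_eq_zero.mpr h2
    · exact sub_eq_zero.mpr h3
    · simp [h4]

/-- A tame unipotent pair over a domain of characteristic zero is unramified or Steinberg. -/
theorem sat_ur_or_st [IsDomain S] [CharZero S] {q : ℕ} (hq : 2 ≤ q) (c : S)
    {P N : Matrix (Fin 2) (Fin 2) S} (hdet : P.det = q) (hτ : (1 + N).det = 1)
    (htr : (1 + N).trace = 2) (hrel : P * (1 + N) = (1 + N) ^ q * P) :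
    Sat .ur (q : S) c P N ∨ ∃ ε, Sat (.st ε) (q : S) c P N := by
  have t0 : N.trace = 0 := by
    rw [trace_one_add] at htr
    exact add_eq_left.mp htr
  have d0 : N.det = 0 := by
    rw [det_one_add, t0, add_zero] at hτ
    exact add_eq_left.mp hτ
  have hN2 : N * N = 0 := by rw [mul_self_eq, t0, d0, zero_smul, zero_smul, sub_zero]
  have hpow : ∀ k : ℕ, (1 + N) ^ k = 1 + (k : S) • N := by
    intro k
    induction k with
    | zero => simp
    | succ k ih =>
      rw [pow_succ, ih, add_mul, one_mul, smul_mul_assoc, mul_add, mul_one, hN2, add_zero,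
        Nat.cast_succ, add_smul, one_smul]
      abel
  rw [hpow, mul_add, mul_one, add_mul, one_mul, add_right_inj, smul_mul_assoc] at hrel
  by_cases hN : N = 0
  · exact Or.inl (sat_ur_iff.mpr ⟨hN, hdet⟩)
  right
  set Q : S := (q : S)
  set s := P.trace
  have hQ0 : Q ≠ 0 := Nat.cast_ne_zero.mpr (by omega)
  have hQ1 : Q - 1 ≠ 0 := sub_ne_zero.mpr fun h => by
    have : q = 1 := Nat.cast_eq_one.mp h
    omega
  have hPP : P * P = s • P - Q • (1 : Matrix (Fin 2) (Fin 2) S) := by rw [mul_self_eq, hdet]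
  have e1 : P * P * N = (Q * Q) • (N * (P * P)) := by
    rw [mul_assoc, hrel, mul_smul_comm, ← mul_assoc, hrel, smul_mul_assoc, smul_smul, mul_assoc]
  rw [hPP, sub_mul, smul_mul_assoc, smul_mul_assoc, one_mul, hrel, smul_smul, mul_sub,
    mul_smul_comm, mul_smul_comm, mul_one, smul_sub, smul_smul, smul_smul] at e1
  have e2 : s • (N * P) = (Q + 1) • N := by
    ext a b
    have := congrArg (fun M : Matrix (Fin 2) (Fin 2) S => M a b) e1
    simp only [Matrix.sub_apply, Matrix.smul_apply, smul_eq_mul] at this ⊢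
    refine mul_left_cancel₀ (mul_ne_zero hQ0 hQ1) ?_
    linear_combination -this
  have e3 : s • N = (Q + 1) • (N * P) := by
    have h := congrArg (· * P) e2
    simp only [smul_mul_assoc, mul_assoc, hPP, mul_sub, mul_smul_comm, mul_one, smul_sub,
      smul_smul] at h
    ext a b
    have h1 := congrArg (fun M : Matrix (Fin 2) (Fin 2) S => M a b) h
    have h2 := congrArg (fun M : Matrix (Fin 2) (Fin 2) S => M a b) e2
    simp only [Matrix.sub_apply, Matrix.smul_apply, smul_eq_mul] at h1 h2 ⊢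
    refine mul_left_cancel₀ hQ0 ?_
    linear_combination Q * h1 - Q * s * h2
  obtain ⟨a, b, hab⟩ : ∃ a b, N a b ≠ 0 := by
    by_contra h
    push Not at h
    exact hN (Matrix.ext h)
  have e4 : (s - (Q + 1)) * (s + (Q + 1)) = 0 := by
    refine mul_right_cancel₀ hab ?_
    have h2 := congrArg (fun M : Matrix (Fin 2) (Fin 2) S => M a b) e2
    have h3 := congrArg (fun M : Matrix (Fin 2) (Fin 2) S => M a b) e3
    simp only [Matrix.smul_apply, smul_eq_mul] at h2 h3
    linear_combination s * h3 + (Q + 1) * h2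
  have hQ2 : Q + 1 ≠ 0 := Nat.cast_add_one_ne_zero q
  obtain ⟨ε, hε⟩ : ∃ ε : ℤˣ, s = ((ε : ℤ) : S) * (Q + 1) := by
    rcases mul_eq_zero.mp e4 with h | h
    · exact ⟨1, by simpa using sub_eq_zero.mp h⟩
    · exact ⟨-1, by simpa using eq_neg_of_add_eq_zero_left h⟩
  have hε2 : ((ε : ℤ) : S) * ((ε : ℤ) : S) = 1 := by
    rw [← Int.cast_mul, ← Units.val_mul, Int.units_mul_self, Units.val_one, Int.cast_one]
  have hNP : N * P = ((ε : ℤ) : S) • N := by
    ext a b
    have h3 := congrArg (fun M : Matrix (Fin 2) (Fin 2) S => M a b) e3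
    simp only [Matrix.smul_apply, smul_eq_mul] at h3 ⊢
    refine mul_left_cancel₀ hQ2 ?_
    rw [hε] at h3
    linear_combination -h3
  refine ⟨ε, sat_st_iff.mpr ⟨hdet, hε, t0, d0, ?_, hNP⟩⟩
  rw [hrel, hNP, smul_smul, mul_comm]

/-- A tame pair with inertia eigenvalues `z^{±1}` is of type `C_c` when `z^(q-1) = 1`. -/
theorem sat_cc_of_eigen [IsDomain S] {q : ℕ} (hq : 1 ≤ q) {z w : S} (hzw : z * w = 1)
    (hne : z ≠ w) (hz : z ^ (q - 1) = 1) {P N : Matrix (Fin 2) (Fin 2) S}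
    (hdet : P.det = q) (hτ : (1 + N).det = 1) (htr : (1 + N).trace = z + w)
    (hrel : P * (1 + N) = (1 + N) ^ q * P) :
    Sat .cc (q : S) (z + w) P N := by
  set T := 1 + N
  have hT2 : T * T = (z + w) • T - (1 : Matrix (Fin 2) (Fin 2) S) := by
    rw [mul_self_eq, hτ, htr, one_smul]
  have hk : ∀ k : ℕ, (z - w) • T ^ (k + 1) =
      (z ^ (k + 1) - w ^ (k + 1)) • T - (z ^ k - w ^ k) • (1 : Matrix (Fin 2) (Fin 2) S) := by
    intro k
    induction k with
    | zero => simp
    | succ k ih =>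
      rw [pow_succ T (k + 1), ← smul_mul_assoc, ih, sub_mul, smul_mul_assoc, smul_mul_assoc,
        one_mul, hT2, smul_sub, smul_smul]
      ext a b
      simp only [Matrix.sub_apply, Matrix.smul_apply, smul_eq_mul]
      linear_combination (T a b) * (z ^ k - w ^ k) * hzw
  have hw : w ^ (q - 1) = 1 := by
    rw [← one_mul (w ^ (q - 1)), ← hz, ← mul_pow, hzw, one_pow, hz]
  have hTq : T ^ q = T := by
    have h := hk (q - 1)
    rw [hz, hw, sub_self, zero_smul, sub_zero, pow_succ z, pow_succ w, hz, hw, one_mul, one_mul,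
      Nat.sub_add_cancel hq] at h
    ext a b
    have := congrArg (fun M : Matrix (Fin 2) (Fin 2) S => M a b) h
    simp only [Matrix.smul_apply, smul_eq_mul] at this
    exact mul_left_cancel₀ (sub_ne_zero.mpr hne) this
  rw [hTq] at hrel
  exact sat_cc_iff.mpr ⟨hdet, hτ, htr, hrel⟩

end FermatAgent.RTLift.LocalRings

end
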