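import Fermat.Agent.RTLift.LocalRings.Laurent
import Fermat.Agent.DefRing.PowerSeriesBase
import Mathlib.RingTheory.DiscreteValuationRing.Basic
import Mathlib.Data.Finsupp.Weight
import Mathlib.RingTheory.AdicCompletion.Noetherian

/-!
# Kernels of parametrisations of power series rings

The kernel of a parametrisation of a power series ring: monomial rewriting modulo `ϖ` and
independence of leading exponents.
-/

set_option autoImplicit false

noncomputable section

namespace FermatAgent.RTLift.LocalRings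

open IsLocalRing MvPowerSeries

variable {ι : Type} [Finite ι] {O : Type} [CommRing O] [IsDomain O] [IsDiscreteValuationRing O]

omit [IsDomain O] [IsDiscreteValuationRing O] in
theorem mem_varIdeal_pow_of_coeff {p : MvPowerSeries ι O} {n : ℕ}
    (h : ∀ m : ι →₀ ℕ, m.degree < n → coeff m p = 0) :
    p ∈ FermatAgent.DefRing.varIdeal ι O ^ n := by
  have h0 : truncTotal n p = 0 := by
    ext m
    by_cases hm : m.degree < n
    · rw [coeff_truncTotal _ hm, h m hm, MvPolynomial.coeff_zero]
    · rw [coeff_truncTotal_eq_zero _ (not_lt.mp hm), MvPolynomial.coeff_zero]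
  have := FermatAgent.DefRing.sub_truncTotal_mem p n
  rwa [h0, MvPolynomial.coe_zero, sub_zero] at this

/-- The monomials of degree `< n`, as a finite set. -/
def degLT (ι : Type) [Finite ι] (n : ℕ) : Finset (ι →₀ ℕ) :=
  Set.Finite.toFinset (s := {m : ι →₀ ℕ | m.degree < n})
    ((Finsupp.finite_of_degree_le n).subset fun m (hm : m.degree < n) => show m.degree ≤ n from hm.le)

omit [IsDomain O] [IsDiscreteValuationRing O] in
theorem sub_sum_monomial_mem (p : MvPowerSeries ι O) (n : ℕ) :
    p - ∑ m ∈ degLT ι n, monomial m (coeff m p) ∈ FermatAgent.DefRing.varIdeal ι O ^ n := by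
  classical
  refine mem_varIdeal_pow_of_coeff fun m hm => ?_
  rw [map_sub, map_sum, Finset.sum_eq_single m (fun b _ hb => by
    rw [coeff_monomial, if_neg (Ne.symm hb)]) (fun h => absurd (by simpa [degLT] using hm) h),
    coeff_monomial_same, sub_self]

theorem mem_of_forall_mem_sup_pow {R : Type*} [CommRing R] [IsNoetherianRing R] [IsLocalRing R]
    (J : Ideal R) {x : R} (h : ∀ n, x ∈ J ⊔ maximalIdeal R ^ n) : x ∈ J := by
  have : IsHausdorff (maximalIdeal R) (R ⧸ J) :=
    IsHausdorff.of_isLocalRing (maximalIdeal R) (R ⧸ J) (maximalIdeal.isMaximal R).ne_top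
  rw [← Ideal.Quotient.eq_zero_iff_mem]
  refine IsHausdorff.haus (I := maximalIdeal R) inferInstance _ fun n => ?_
  rw [SModEq.zero, Ideal.smul_top_eq_map, Submodule.restrictScalars_mem,
    Ideal.Quotient.algebraMap_eq, ← Ideal.mem_comap,
    Ideal.comap_map_of_surjective' _ Ideal.Quotient.mk_surjective, Ideal.mk_ker, sup_comm]
  exact h n

/-- Existence of normal forms. -/
theorem exists_normal_mod_unif {ϖ : O} (_hϖ : Irreducible ϖ) (J : Ideal (MvPowerSeries ι O))
    (Normal : (ι →₀ ℕ) → Prop) (μ : (ι →₀ ℕ) → ℕ)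
    (hstep : ∀ m, ¬ Normal m → ∃ (c : O) (m' : ι →₀ ℕ),
      monomial m 1 - monomial m' c ∈ J ⊔ Ideal.span {algebraMap O _ ϖ} ∧
      (c = 0 ∨ (m'.degree = m.degree ∧ μ m' < μ m)))
    (g : MvPowerSeries ι O) :
    ∃ B, (∀ n, coeff n B ≠ 0 → Normal n) ∧ g - B ∈ J ⊔ Ideal.span {algebraMap O _ ϖ} := by
  classical
  set K := J ⊔ Ideal.span {algebraMap O (MvPowerSeries ι O) ϖ}
  have hmon : ∀ d, ∀ m : ι →₀ ℕ, μ m = d → ∃ b : MvPowerSeries ι O,
      (∀ n, coeff n b ≠ 0 → Normal n ∧ n.degree = m.degree) ∧ monomial m 1 - b ∈ K := by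
    intro d
    induction d using Nat.strong_induction_on with
    | _ d ih =>
      intro m hm
      by_cases hN : Normal m
      · refine ⟨monomial m 1, fun n hn => ?_, by rw [sub_self]; exact zero_mem _⟩
        rw [coeff_monomial] at hn
        split_ifs at hn with h
        · subst h
          exact ⟨hN, rfl⟩
        · exact absurd rfl hn
      obtain ⟨c, m', hmem, hc⟩ := hstep m hN
      rcases hc with rfl | ⟨hdeg, hμ⟩
      · refine ⟨0, fun n hn => absurd (map_zero _) hn, ?_⟩
        rwa [map_zero] at hmem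
      obtain ⟨b, hb, hbmem⟩ := ih (μ m') (hm ▸ hμ) m' rfl
      refine ⟨algebraMap O _ c * b, fun n hn => ?_, ?_⟩
      · rw [MvPowerSeries.algebraMap_apply, coeff_C_mul] at hn
        exact hdeg ▸ hb n (right_ne_zero_of_mul hn)
      · have : monomial m' c = algebraMap O _ c * monomial m' 1 := by
          rw [MvPowerSeries.algebraMap_apply, ← monomial_zero_eq_C_apply, monomial_mul_monomial]
          simp
        have h2 := K.add_mem hmem (K.mul_mem_left (algebraMap O _ c) hbmem)
        rw [this] at h2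
        convert h2 using 1
        ring
  choose b hb hbmem using fun m => hmon (μ m) m rfl
  let B : MvPowerSeries ι O := fun n =>
    ∑ m ∈ degLT ι (n.degree + 1), if m.degree = n.degree then coeff m g * coeff n (b m) else 0
  have hB : ∀ n, coeff n B = ∑ m ∈ degLT ι (n.degree + 1),
      if m.degree = n.degree then coeff m g * coeff n (b m) else 0 := fun n => rfl
  refine ⟨B, fun n hn => ?_, mem_of_forall_mem_sup_pow K fun N => ?_⟩
  · rw [hB] at hn
    obtain ⟨m, -, hm⟩ := Finset.exists_ne_zero_of_sum_ne_zero hn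
    split_ifs at hm with h
    · exact (hb m n (right_ne_zero_of_mul hm)).1
    · exact absurd rfl hm
  · set V := FermatAgent.DefRing.varIdeal ι O ^ N
    have hV : V ≤ maximalIdeal (MvPowerSeries ι O) ^ N :=
      Ideal.pow_right_mono FermatAgent.DefRing.varIdeal_le N
    have h1 := sub_sum_monomial_mem g N
    have h2 : B - ∑ m ∈ degLT ι N, algebraMap O _ (coeff m g) * b m ∈ V := by
      refine mem_varIdeal_pow_of_coeff fun n hn => ?_
      rw [map_sub, map_sum, hB, sub_eq_zero]
      simp only [MvPowerSeries.algebraMap_apply, Algebra.algebraMap_self, RingHom.id_apply,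
        coeff_C_mul]
      rw [← Finset.sum_filter, ← Finset.sum_subset (s₁ := (degLT ι N).filter
        fun m => m.degree = n.degree) (s₂ := degLT ι N) (Finset.filter_subset _ _) ?_]
      · refine Finset.sum_congr ?_ fun _ _ => rfl
        ext m
        simp only [degLT, Finset.mem_filter, Set.Finite.mem_toFinset, Set.mem_ofPred_eq]
        omega
      · intro m hm hm'
        by_contra hne
        exact hm' (Finset.mem_filter.mpr ⟨hm, ((hb m n (right_ne_zero_of_mul hne)).2).symm⟩)
    have h3 : (∑ m ∈ degLT ι N, monomial m (coeff m g)) -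
        ∑ m ∈ degLT ι N, algebraMap O _ (coeff m g) * b m ∈ K := by
      rw [← Finset.sum_sub_distrib]
      refine sum_mem fun m _ => ?_
      have : monomial m (coeff m g) = algebraMap O _ (coeff m g) * monomial m 1 := by
        rw [MvPowerSeries.algebraMap_apply, ← monomial_zero_eq_C_apply, monomial_mul_monomial]
        simp
      rw [this, ← mul_sub]
      exact K.mul_mem_left _ (hbmem m)
    have h4 : (g - ∑ m ∈ degLT ι N, monomial m (coeff m g)) -
        (B - ∑ m ∈ degLT ι N, algebraMap O _ (coeff m g) * b m) ∈ V := sub_mem h1 h2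
    have := Submodule.add_mem_sup h3 (hV h4)
    convert this using 1
    ring

variable [IsAdicComplete (maximalIdeal O) O]

/-- Existence of exact normal forms. -/
theorem exists_normal {ϖ : O} (hϖ : Irreducible ϖ) (J : Ideal (MvPowerSeries ι O))
    (Normal : (ι →₀ ℕ) → Prop) (μ : (ι →₀ ℕ) → ℕ)
    (hstep : ∀ m, ¬ Normal m → ∃ (c : O) (m' : ι →₀ ℕ),
      monomial m 1 - monomial m' c ∈ J ⊔ Ideal.span {algebraMap O _ ϖ} ∧
      (c = 0 ∨ (m'.degree = m.degree ∧ μ m' < μ m)))
    (g : MvPowerSeries ι O) :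
    ∃ B, (∀ n, coeff n B ≠ 0 → Normal n) ∧ g - B ∈ J := by
  classical
  have hex : ∀ g : MvPowerSeries ι O, ∃ B g', (∀ n, coeff n B ≠ 0 → Normal n) ∧
      g - B - algebraMap O _ ϖ * g' ∈ J := by
    intro g
    obtain ⟨B, hB, hmem⟩ := exists_normal_mod_unif hϖ J Normal μ hstep g
    obtain ⟨j, hj, y, hy, hjy⟩ := Submodule.mem_sup.mp hmem
    obtain ⟨g', rfl⟩ := Ideal.mem_span_singleton'.mp hy
    refine ⟨B, g', hB, ?_⟩
    rw [← hjy]
    convert hj using 1
    ring
  choose Bf gf hBf hgf using hex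
  let gs : ℕ → MvPowerSeries ι O := fun k => Nat.rec g (fun _ h => gf h) k
  let S : ℕ → MvPowerSeries ι O :=
    fun k => ∑ j ∈ Finset.range k, algebraMap O _ (ϖ ^ j) * Bf (gs j)
  have hS : ∀ k, g - S k - algebraMap O _ (ϖ ^ k) * gs k ∈ J := by
    intro k
    induction k with
    | zero => simp [S, gs]
    | succ k ih =>
      have h := J.add_mem ih (J.mul_mem_left (algebraMap O _ (ϖ ^ k)) (hgf (gs k)))
      have e : gs (k + 1) = gf (gs k) := rfl
      convert h using 1
      simp only [S, Finset.sum_range_succ, e, pow_succ, map_mul]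
      ring
  have hlim : ∀ n, ∃ L : O, (¬ Normal n → L = 0) ∧
      ∀ k, L - coeff n (S k) ∈ Ideal.span {ϖ ^ k} := by
    intro n
    by_cases hn : Normal n
    · obtain ⟨L, hL⟩ := IsPrecomplete.prec (I := maximalIdeal O) inferInstance
        (f := fun k => coeff n (S k)) fun {a b} hab => by
          rw [SModEq.sub_mem, smul_eq_mul, Ideal.mul_top, hϖ.maximalIdeal_eq,
            Ideal.span_singleton_pow, ← neg_sub, neg_mem_iff, ← map_sub]
          simp only [S, ← Finset.sum_Ico_eq_sub _ hab, map_sum, MvPowerSeries.algebraMap_apply,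
            Algebra.algebraMap_self, RingHom.id_apply, coeff_C_mul]
          refine sum_mem fun j hj => Ideal.mul_mem_right _ _ ?_
          exact Ideal.mem_span_singleton.mpr (pow_dvd_pow _ (Finset.mem_Ico.mp hj).1)
      refine ⟨L, fun h => absurd hn h, fun k => ?_⟩
      have := hL k
      rw [SModEq.sub_mem, smul_eq_mul, Ideal.mul_top, hϖ.maximalIdeal_eq,
        Ideal.span_singleton_pow] at this
      rw [← neg_sub]
      exact neg_mem this
    · refine ⟨0, fun _ => rfl, fun k => ?_⟩
      have : coeff n (S k) = 0 := by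
        simp only [S, map_sum, MvPowerSeries.algebraMap_apply, Algebra.algebraMap_self,
          RingHom.id_apply, coeff_C_mul]
        refine Finset.sum_eq_zero fun j _ => ?_
        by_contra h
        exact hn (hBf _ n (right_ne_zero_of_mul h))
      rw [this, sub_zero]
      exact zero_mem _
  choose L hL0 hL using hlim
  let B : MvPowerSeries ι O := L
  refine ⟨B, fun n hn => by_contra fun h => hn (hL0 n h), mem_of_forall_mem_sup_pow J fun k => ?_⟩
  have h1 : B - S k ∈ Ideal.span {algebraMap O (MvPowerSeries ι O) (ϖ ^ k)} := by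
    choose y hy using fun n => Ideal.mem_span_singleton'.mp (hL n k)
    let Y : MvPowerSeries ι O := y
    refine Ideal.mem_span_singleton'.mpr ⟨Y, MvPowerSeries.ext fun n => ?_⟩
    rw [mul_comm, MvPowerSeries.algebraMap_apply, Algebra.algebraMap_self, RingHom.id_apply,
      coeff_C_mul, map_sub, mul_comm]
    exact hy n
  have h2 : algebraMap O (MvPowerSeries ι O) (ϖ ^ k) ∈ maximalIdeal (MvPowerSeries ι O) ^ k := by
    rw [map_pow]
    refine Ideal.pow_mem_pow ?_ k
    rw [FermatAgent.DefRing.mem_maximalIdeal_iff, MvPowerSeries.algebraMap_apply]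
    simp [hϖ.maximalIdeal_eq]
  have h3 : algebraMap O _ (ϖ ^ k) * gs k - (B - S k) ∈ maximalIdeal (MvPowerSeries ι O) ^ k := by
    refine sub_mem (Ideal.mul_mem_right _ _ h2) ?_
    obtain ⟨Y, hY⟩ := Ideal.mem_span_singleton'.mp h1
    rw [← hY]
    exact Ideal.mul_mem_left _ _ h2
  have := Submodule.add_mem_sup (hS k) h3
  convert this using 1
  ring

section Injective

variable {τ : Type} [Fintype τ] {O' : Type} [CommRing O'] [IsDomain O'] [IsDiscreteValuationRing O']
  [Algebra O O'] {k : Type} [Field k]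

omit [IsAdicComplete (maximalIdeal O) O] [IsDomain O] [IsDiscreteValuationRing O] in
/-- Series supported on monomials with distinct leading exponents map injectively. -/
theorem eq_zero_of_map_eq_zero [Fintype ι] {π : O'} (hπ : Irreducible π) (res : O' →+* k)
    (hres : RingHom.ker res = Ideal.span {π}) (hinjO : Function.Injective (algebraMap O O'))
    (φ : MvPowerSeries ι O →ₐ[O] MvPowerSeries τ O')
    (w : ι → ℕ) (hw : ∀ v, 1 ≤ w v) (L : ι → AddMonoidAlgebra O' (τ → ℤ))
    (hφ : ∀ v, φ (X v) = C (π ^ w v) * emb (L v))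
    (G : (τ → ℤ) →+ ℤ) (ℓ : ι → τ → ℤ) (Normal : (ι →₀ ℕ) → Prop)
    (hlead : ∀ m, Normal m → ∀ v, m v ≠ 0 →
      HasLead G (AddMonoidAlgebra.mapRingHom (τ → ℤ) res (L v)) (ℓ v))
    (hinj : ∀ m m', Normal m → Normal m' → ∑ v, m v • ℓ v = ∑ v, m' v • ℓ v → m = m')
    {B : MvPowerSeries ι O} (hB : ∀ n, coeff n B ≠ 0 → Normal n) (h0 : φ B = 0) : B = 0 := by
  classical
  set W := MvPowerSeries τ O'
  let b : (ι →₀ ℕ) → O' := fun m => algebraMap O O' (coeff m B)
  have hfac : ∀ m, b m ≠ 0 → ∃ (n : ℕ) (u : O'), ¬ π ∣ u ∧ b m = π ^ n * u := by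
    intro m hm
    obtain ⟨n, u, hu⟩ := IsDiscreteValuationRing.eq_unit_mul_pow_irreducible hm hπ
    exact ⟨n, u, fun h => hπ.not_isUnit (isUnit_of_dvd_unit h u.isUnit), by rw [hu, mul_comm]⟩
  choose! e u hu hbu using hfac
  let wt : (ι →₀ ℕ) → ℕ := fun m => ∑ v, m v * w v
  have hdeg : ∀ m : ι →₀ ℕ, m.degree ≤ wt m := fun m => by
    rw [Finsupp.degree_eq_sum]
    exact Finset.sum_le_sum fun v _ => Nat.le_mul_of_pos_right _ (hw v)
  by_contra hne
  have hex : ∃ V, ∃ m, b m ≠ 0 ∧ e m + wt m = V := by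
    obtain ⟨m, hm⟩ : ∃ m, coeff m B ≠ 0 := by
      by_contra h
      push Not at h
      exact hne (MvPowerSeries.ext fun n => by rw [h n, map_zero])
    exact ⟨_, m, fun h => hm (hinjO (h.trans (map_zero _).symm)), rfl⟩
  set V := Nat.find hex
  obtain ⟨m₀, hm₀, hV₀⟩ := Nat.find_spec hex
  have hmin : ∀ m, b m ≠ 0 → V ≤ e m + wt m := fun m hm => Nat.find_min' hex ⟨m, hm, rfl⟩
  have hπW : ∀ n, C (π ^ n) ∈ (Ideal.span {C π} : Ideal W) ^ n := fun n => by
    rw [map_pow]
    exact Ideal.pow_mem_pow (Ideal.mem_span_singleton_self _) n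
  have htail : ∀ p ∈ FermatAgent.DefRing.varIdeal ι O ^ (V + 1),
      φ p ∈ (Ideal.span {C π} : Ideal W) ^ (V + 1) := by
    intro p hp
    have hle : (FermatAgent.DefRing.varIdeal ι O).map φ ≤ Ideal.span {C π} := by
      rw [FermatAgent.DefRing.varIdeal, Ideal.map_span, Ideal.span_le]
      rintro _ ⟨_, ⟨v, rfl⟩, rfl⟩
      rw [SetLike.mem_coe, hφ]
      refine Ideal.mul_mem_right _ _ ?_
      rw [map_pow]
      exact Ideal.pow_mem_of_mem _ (Ideal.mem_span_singleton_self _) _ (hw v)
    have := Ideal.mem_map_of_mem φ hp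
    rw [Ideal.map_pow] at this
    exact Ideal.pow_right_mono hle _ this
  let P : (ι →₀ ℕ) → AddMonoidAlgebra O' (τ → ℤ) := fun m => ∏ v, L v ^ m v
  have hmono : ∀ m, φ (monomial m (coeff m B)) = C (b m * π ^ wt m) * emb (P m) := by
    intro m
    have h1 : monomial m (coeff m B) =
        algebraMap O (MvPowerSeries ι O) (coeff m B) * ∏ v, X v ^ m v := by
      rw [MvPowerSeries.algebraMap_apply, ← monomial_zero_eq_C_apply]
      have : ∏ v, X v ^ m v = monomial m (1 : O) := by
        have h := congrArg (fun p : MvPolynomial ι O => (p : MvPowerSeries ι O))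
          (MvPolynomial.monomial_eq (a := (1 : O)) (s := m))
        simp only [MvPolynomial.coe_monomial, map_one, one_mul] at h
        rw [h, Finsupp.prod_fintype _ _ fun _ => pow_zero _,
          ← MvPolynomial.coeToMvPowerSeries.ringHom_apply, map_prod]
        simp
      rw [this, monomial_mul_monomial]
      simp
    rw [h1, map_mul, AlgHom.commutes, map_prod]
    simp only [map_pow, hφ, mul_pow, Finset.prod_mul_distrib, P, map_prod, b, wt, map_mul,
      Finset.prod_pow_eq_pow_sum, ← pow_mul]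
    rw [MvPowerSeries.algebraMap_apply]
    simp only [mul_comm (w _)]
    ring
  have hsplit : ∀ m ∈ degLT ι (V + 1), ∃ Z : W, φ (monomial m (coeff m B)) =
      C (π ^ V) * (C (if b m ≠ 0 ∧ e m + wt m = V then u m else 0) * emb (P m) + C π * Z) := by
    intro m _
    rw [hmono]
    by_cases hm : b m = 0
    · exact ⟨0, by simp [hm]⟩
    conv => arg 1; ext; lhs; rw [hbu m hm]
    rcases (hmin m hm).eq_or_lt with h | h
    · refine ⟨0, ?_⟩
      rw [if_pos ⟨hm, h.symm⟩, h]
      simp only [map_mul, map_pow, pow_add]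
      ring
    · obtain ⟨d, hd⟩ : ∃ d, e m + wt m = V + 1 + d := ⟨e m + wt m - (V + 1), by omega⟩
      refine ⟨C (π ^ d * u m) * emb (P m), ?_⟩
      rw [if_neg fun hh => (ne_of_gt h) hh.2, map_zero, zero_mul, zero_add,
        show π ^ e m * u m * π ^ wt m = π ^ (e m + wt m) * u m by ring, hd]
      simp only [map_mul, map_pow, pow_add, pow_one]
      ring
  choose! Z hZ using hsplit
  have hsum := htail _ (sub_sum_monomial_mem B (V + 1))
  rw [map_sub, h0, zero_sub, neg_mem_iff, map_sum, Finset.sum_congr rfl hZ, ← Finset.mul_sum,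
    Ideal.span_singleton_pow, Ideal.mem_span_singleton'] at hsum
  obtain ⟨Y, hY⟩ := hsum
  have hC0 : (C (π ^ V) : W) ≠ 0 := fun h => pow_ne_zero V hπ.ne_zero (by
    simpa using congrArg constantCoeff h)
  have hkey : Y * C π = ∑ m ∈ degLT ι (V + 1),
      (C (if b m ≠ 0 ∧ e m + wt m = V then u m else 0) * emb (P m) + C π * Z m) :=
    mul_left_cancel₀ hC0 (by rw [← hY, map_pow]; ring)
  have hred := congrArg (MvPowerSeries.map res) hkey
  have hπ0 : MvPowerSeries.map res (C π : W) = 0 := by
    rw [MvPowerSeries.map_C, show res π = 0 from (RingHom.mem_ker).mp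
      (hres ▸ Ideal.mem_span_singleton_self π), map_zero]
  simp only [map_mul, map_sum, map_add, hπ0, mul_zero, zero_mul, add_zero, MvPowerSeries.map_C,
    map_emb] at hred
  set s := (degLT ι (V + 1)).filter fun m => b m ≠ 0 ∧ e m + wt m = V
  have hlin : ∑ m ∈ s, res (u m) • AddMonoidAlgebra.mapRingHom (τ → ℤ) res (P m) = 0 := by
    refine emb_injective ?_
    rw [map_zero, map_sum, hred, Finset.sum_filter]
    refine Finset.sum_congr rfl fun m _ => ?_
    split_ifs with h
    · rw [map_smul, MvPowerSeries.smul_eq_C_mul]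
    · rw [map_zero, map_zero, zero_mul]
  have hnorm : ∀ m ∈ s, Normal m := fun m hm => hB m fun h =>
    (Finset.mem_filter.mp hm).2.1 (by simp only [b, h, map_zero])
  have hs0 := eq_zero_of_sum_eq_zero (G := G) s _ (fun m => ∑ v, m v • ℓ v) (fun m hm => ?_)
    (fun m hm m' hm' he => hinj m m' (hnorm m hm) (hnorm m' hm') he) (fun m => res (u m)) hlin
  · have hm₀s : m₀ ∈ s := by
      refine Finset.mem_filter.mpr ⟨?_, hm₀, hV₀⟩
      simp only [degLT, Set.Finite.mem_toFinset, Set.mem_ofPred_eq]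
      have := hdeg m₀
      omega
    have h := hs0 m₀ hm₀s
    rw [← RingHom.mem_ker, hres, Ideal.mem_span_singleton] at h
    exact hu m₀ hm₀ h
  · simp only [P, map_prod, map_pow]
    have hfull : ∀ v, HasLead G (AddMonoidAlgebra.mapRingHom (τ → ℤ) res (L v) ^ m v) (m v • ℓ v) := by
      intro v
      by_cases hv : m v = 0
      · rw [hv, pow_zero, zero_smul]
        exact hasLead_one
      · exact (hlead m (hnorm m hm) v hv).pow _
    exact hasLead_prod _ _ _ fun v _ => hfull v

/-- The kernel theorem. -/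
theorem ker_eq_of_rewriting [Fintype ι] {ϖ : O} (hϖ : Irreducible ϖ) {π : O'} (hπ : Irreducible π)
    (res : O' →+* k) (hres : RingHom.ker res = Ideal.span {π})
    (hinjO : Function.Injective (algebraMap O O'))
    (J : Ideal (MvPowerSeries ι O)) (φ : MvPowerSeries ι O →ₐ[O] MvPowerSeries τ O')
    (hJ : J ≤ RingHom.ker φ.toRingHom)
    (w : ι → ℕ) (hw : ∀ v, 1 ≤ w v) (L : ι → AddMonoidAlgebra O' (τ → ℤ))
    (hφ : ∀ v, φ (X v) = C (π ^ w v) * emb (L v))
    (G : (τ → ℤ) →+ ℤ) (ℓ : ι → τ → ℤ) (Normal : (ι →₀ ℕ) → Prop)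
    (hlead : ∀ m, Normal m → ∀ v, m v ≠ 0 →
      HasLead G (AddMonoidAlgebra.mapRingHom (τ → ℤ) res (L v)) (ℓ v))
    (hinj : ∀ m m', Normal m → Normal m' → ∑ v, m v • ℓ v = ∑ v, m' v • ℓ v → m = m')
    (μ : (ι →₀ ℕ) → ℕ)
    (hstep : ∀ m, ¬ Normal m → ∃ (c : O) (m' : ι →₀ ℕ),
      monomial m 1 - monomial m' c ∈ J ⊔ Ideal.span {algebraMap O _ ϖ} ∧
      (c = 0 ∨ (m'.degree = m.degree ∧ μ m' < μ m))) :
    RingHom.ker φ.toRingHom = J := by
  refine le_antisymm (fun g hg => ?_) hJ
  obtain ⟨B, hB, hgB⟩ := exists_normal hϖ J Normal μ hstep g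
  have hB0 : B = 0 := by
    refine eq_zero_of_map_eq_zero hπ res hres hinjO φ w hw L hφ G ℓ Normal hlead hinj hB ?_
    have h1 : φ (g - B) = 0 := RingHom.mem_ker.mp (hJ hgB)
    rw [map_sub, show φ g = 0 from hg, zero_sub, neg_eq_zero] at h1
    exact h1
  rwa [hB0, sub_zero] at hgB

end Injective

end FermatAgent.RTLift.LocalRings

end
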