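/-
Laurent polynomials inside power series by `X_v ↦ 1 + T_v`, and leading exponents.
-/
import Mathlib.RingTheory.MvPowerSeries.Inverse
import Mathlib.Algebra.MonoidAlgebra.Basic
import Mathlib.Algebra.MvPolynomial.Equiv
import Mathlib.RingTheory.MvPowerSeries.NoZeroDivisors

set_option autoImplicit false

noncomputable section

namespace FermatAgent.RTLift.LocalRings

variable {τ : Type} [Fintype τ] {S : Type} [CommRing S]

omit [Fintype τ] in
theorem isUnit_one_add_X (v : τ) : IsUnit (1 + MvPowerSeries.X v : MvPowerSeries τ S) := by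
  rw [MvPowerSeries.isUnit_iff_constantCoeff]
  simp

/-- The unit `1 + T_v`. -/
def tUnit (v : τ) : (MvPowerSeries τ S)ˣ := (isUnit_one_add_X v).unit

omit [Fintype τ] in
@[simp] theorem coe_tUnit (v : τ) :
    (((tUnit v : (MvPowerSeries τ S)ˣ) : MvPowerSeries τ S)) = 1 + MvPowerSeries.X v := rfl

/-- The monomial `∏ (1 + T_v) ^ e_v`. -/
def tPow : Multiplicative (τ → ℤ) →* MvPowerSeries τ S :=
  (Units.coeHom _).comp
    { toFun := fun e => ∏ v, (tUnit v : (MvPowerSeries τ S)ˣ) ^ (Multiplicative.toAdd e v)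
      map_one' := by simp
      map_mul' := fun a b => by
        rw [← Finset.prod_mul_distrib]
        exact Finset.prod_congr rfl fun v _ => zpow_add _ _ _ }

/-- Laurent polynomials as power series in `T`. -/
def emb : AddMonoidAlgebra S (τ → ℤ) →ₐ[S] MvPowerSeries τ S :=
  AddMonoidAlgebra.lift S (MvPowerSeries τ S) (τ → ℤ) tPow

theorem emb_single (e : τ → ℤ) (a : S) :
    emb (AddMonoidAlgebra.single e a) = a • tPow (Multiplicative.ofAdd e) :=
  AddMonoidAlgebra.lift_single _ _ _

theorem tPow_natCast (n : τ → ℕ) :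
    (tPow (Multiplicative.ofAdd fun v => (n v : ℤ)) : MvPowerSeries τ S) =
      ∏ v, (1 + MvPowerSeries.X v) ^ n v := by
  simp [tPow, Units.coeHom, Units.coe_prod]

theorem emb_injective : Function.Injective (emb : AddMonoidAlgebra S (τ → ℤ) → _) := by
  classical
  rw [injective_iff_map_eq_zero]
  intro L hL
  -- clear denominators
  obtain ⟨s, hs⟩ : ∃ s : τ → ℤ, ∀ e ∈ L.coeff.support, ∀ v, 0 ≤ s v + e v :=
    ⟨fun v => ∑ e ∈ L.coeff.support, |e v|, fun e he v => by
      have h : |e v| ≤ ∑ x ∈ L.coeff.support, |x v| :=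
        Finset.single_le_sum (f := fun x : τ → ℤ => |x v|) (fun x _ => abs_nonneg _) he
      have := neg_abs_le (e v)
      linarith⟩
  let n : (τ → ℤ) → (τ →₀ ℕ) := fun e => Finsupp.equivFunOnFinite.symm fun v => (s v + e v).toNat
  let p : MvPolynomial τ S := ∑ e ∈ L.coeff.support, MvPolynomial.monomial (n e) (L.coeff e)
  let sh : MvPolynomial τ S →ₐ[S] MvPolynomial τ S :=
    MvPolynomial.aeval fun v => 1 + MvPolynomial.X v
  let sh' : MvPolynomial τ S →ₐ[S] MvPolynomial τ S :=
    MvPolynomial.aeval fun v => MvPolynomial.X v - 1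
  have hinv : sh'.comp sh = AlgHom.id S _ :=
    MvPolynomial.algHom_ext fun v => by simp [sh, sh']
  have h0 : ((sh p : MvPolynomial τ S) : MvPowerSeries τ S) =
      tPow (Multiplicative.ofAdd s) * emb L := by
    conv_rhs => rw [← AddMonoidAlgebra.sum_coeff_single L, Finsupp.sum, map_sum, Finset.mul_sum]
    rw [← MvPolynomial.coeToMvPowerSeries.ringHom_apply, map_sum, map_sum]
    refine Finset.sum_congr rfl fun e he => ?_
    rw [emb_single, Algebra.mul_smul_comm, ← map_mul, ← ofAdd_add]
    have hse : (s + e : τ → ℤ) = fun v => ((n e v : ℕ) : ℤ) :=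
      funext fun v => (Int.toNat_of_nonneg (hs e he v)).symm
    rw [hse, tPow_natCast]
    simp only [sh, MvPolynomial.aeval_monomial, MvPolynomial.algebraMap_eq,
      Finsupp.prod_fintype _ _ (fun v => pow_zero _), MvPolynomial.coeToMvPowerSeries.ringHom_apply]
    rw [← MvPolynomial.coeToMvPowerSeries.ringHom_apply, map_mul, map_prod]
    simp [MvPowerSeries.smul_eq_C_mul]
  rw [hL, mul_zero, MvPolynomial.coe_eq_zero_iff] at h0
  have hp : p = 0 := by
    have := congrArg sh' h0
    rw [map_zero, ← AlgHom.comp_apply, hinv] at this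
    exact this
  ext e
  by_cases he : e ∈ L.coeff.support
  · have hc := congrArg (MvPolynomial.coeff (n e)) hp
    simp only [p, MvPolynomial.coeff_sum, MvPolynomial.coeff_monomial, MvPolynomial.coeff_zero] at hc
    rw [Finset.sum_eq_single e (fun b hb hbe => if_neg fun h => hbe ?_) (fun h => absurd he h),
      if_pos rfl] at hc
    · simpa using hc
    · funext v
      have h1 := congrArg (fun f : τ →₀ ℕ => ((f v : ℕ) : ℤ)) h
      simp only [n, Finsupp.coe_equivFunOnFinite_symm, Int.toNat_of_nonneg (hs b hb v),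
        Int.toNat_of_nonneg (hs e he v)] at h1
      linarith
  · simpa using Finsupp.notMem_support_iff.mp he

theorem map_emb {S' : Type} [CommRing S'] (f : S →+* S') (L : AddMonoidAlgebra S (τ → ℤ)) :
    MvPowerSeries.map f (emb L) = emb (AddMonoidAlgebra.mapRingHom (τ → ℤ) f L) := by
  classical
  suffices h : (MvPowerSeries.map f).comp (emb (τ := τ) (S := S)).toRingHom =
      (emb (τ := τ) (S := S')).toRingHom.comp (AddMonoidAlgebra.mapRingHom (τ → ℤ) f) from
    RingHom.congr_fun h L
  have hu : ∀ v : τ, Units.map (MvPowerSeries.map f).toMonoidHom (tUnit v) = tUnit v :=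
    fun v => Units.ext (by rw [Units.coe_map]; simp [coe_tUnit])
  refine AddMonoidAlgebra.ringHom_ext (fun a => ?_) fun e => ?_
  · simp [emb_single, MvPowerSeries.smul_eq_C_mul]
  · simp only [RingHom.coe_comp, Function.comp_apply, AlgHom.toRingHom_eq_coe, RingHom.coe_coe,
      emb_single, one_smul, AddMonoidAlgebra.mapRingHom_single, map_one]
    show MvPowerSeries.map f ((∏ v, tUnit v ^ e v : (MvPowerSeries τ S)ˣ) : MvPowerSeries τ S) =
      ((∏ v, tUnit v ^ e v : (MvPowerSeries τ S')ˣ) : MvPowerSeries τ S')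
    refine (Units.coe_map (MvPowerSeries.map f).toMonoidHom _).symm.trans ?_
    rw [map_prod]
    exact congrArg _ (Finset.prod_congr rfl fun i _ => by
      rw [map_zpow]
      exact congrArg (· ^ e i) (hu i))

/-! ### Leading exponents -/

/-- `ℓ` is the strictly smallest exponent of `L` for the weight `G`. -/
def HasLead (G : (τ → ℤ) →+ ℤ) (L : AddMonoidAlgebra S (τ → ℤ)) (ℓ : τ → ℤ) : Prop :=
  L.coeff ℓ ≠ 0 ∧ ∀ e, L.coeff e ≠ 0 → e = ℓ ∨ G ℓ < G e

variable {G : (τ → ℤ) →+ ℤ}

omit [Fintype τ] in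
theorem hasLead_single {e : τ → ℤ} {a : S} (ha : a ≠ 0) :
    HasLead G (AddMonoidAlgebra.single e a) e := by
  classical
  refine ⟨by simpa [AddMonoidAlgebra.coeff_single] using ha, fun e' he' => Or.inl ?_⟩
  by_contra h
  exact he' (by rw [AddMonoidAlgebra.coeff_single, Finsupp.single_eq_of_ne h])

omit [Fintype τ] in
theorem hasLead_one [Nontrivial S] : HasLead G (1 : AddMonoidAlgebra S (τ → ℤ)) 0 :=
  hasLead_single one_ne_zero

omit [Fintype τ] in
theorem HasLead.mul [NoZeroDivisors S] {L L' : AddMonoidAlgebra S (τ → ℤ)} {ℓ ℓ' : τ → ℤ}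
    (h : HasLead G L ℓ) (h' : HasLead G L' ℓ') : HasLead G (L * L') (ℓ + ℓ') := by
  classical
  have key : ∀ e, (L * L').coeff e = ∑ a ∈ L.coeff.support, ∑ b ∈ L'.coeff.support,
      if a + b = e then L.coeff a * L'.coeff b else 0 := fun e => by
    rw [AddMonoidAlgebra.coeff_mul]
    rfl
  refine ⟨?_, fun e he => ?_⟩
  · rw [key, Finset.sum_eq_single ℓ, Finset.sum_eq_single ℓ', if_pos rfl]
    · exact mul_ne_zero h.1 h'.1
    · exact fun b _ hb => if_neg fun hb' => hb (add_left_cancel hb')
    · intro hh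
      simp [Finsupp.notMem_support_iff.mp hh]
    · intro a ha hne
      refine Finset.sum_eq_zero fun b hb => if_neg fun hab => ?_
      have h1 := (h.2 a (Finsupp.mem_support_iff.mp ha)).resolve_left hne
      rcases h'.2 b (Finsupp.mem_support_iff.mp hb) with rfl | h2
      · exact hne (add_right_cancel hab)
      · have := congrArg G hab
        rw [map_add, map_add] at this
        linarith
    · intro hh
      exact absurd (Finsupp.mem_support_iff.mpr h.1) hh
  · rw [key] at he
    obtain ⟨a, ha, hne⟩ := Finset.exists_ne_zero_of_sum_ne_zero he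
    obtain ⟨b, hb, hne'⟩ := Finset.exists_ne_zero_of_sum_ne_zero hne
    have hab : a + b = e := by
      by_contra hc
      exact hne' (if_neg hc)
    subst hab
    rcases h.2 a (Finsupp.mem_support_iff.mp ha) with rfl | h1 <;>
      rcases h'.2 b (Finsupp.mem_support_iff.mp hb) with rfl | h2
    · exact Or.inl rfl
    all_goals
      right
      rw [map_add, map_add]
      linarith

omit [Fintype τ] in
theorem HasLead.pow [NoZeroDivisors S] [Nontrivial S] {L : AddMonoidAlgebra S (τ → ℤ)} {ℓ : τ → ℤ}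
    (h : HasLead G L ℓ) : ∀ n : ℕ, HasLead G (L ^ n) (n • ℓ)
  | 0 => by rw [pow_zero, zero_smul]; exact hasLead_one
  | n + 1 => by rw [pow_succ, succ_nsmul]; exact (h.pow n).mul h

omit [Fintype τ] in
theorem hasLead_prod [NoZeroDivisors S] [Nontrivial S] {κ : Type*} (s : Finset κ)
    (L : κ → AddMonoidAlgebra S (τ → ℤ)) (ℓ : κ → τ → ℤ) (h : ∀ i ∈ s, HasLead G (L i) (ℓ i)) :
    HasLead G (∏ i ∈ s, L i) (∑ i ∈ s, ℓ i) := by
  classical
  induction s using Finset.induction_on with
  | empty => simpa using hasLead_one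
  | insert a s ha ih =>
    rw [Finset.prod_insert ha, Finset.sum_insert ha]
    exact (h a (Finset.mem_insert_self _ _)).mul (ih fun i hi => h i (Finset.mem_insert_of_mem hi))

omit [Fintype τ] in
/-- Elements with distinct leading exponents are linearly independent. -/
theorem eq_zero_of_sum_eq_zero [NoZeroDivisors S] {κ : Type*} (s : Finset κ)
    (L : κ → AddMonoidAlgebra S (τ → ℤ)) (ℓ : κ → τ → ℤ) (h : ∀ i ∈ s, HasLead G (L i) (ℓ i))
    (hinj : Set.InjOn ℓ s) (a : κ → S) (hsum : ∑ i ∈ s, a i • L i = 0) :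
    ∀ i ∈ s, a i = 0 := by
  classical
  by_contra hcon
  push Not at hcon
  obtain ⟨i₀, hi₀, ha₀⟩ := hcon
  obtain ⟨i, hi, hmin⟩ := Finset.exists_min_image (s.filter fun j => a j ≠ 0)
    (fun j => G (ℓ j)) ⟨i₀, Finset.mem_filter.mpr ⟨hi₀, ha₀⟩⟩
  obtain ⟨his, hai⟩ := Finset.mem_filter.mp hi
  have := congrArg (fun P : AddMonoidAlgebra S (τ → ℤ) => P.coeff (ℓ i)) hsum
  simp only [AddMonoidAlgebra.coeff_zero, AddMonoidAlgebra.coeff_sum, AddMonoidAlgebra.coeff_smul,
    Finsupp.coe_finsetSum, Finset.sum_apply, Finsupp.coe_smul, Pi.smul_apply, smul_eq_mul,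
    Finsupp.coe_zero, Pi.zero_apply] at this
  rw [Finset.sum_eq_single i] at this
  · exact mul_ne_zero hai (h i his).1 this
  · intro j hj hji
    by_contra hne
    obtain ⟨haj, hL⟩ := mul_ne_zero_iff.mp hne
    rcases (h j hj).2 _ hL with he | hlt
    · exact hji (hinj hj his he.symm)
    · have := hmin j (Finset.mem_filter.mpr ⟨hj, haj⟩)
      linarith
  · exact fun hh => absurd his hh

end FermatAgent.RTLift.LocalRings

end
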