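import Fermat.Agent.RTLift.LocalRings.Coord

/-!
# The equations of one index in eight variables, and conjugation of the residual matrices
-/

set_option autoImplicit false

noncomputable section

namespace FermatAgent.RTLift.LocalRings

open IsLocalRing MvPowerSeries Matrix

/-- The matrix of the first four coordinates. -/
def matP {S : Type*} (x : Fin 8 → S) : Matrix (Fin 2) (Fin 2) S :=
  Matrix.of fun a b => x (idxΦ a b)

/-- The matrix of the last four coordinates. -/
def matN {S : Type*} (x : Fin 8 → S) : Matrix (Fin 2) (Fin 2) S :=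
  Matrix.of fun a b => x (idxN a b)

theorem matP_apply {S : Type*} (x : Fin 8 → S) :
    matP x 0 0 = x 0 ∧ matP x 0 1 = x 1 ∧ matP x 1 0 = x 2 ∧ matP x 1 1 = x 3 :=
  ⟨rfl, rfl, rfl, rfl⟩

variable {O : Type} [CommRing O]

/-- The ideal of one index. -/
def cfgIdeal8 (A : Cfg) (q : ℕ) (c : O) (Φ₀ n₀ : Matrix (Fin 2) (Fin 2) O) :
    Ideal (MvPowerSeries (Fin 8) O) :=
  Ideal.span (cfgEqns A (q : MvPowerSeries (Fin 8) O) (algebraMap O _ c)
    (Φ₀.map (algebraMap O _) + matP X) (n₀.map (algebraMap O _) + matN X))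

/-- The points of `cfgIdeal8`. -/
def IsPt {S : Type*} [CommRing S] [Algebra O S] (A : Cfg) (q : ℕ) (c : O)
    (Φ₀ n₀ : Matrix (Fin 2) (Fin 2) O) (x : Fin 8 → S) : Prop :=
  Sat A (q : S) (algebraMap O S c) (Φ₀.map (algebraMap O S) + matP x)
    (n₀.map (algebraMap O S) + matN x)

theorem cfgIdeal8_le_ker_iff {S : Type} [CommRing S] [Algebra O S] (A : Cfg) (q : ℕ) (c : O)
    (Φ₀ n₀ : Matrix (Fin 2) (Fin 2) O) (f : MvPowerSeries (Fin 8) O →ₐ[O] S) :
    cfgIdeal8 A q c Φ₀ n₀ ≤ RingHom.ker f ↔ IsPt A q c Φ₀ n₀ (fun v => f (X v)) := by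
  show cfgIdeal8 A q c Φ₀ n₀ ≤ RingHom.ker f.toRingHom ↔ _
  rw [cfgIdeal8, span_le_ker_iff]
  have hP : (Φ₀.map (algebraMap O (MvPowerSeries (Fin 8) O)) + matP X).map f.toRingHom =
      Φ₀.map (algebraMap O S) + matP (fun v => f (X v)) := by
    refine Matrix.ext fun a b => ?_
    show f (algebraMap O (MvPowerSeries (Fin 8) O) (Φ₀ a b) + X (idxΦ a b)) = _
    rw [map_add, f.commutes]; rfl
  have hN : (n₀.map (algebraMap O (MvPowerSeries (Fin 8) O)) + matN X).map f.toRingHom =
      n₀.map (algebraMap O S) + matN (fun v => f (X v)) := by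
    refine Matrix.ext fun a b => ?_
    show f (algebraMap O (MvPowerSeries (Fin 8) O) (n₀ a b) + X (idxN a b)) = _
    rw [map_add, f.commutes]; rfl
  rw [hP, hN, map_natCast, show f.toRingHom (algebraMap O _ c) = algebraMap O S c from f.commutes c]
  rfl

theorem rename_cfgIdeal8 {I : Type} (r : ℕ) (D : Datum O I) (i : I) (A : Cfg) :
    (cfgIdeal8 A (D.q i) (D.c i) (D.Φ₀ i) (D.n₀ i)).map (rename (R := O) (emI r i)) =
      D.localIdeal r i A := by
  classical
  set g : MvPowerSeries (Fin 8) O →+* Ambient O I r := (rename (R := O) (emI r i)).toRingHom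
  have hP : ((D.Φ₀ i).map (algebraMap O (MvPowerSeries (Fin 8) O)) + matP X).map g = D.frob r i := by
    refine Matrix.ext fun a b => ?_
    show rename (R := O) (emI r i) (algebraMap O (MvPowerSeries (Fin 8) O) (D.Φ₀ i a b) + X (idxΦ a b)) = _
    rw [map_add, AlgHom.commutes, rename_X]; rfl
  have hN : ((D.n₀ i).map (algebraMap O (MvPowerSeries (Fin 8) O)) + matN X).map g = D.mono r i := by
    refine Matrix.ext fun a b => ?_
    show rename (R := O) (emI r i) (algebraMap O (MvPowerSeries (Fin 8) O) (D.n₀ i a b) + X (idxN a b)) = _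
    rw [map_add, AlgHom.commutes, rename_X]; rfl
  show Ideal.map g _ = _
  rw [cfgIdeal8, Ideal.map_span, ← cfgEqns_map, hP, hN, map_natCast,
    show g (algebraMap O _ (D.c i)) = algebraMap O _ (D.c i) from AlgHom.commutes _ _]
  rfl

theorem Sat.conj {S : Type*} [CommRing S] {A : Cfg} {q c : S} {P N : Matrix (Fin 2) (Fin 2) S}
    (h : Sat A q c P N) (G Gi : Matrix (Fin 2) (Fin 2) S) (h1 : G * Gi = 1) (h2 : Gi * G = 1) :
    Sat A q c (G * P * Gi) (G * N * Gi) := by
  have hdet : ∀ M : Matrix (Fin 2) (Fin 2) S, (G * M * Gi).det = M.det := fun M => by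
    rw [det_mul, det_mul, mul_comm, ← mul_assoc, ← det_mul, h2, det_one, one_mul]
  have htr : ∀ M : Matrix (Fin 2) (Fin 2) S, (G * M * Gi).trace = M.trace := fun M => by
    rw [trace_mul_comm, ← Matrix.mul_assoc, h2, Matrix.one_mul]
  have hm : ∀ M M' : Matrix (Fin 2) (Fin 2) S, G * M * Gi * (G * M' * Gi) = G * (M * M') * Gi := by
    intro M M'
    simp only [Matrix.mul_assoc]
    rw [← Matrix.mul_assoc Gi G, h2, Matrix.one_mul]
  have hone : 1 + G * N * Gi = G * (1 + N) * Gi := by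
    rw [Matrix.mul_add, Matrix.add_mul, Matrix.mul_one, h1]
  cases A with
  | ur =>
    obtain ⟨h', h''⟩ := sat_ur_iff.mp h
    exact sat_ur_iff.mpr ⟨by rw [h', Matrix.mul_zero, Matrix.zero_mul], by rw [hdet, h'']⟩
  | st ε =>
    obtain ⟨g1, g2, g3, g4, g5, g6⟩ := sat_st_iff.mp h
    exact sat_st_iff.mpr ⟨by rw [hdet, g1], by rw [htr, g2], by rw [htr, g3], by rw [hdet, g4],
      by rw [hm, g5, Matrix.mul_smul, Matrix.smul_mul],
      by rw [hm, g6, Matrix.mul_smul, Matrix.smul_mul]⟩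
  | cc =>
    obtain ⟨g1, g2, g3, g4⟩ := sat_cc_iff.mp h
    rw [sat_cc_iff, hone]
    exact ⟨by rw [hdet, g1], by rw [hdet, g2], by rw [htr, g3], by rw [hm, hm, g4]⟩
  | wall ε =>
    obtain ⟨g1, g2, g3⟩ := sat_wall_iff.mp h
    exact sat_wall_iff.mpr ⟨by rw [g1, Matrix.mul_zero, Matrix.zero_mul], by rw [hdet, g2],
      by rw [htr, g3]⟩

variable [IsDomain O] [IsDiscreteValuationRing O] [IsAdicComplete (maximalIdeal O) O]

/-- Conjugation, and change of the lift, of the residual matrices. -/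
theorem LocalEquiv.conj {A : Cfg} {q : ℕ} {c : O} {Φ₀ n₀ Φ₁ n₁ g gi : Matrix (Fin 2) (Fin 2) O}
    (h1 : g * gi = 1) (h2 : gi * g = 1)
    (hΦ : (g * Φ₀ * gi).map (residue O) = Φ₁.map (residue O))
    (hn : (g * n₀ * gi).map (residue O) = n₁.map (residue O)) :
    LocalEquiv (cfgIdeal8 A q c Φ₀ n₀) (cfgIdeal8 A q c Φ₁ n₁) := by
  classical
  set R := MvPowerSeries (Fin 8) O
  set al : O →+* R := algebraMap O R
  -- the images of the variables
  let mk8 : Matrix (Fin 2) (Fin 2) R → Matrix (Fin 2) (Fin 2) R → Fin 8 → R := fun P N =>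
    ![P 0 0, P 0 1, P 1 0, P 1 1, N 0 0, N 0 1, N 1 0, N 1 1]
  let a : Fin 8 → R := mk8 (gi.map al * (Φ₁.map al + matP X) * g.map al - Φ₀.map al)
    (gi.map al * (n₁.map al + matN X) * g.map al - n₀.map al)
  let b : Fin 8 → R := mk8 (g.map al * (Φ₀.map al + matP X) * gi.map al - Φ₁.map al)
    (g.map al * (n₀.map al + matN X) * gi.map al - n₁.map al)
  have hmP : ∀ P N, matP (mk8 P N) = P ∧ matN (mk8 P N) = N := fun P N =>
    ⟨Matrix.ext fun i j => by fin_cases i <;> fin_cases j <;> rfl,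
      Matrix.ext fun i j => by fin_cases i <;> fin_cases j <;> rfl⟩
  have hall : ∀ {B : Fin 8 → R} {p : R → Prop}, (∀ i j, p (matP B i j)) → (∀ i j, p (matN B i j)) →
      ∀ v, p (B v) := by
    intro B p hP hN v
    fin_cases v
    exacts [hP 0 0, hP 0 1, hP 1 0, hP 1 1, hN 0 0, hN 0 1, hN 1 0, hN 1 1]
  have hmem : ∀ (M M' u w : Matrix (Fin 2) (Fin 2) O) (Y : Matrix (Fin 2) (Fin 2) R),
      (∀ i j, constantCoeff (Y i j) = 0) → (u * M' * w).map (residue O) = M.map (residue O) →
      ∀ i j, (u.map al * (M'.map al + Y) * w.map al - M.map al) i j ∈ maximalIdeal R := by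
    intro M M' u w Y hY h i j
    rw [FermatAgent.DefRing.mem_maximalIdeal_iff, ← residue_eq_zero_iff]
    have hc : ∀ o, constantCoeff (al o) = o := fun o => by
      show constantCoeff (algebraMap O (MvPowerSeries (Fin 8) O) o) = o
      rw [MvPowerSeries.algebraMap_apply, constantCoeff_C]; rfl
    have e := congrFun (congrFun h i) j
    simp only [Matrix.sub_apply, Matrix.mul_apply, Matrix.add_apply, Matrix.map_apply, map_sum,
      map_mul, map_add, map_sub, hc, hY, add_zero] at e ⊢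
    rw [e, sub_self]
  have hsym : ∀ M M' : Matrix (Fin 2) (Fin 2) O,
      (g * M * gi).map (residue O) = M'.map (residue O) →
      (gi * M' * g).map (residue O) = M.map (residue O) := by
    intro M M' h
    rw [Matrix.map_mul, Matrix.map_mul, ← h, ← Matrix.map_mul, ← Matrix.map_mul]
    congr 1
    rw [← Matrix.mul_assoc gi, ← Matrix.mul_assoc gi g, h2, Matrix.one_mul, Matrix.mul_assoc, h2,
      Matrix.mul_one]
  have hXP : ∀ i j, constantCoeff ((matP (X : Fin 8 → R)) i j) = 0 := fun i j => constantCoeff_X _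
  have hXN : ∀ i j, constantCoeff ((matN (X : Fin 8 → R)) i j) = 0 := fun i j => constantCoeff_X _
  -- images under homomorphisms
  have himg : ∀ {S : Type} [CommRing S] [Algebra O S] (f : R →ₐ[O] S)
      (u w M M' : Matrix (Fin 2) (Fin 2) O) (Y : Matrix (Fin 2) (Fin 2) R),
      (u.map al * (M'.map al + Y) * w.map al - M.map al).map f =
        u.map (algebraMap O S) * (M'.map (algebraMap O S) + Y.map f) * w.map (algebraMap O S) -
          M.map (algebraMap O S) := by
    intro S _ _ f u w M M' Y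
    refine Matrix.ext fun i j => ?_
    simp [Matrix.mul_apply, al]
  have hinv : ∀ {S : Type} [CommRing S] [Algebra O S],
      g.map (algebraMap O S) * gi.map (algebraMap O S) = 1 ∧
        gi.map (algebraMap O S) * g.map (algebraMap O S) = 1 := by
    intro S _ _
    constructor <;> rw [← Matrix.map_mul] <;> simp [h1, h2]
  have hcancel : ∀ {S : Type} [CommRing S] [Algebra O S] (u w : Matrix (Fin 2) (Fin 2) S)
      (M M' Z : Matrix (Fin 2) (Fin 2) S), w * u = 1 →
      w * (M' + (u * (M + Z) * w - M')) * u - M = Z := by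
    intro S _ _ u w M M' Z h
    rw [add_sub_cancel, ← Matrix.mul_assoc w, ← Matrix.mul_assoc w u, h, Matrix.one_mul,
      Matrix.mul_assoc, h, Matrix.mul_one, add_sub_cancel_left]
  refine LocalEquiv.of_formula a b ?_ ?_ ?_ ?_ ?_ ?_
  · refine hall (fun i j => ?_) (fun i j => ?_)
    · rw [(hmP _ _).1]; exact hmem _ _ _ _ _ hXP (hsym _ _ hΦ) i j
    · rw [(hmP _ _).2]; exact hmem _ _ _ _ _ hXN (hsym _ _ hn) i j
  · refine hall (fun i j => ?_) (fun i j => ?_)
    · rw [(hmP _ _).1]; exact hmem _ _ _ _ _ hXP hΦ i j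
    · rw [(hmP _ _).2]; exact hmem _ _ _ _ _ hXN hn i j
  all_goals intro f hf
  all_goals
    have hfP : (matP (X : Fin 8 → R)).map f = (matP fun v => f (X v)) := rfl
    have hfN : (matN (X : Fin 8 → R)).map f = (matN fun v => f (X v)) := rfl
  · rw [cfgIdeal8_le_ker_iff]
    have hp := (cfgIdeal8_le_ker_iff A q c Φ₁ n₁ (Ideal.Quotient.mkₐ O (cfgIdeal8 A q c Φ₁ n₁))).mp
      (Ideal.mk_ker.ge)
    have e1 : (matP fun v => f (X v)) = (matP a).map (Ideal.Quotient.mkₐ O (cfgIdeal8 A q c Φ₁ n₁)) :=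
      Matrix.ext fun i j => hf _
    have e2 : (matN fun v => f (X v)) = (matN a).map (Ideal.Quotient.mkₐ O (cfgIdeal8 A q c Φ₁ n₁)) :=
      Matrix.ext fun i j => hf _
    rw [IsPt, e1, e2, (hmP _ _).1, (hmP _ _).2, himg, himg, add_sub_cancel, add_sub_cancel]
    exact Sat.conj hp _ _ hinv.2 hinv.1
  · rw [cfgIdeal8_le_ker_iff]
    have hp := (cfgIdeal8_le_ker_iff A q c Φ₀ n₀ (Ideal.Quotient.mkₐ O (cfgIdeal8 A q c Φ₀ n₀))).mp
      (Ideal.mk_ker.ge)
    have e1 : (matP fun v => f (X v)) = (matP b).map (Ideal.Quotient.mkₐ O (cfgIdeal8 A q c Φ₀ n₀)) :=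
      Matrix.ext fun i j => hf _
    have e2 : (matN fun v => f (X v)) = (matN b).map (Ideal.Quotient.mkₐ O (cfgIdeal8 A q c Φ₀ n₀)) :=
      Matrix.ext fun i j => hf _
    rw [IsPt, e1, e2, (hmP _ _).1, (hmP _ _).2, himg, himg, add_sub_cancel, add_sub_cancel]
    exact Sat.conj hp _ _ hinv.1 hinv.2
  · have e1 : (matP a).map f = (matP fun v => Ideal.Quotient.mk (cfgIdeal8 A q c Φ₀ n₀) (X v)) := by
      have : (matP fun v => f (X v)) = (matP b).map (Ideal.Quotient.mkₐ O (cfgIdeal8 A q c Φ₀ n₀)) :=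
        Matrix.ext fun i j => hf _
      rw [(hmP _ _).1, himg, hfP, this, (hmP _ _).1, himg]
      exact hcancel _ _ _ _ _ hinv.2
    have e2 : (matN a).map f = (matN fun v => Ideal.Quotient.mk (cfgIdeal8 A q c Φ₀ n₀) (X v)) := by
      have : (matN fun v => f (X v)) = (matN b).map (Ideal.Quotient.mkₐ O (cfgIdeal8 A q c Φ₀ n₀)) :=
        Matrix.ext fun i j => hf _
      rw [(hmP _ _).2, himg, hfN, this, (hmP _ _).2, himg]
      exact hcancel _ _ _ _ _ hinv.2
    intro v
    fin_cases v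
    exacts [congrFun (congrFun e1 0) 0, congrFun (congrFun e1 0) 1, congrFun (congrFun e1 1) 0,
      congrFun (congrFun e1 1) 1, congrFun (congrFun e2 0) 0, congrFun (congrFun e2 0) 1,
      congrFun (congrFun e2 1) 0, congrFun (congrFun e2 1) 1]
  · have e1 : (matP b).map f = (matP fun v => Ideal.Quotient.mk (cfgIdeal8 A q c Φ₁ n₁) (X v)) := by
      have : (matP fun v => f (X v)) = (matP a).map (Ideal.Quotient.mkₐ O (cfgIdeal8 A q c Φ₁ n₁)) :=
        Matrix.ext fun i j => hf _
      rw [(hmP _ _).1, himg, hfP, this, (hmP _ _).1, himg]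
      exact hcancel _ _ _ _ _ hinv.1
    have e2 : (matN b).map f = (matN fun v => Ideal.Quotient.mk (cfgIdeal8 A q c Φ₁ n₁) (X v)) := by
      have : (matN fun v => f (X v)) = (matN a).map (Ideal.Quotient.mkₐ O (cfgIdeal8 A q c Φ₁ n₁)) :=
        Matrix.ext fun i j => hf _
      rw [(hmP _ _).2, himg, hfN, this, (hmP _ _).2, himg]
      exact hcancel _ _ _ _ _ hinv.1
    intro v
    fin_cases v
    exacts [congrFun (congrFun e1 0) 0, congrFun (congrFun e1 0) 1, congrFun (congrFun e1 1) 0,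
      congrFun (congrFun e1 1) 1, congrFun (congrFun e2 0) 0, congrFun (congrFun e2 0) 1,
      congrFun (congrFun e2 1) 0, congrFun (congrFun e2 1) 1]

omit [IsAdicComplete (maximalIdeal O) O] in
/-- Normal form of residual matrices satisfying the equations of `St_ε`. -/
theorem exists_normalForm {ε : ℤˣ} {q : ℕ} {c : O} {Φ₀ n₀ : Matrix (Fin 2) (Fin 2) O}
    (h : Sat (.st ε) (q : ResidueField O) (residue O c) (Φ₀.map (residue O))
      (n₀.map (residue O))) :
    ∃ (g gi : Matrix (Fin 2) (Fin 2) O) (b₀ z₀ : O), g * gi = 1 ∧ gi * g = 1 ∧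
      (g * Φ₀ * gi).map (residue O) =
        (!![((ε : ℤ) : O) * q, b₀; 0, ((ε : ℤ) : O)]).map (residue O) ∧
      (g * n₀ * gi).map (residue O) = (!![0, z₀; 0, 0] : Matrix (Fin 2) (Fin 2) O).map (residue O) := by
  set e : (ResidueField O) := ((ε : ℤ) : (ResidueField O))
  obtain ⟨hd, ht, hnt, hnd, hPN, -⟩ := sat_st_iff.mp h
  set P := Φ₀.map (residue O)
  set N := n₀.map (residue O)
  -- a common eigenvector
  obtain ⟨v, hv0, hPv, hNv⟩ : ∃ v : Fin 2 → (ResidueField O), v ≠ 0 ∧ P *ᵥ v = (e * q) • v ∧ N *ᵥ v = 0 := by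
    by_cases hN : N = 0
    · have hdd : (P - (e * q) • (1 : Matrix (Fin 2) (Fin 2) (ResidueField O))).det = 0 := by
        rw [Matrix.det_fin_two] at hd ⊢
        rw [Matrix.trace_fin_two] at ht
        simp [Matrix.sub_apply]
        linear_combination hd - e * q * ht + (-(q : (ResidueField O))) * int_units_mul_self (S := (ResidueField O)) ε
      obtain ⟨v, hv0, hv⟩ := Matrix.exists_mulVec_eq_zero_iff.mpr hdd
      refine ⟨v, hv0, ?_, by rw [hN, Matrix.zero_mulVec]⟩
      rwa [Matrix.sub_mulVec, Matrix.smul_mulVec, Matrix.one_mulVec, sub_eq_zero] at hv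
    · obtain ⟨w, hw⟩ : ∃ w, N *ᵥ w ≠ 0 := by
        by_contra hh
        push Not at hh
        exact hN (Matrix.ext_of_mulVec_single fun i => by rw [hh, Matrix.zero_mulVec])
      refine ⟨N *ᵥ w, hw, ?_, ?_⟩
      · rw [Matrix.mulVec_mulVec, hPN, Matrix.smul_mulVec]
      · rw [Matrix.mulVec_mulVec, mul_self_eq, hnt, hnd, zero_smul, zero_smul, sub_zero,
          Matrix.zero_mulVec]
  obtain ⟨H, hH, hHv⟩ : ∃ H : Matrix (Fin 2) (Fin 2) (ResidueField O), H.det = 1 ∧ ∀ i, H i 0 = v i := by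
    by_cases h0 : v 0 = 0
    · have h1 : v 1 ≠ 0 := fun h1 => hv0 (funext fun i => by fin_cases i <;> assumption)
      exact ⟨!![v 0, -(v 1)⁻¹; v 1, 0], by
        simp [Matrix.det_fin_two]
        field_simp,
        fun i => by fin_cases i <;> rfl⟩
    · exact ⟨!![v 0, 0; v 1, (v 0)⁻¹], by
        simp [Matrix.det_fin_two]
        field_simp,
        fun i => by fin_cases i <;> rfl⟩
  choose lift hlift using (IsLocalRing.residue_surjective (R := O))
  set g' : Matrix (Fin 2) (Fin 2) O := Matrix.of fun i j => lift (H i j)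
  have hg' : g'.map (residue O) = H := Matrix.ext fun i j => hlift _
  have hu : IsUnit g'.det := by
    rw [← IsLocalRing.residue_ne_zero_iff_isUnit, RingHom.map_det, RingHom.mapMatrix_apply, hg', hH]
    exact one_ne_zero
  set Hi := (g'⁻¹).map (residue O)
  have hHi : Hi * H = 1 := by
    rw [← hg', ← Matrix.map_mul, Matrix.nonsing_inv_mul _ hu]
    simp
  have hHi' : H * Hi = 1 := mul_eq_one_comm.mp hHi
  -- entries of the conjugates
  let P' := Hi * P * H
  let N' := Hi * N * H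
  have hcol : ∀ (M : Matrix (Fin 2) (Fin 2) (ResidueField O)) (a : (ResidueField O)), M *ᵥ v = a • v →
      (Hi * M * H) 0 0 = a ∧ (Hi * M * H) 1 0 = 0 := by
    intro M a hM
    have e1 : ∀ i, (M * H) i 0 = a * H i 0 := fun i => by
      have := congrFun hM i
      simpa [Matrix.mulVec, dotProduct, Matrix.mul_apply, hHv] using this
    have e2 : ∀ i, (Hi * M * H) i 0 = a * (Hi * H) i 0 := fun i => by
      rw [Matrix.mul_assoc, Matrix.mul_apply, Matrix.mul_apply (M := Hi) (N := H), Finset.mul_sum]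
      exact Finset.sum_congr rfl fun l _ => by rw [e1]; ring
    exact ⟨by rw [e2, hHi]; simp, by rw [e2, hHi]; simp⟩
  obtain ⟨p0, p1⟩ : P' 0 0 = e * q ∧ P' 1 0 = 0 := hcol P _ hPv
  obtain ⟨n0, n1⟩ : N' 0 0 = 0 ∧ N' 1 0 = 0 := hcol N 0 (by rw [hNv, zero_smul])
  have htrP : P'.trace = P.trace := by
    rw [Matrix.trace_mul_comm, ← Matrix.mul_assoc, hHi', Matrix.one_mul]
  have htrN : N'.trace = N.trace := by
    rw [Matrix.trace_mul_comm, ← Matrix.mul_assoc, hHi', Matrix.one_mul]
  rw [Matrix.trace_fin_two, p0, ht] at htrP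
  rw [Matrix.trace_fin_two, n0, hnt] at htrN
  refine ⟨g'⁻¹, g', lift (P' 0 1), lift (N' 0 1), Matrix.nonsing_inv_mul _ hu,
    Matrix.mul_nonsing_inv _ hu, ?_, ?_⟩
  · rw [Matrix.map_mul, Matrix.map_mul, hg']
    ext i j
    show P' i j = _
    fin_cases i <;> fin_cases j
    · show P' 0 0 = residue O (((ε : ℤ) : O) * q)
      rw [map_mul, map_intCast, map_natCast]
      exact p0
    · exact (hlift _).symm
    · show P' 1 0 = residue O 0
      rw [map_zero]
      exact p1
    · show P' 1 1 = residue O ((ε : ℤ) : O)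
      rw [map_intCast]
      linear_combination htrP
  · rw [Matrix.map_mul, Matrix.map_mul, hg']
    ext i j
    show N' i j = _
    fin_cases i <;> fin_cases j
    · show N' 0 0 = residue O 0
      rw [map_zero]
      exact n0
    · exact (hlift _).symm
    · show N' 1 0 = residue O 0
      rw [map_zero]
      exact n1
    · show N' 1 1 = residue O 0
      rw [map_zero]
      linear_combination htrN

end FermatAgent.RTLift.LocalRings

end
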