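import Mathlib.RingTheory.AdjoinRoot
import Mathlib.RingTheory.Polynomial.Eisenstein.Basic
import Mathlib.RingTheory.DiscreteValuationRing.TFAE
import Mathlib.RingTheory.Polynomial.UniqueFactorization
import Mathlib.RingTheory.Finiteness.Basic
import Fermat.Prelude.Thm_IsLocalRing_isAdicComplete_of_module_finite

/-!
# The quadratic ramified extension `O[√ϖ]` of a complete discrete valuation ring
-/

set_option autoImplicit false

noncomputable section

namespace FermatAgent.RTLift.LocalRings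

open Polynomial IsLocalRing

variable {O : Type} [CommRing O] [IsDomain O] [IsDiscreteValuationRing O] {ϖ : O}

theorem irreducible_sqrtPoly (hϖ : Irreducible ϖ) : Irreducible (X ^ 2 - C ϖ : O[X]) := by
  have hp : (Ideal.span {ϖ}).IsPrime := by
    rw [← hϖ.maximalIdeal_eq]
    infer_instance
  refine Polynomial.IsEisensteinAt.irreducible (𝓟 := Ideal.span {ϖ}) ?_ hp
    (monic_X_pow_sub_C ϖ two_ne_zero).isPrimitive (by rw [natDegree_X_pow_sub_C]; norm_num)
  refine ⟨?_, fun {n} hn => ?_, ?_⟩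
  · rw [(monic_X_pow_sub_C ϖ two_ne_zero).leadingCoeff, ← Ideal.eq_top_iff_one]
    exact hp.ne_top
  · rw [natDegree_X_pow_sub_C] at hn
    interval_cases n <;> simp
  · simp only [coeff_sub, coeff_X_pow, show (0 : ℕ) ≠ 2 by norm_num, if_false, coeff_C_zero,
      zero_sub, neg_mem_iff]
    rw [Ideal.span_singleton_pow, Ideal.mem_span_singleton]
    intro h
    have := hϖ.maximalIdeal_eq
    obtain ⟨u, hu⟩ := h
    have h1 : ϖ * (ϖ * u) = ϖ * 1 := by rw [mul_one, ← mul_assoc, ← pow_two, ← hu]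
    exact hϖ.not_isUnit ⟨⟨ϖ, u, mul_left_cancel₀ hϖ.ne_zero h1,
      by rw [mul_comm]; exact mul_left_cancel₀ hϖ.ne_zero h1⟩, rfl⟩

variable (ϖ)

/-- `O[√ϖ]`. -/
abbrev SqrtExt : Type := AdjoinRoot (X ^ 2 - C ϖ : O[X])

/-- The chosen square root of `ϖ`. -/
def sqrtUnif : SqrtExt ϖ := AdjoinRoot.root _

omit [IsDomain O] [IsDiscreteValuationRing O] in
theorem sqrtUnif_sq : sqrtUnif ϖ ^ 2 = algebraMap O (SqrtExt ϖ) ϖ := by
  have h := AdjoinRoot.eval₂_root (X ^ 2 - C ϖ : O[X])
  rw [eval₂_sub, eval₂_X_pow, eval₂_C, sub_eq_zero] at h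
  exact h

omit [IsDomain O] [IsDiscreteValuationRing O] in
theorem exists_repr (x : SqrtExt ϖ) :
    ∃ a b : O, x = algebraMap O _ a + algebraMap O _ b * sqrtUnif ϖ := by
  induction x using AdjoinRoot.induction_on with
  | _ f =>
    induction f using Polynomial.induction_on' with
    | add f g hf hg =>
      obtain ⟨a, b, ha⟩ := hf
      obtain ⟨c, d, hc⟩ := hg
      exact ⟨a + c, b + d, by rw [map_add, ha, hc, map_add, map_add]; ring⟩
    | monomial n c =>
      have : AdjoinRoot.mk (X ^ 2 - C ϖ) (monomial n c) = algebraMap O _ c * sqrtUnif ϖ ^ n := by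
        rw [← C_mul_X_pow_eq_monomial, map_mul, map_pow]
        rfl
      rw [this, ← Nat.mod_add_div n 2, pow_add, pow_mul, sqrtUnif_sq, ← map_pow]
      rcases Nat.mod_two_eq_zero_or_one n with h | h <;> rw [h]
      · exact ⟨c * ϖ ^ (n / 2), 0, by rw [map_mul, map_zero]; ring⟩
      · exact ⟨0, c * ϖ ^ (n / 2), by rw [map_mul, map_zero]; ring⟩

omit [IsDomain O] [IsDiscreteValuationRing O] in
theorem finite_sqrtExt : Module.Finite O (SqrtExt ϖ) :=
  ⟨⟨{1, sqrtUnif ϖ}, by
    classical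
    rw [eq_top_iff]
    intro x _
    obtain ⟨a, b, rfl⟩ := exists_repr ϖ x
    rw [← Algebra.smul_def, Algebra.algebraMap_eq_smul_one, Finset.coe_insert, Finset.coe_singleton]
    exact add_mem (Submodule.smul_mem _ a (Submodule.subset_span (Set.mem_insert _ _)))
      (Submodule.smul_mem _ b (Submodule.subset_span (Set.mem_insert_of_mem _ rfl)))⟩⟩

variable {ϖ}

theorem isDomain_sqrtExt (hϖ : Irreducible ϖ) : IsDomain (SqrtExt ϖ) :=
  AdjoinRoot.isDomain_of_prime (UniqueFactorizationMonoid.irreducible_iff_prime.mp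
    (irreducible_sqrtPoly hϖ))

/-- The residue map of `O[√ϖ]`. -/
def sqrtResidue (hϖ : Irreducible ϖ) : SqrtExt ϖ →+* ResidueField O :=
  AdjoinRoot.lift (residue O) 0 (by
    rw [eval₂_sub, eval₂_X_pow, eval₂_C,
      (residue_eq_zero_iff ϖ).mpr (hϖ.maximalIdeal_eq ▸ Ideal.mem_span_singleton_self ϖ)]
    simp)

theorem sqrtResidue_algebraMap (hϖ : Irreducible ϖ) (a : O) :
    sqrtResidue hϖ (algebraMap O _ a) = residue O a :=
  AdjoinRoot.lift_of _

theorem sqrtResidue_unif (hϖ : Irreducible ϖ) : sqrtResidue hϖ (sqrtUnif ϖ) = 0 :=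
  AdjoinRoot.lift_root _

theorem ker_sqrtResidue (hϖ : Irreducible ϖ) :
    RingHom.ker (sqrtResidue hϖ) = Ideal.span {sqrtUnif ϖ} := by
  refine le_antisymm (fun x hx => ?_) ?_
  · obtain ⟨a, b, rfl⟩ := exists_repr ϖ x
    rw [RingHom.mem_ker, map_add, map_mul, sqrtResidue_unif, mul_zero, add_zero,
      sqrtResidue_algebraMap, residue_eq_zero_iff, hϖ.maximalIdeal_eq,
      Ideal.mem_span_singleton] at hx
    obtain ⟨a', rfl⟩ := hx
    rw [map_mul, ← sqrtUnif_sq, Ideal.mem_span_singleton]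
    exact ⟨sqrtUnif ϖ * algebraMap O _ a' + algebraMap O _ b, by ring⟩
  · rw [Ideal.span_le, Set.singleton_subset_iff, SetLike.mem_coe, RingHom.mem_ker]
    exact sqrtResidue_unif hϖ

theorem isLocalRing_sqrtExt (hϖ : Irreducible ϖ) :
    IsLocalRing (SqrtExt ϖ) := by
  have := isDomain_sqrtExt hϖ
  have := finite_sqrtExt ϖ
  have hmax : (Ideal.span {sqrtUnif ϖ}).IsMaximal := by
    rw [← ker_sqrtResidue hϖ]
    exact RingHom.ker_isMaximal_of_surjective _ fun y => by
      obtain ⟨a, rfl⟩ := residue_surjective y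
      exact ⟨_, sqrtResidue_algebraMap hϖ a⟩
  refine IsLocalRing.of_unique_max_ideal ⟨_, hmax, fun M hM => ?_⟩
  have := hM
  have h1 : (M.comap (algebraMap O (SqrtExt ϖ))).IsMaximal :=
    Ideal.isMaximal_comap_of_isIntegral_of_isMaximal M
  have h2 : ϖ ∈ M.comap (algebraMap O (SqrtExt ϖ)) := by
    rw [IsLocalRing.eq_maximalIdeal h1, hϖ.maximalIdeal_eq]
    exact Ideal.mem_span_singleton_self _
  rw [Ideal.mem_comap, ← sqrtUnif_sq] at h2
  refine (hmax.eq_of_le hM.ne_top ?_).symm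
  rw [Ideal.span_le, Set.singleton_subset_iff]
  exact hM.isPrime.mem_of_pow_mem _ h2

/-- Bundled properties of `O[√ϖ]`. -/
theorem exists_sqrtExt [IsAdicComplete (maximalIdeal O) O] (hϖ : Irreducible ϖ) :
    ∃ (O' : Type) (_ : CommRing O') (_ : IsDomain O') (_ : IsDiscreteValuationRing O')
      (_ : Algebra O O') (π : O') (res : O' →+* ResidueField O),
      IsAdicComplete (maximalIdeal O') O' ∧ Irreducible π ∧ π ^ 2 = algebraMap O O' ϖ ∧
      Function.Injective (algebraMap O O') ∧ RingHom.ker res = Ideal.span {π} ∧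
      ∀ a, res (algebraMap O O' a) = residue O a := by
  have := isDomain_sqrtExt hϖ
  have := finite_sqrtExt ϖ
  have := isLocalRing_sqrtExt hϖ
  have : IsNoetherianRing (SqrtExt ϖ) := IsNoetherianRing.of_finite O _
  have hinj : Function.Injective (algebraMap O (SqrtExt ϖ)) :=
    AdjoinRoot.of.injective_of_degree_ne_zero (by rw [degree_X_pow_sub_C (by norm_num)]; norm_num)
  have hπ0 : sqrtUnif ϖ ≠ 0 := fun h => hϖ.ne_zero (hinj (by
    rw [map_zero, ← sqrtUnif_sq, h, zero_pow two_ne_zero]))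
  have hmax : maximalIdeal (SqrtExt ϖ) = Ideal.span {sqrtUnif ϖ} := by
    rw [← ker_sqrtResidue hϖ]
    exact (IsLocalRing.eq_maximalIdeal (RingHom.ker_isMaximal_of_surjective _ fun y => by
      obtain ⟨a, rfl⟩ := residue_surjective y
      exact ⟨_, sqrtResidue_algebraMap hϖ a⟩)).symm
  have hdvr : IsDiscreteValuationRing (SqrtExt ϖ) := by
    refine ((IsDiscreteValuationRing.TFAE (SqrtExt ϖ) ?_).out 0 4).mpr ?_
    · intro hf
      rw [IsLocalRing.isField_iff_maximalIdeal_eq, hmax, Ideal.span_singleton_eq_bot] at hf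
      exact hπ0 hf
    · rw [hmax]
      exact ⟨⟨_, rfl⟩⟩
  have : IsLocalHom (algebraMap O (SqrtExt ϖ)) := ⟨fun a ha => by
    have := ha.map (sqrtResidue hϖ)
    rw [sqrtResidue_algebraMap] at this
    exact residue_ne_zero_iff_isUnit a |>.mp this.ne_zero⟩
  exact ⟨SqrtExt ϖ, inferInstance, inferInstance, hdvr, inferInstance, sqrtUnif ϖ, sqrtResidue hϖ,
    IsLocalRing.isAdicComplete_of_module_finite (𝒪 := O),
    (IsDiscreteValuationRing.irreducible_iff_uniformizer _).mpr hmax,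
    sqrtUnif_sq ϖ, hinj, ker_sqrtResidue hϖ, sqrtResidue_algebraMap hϖ⟩

end FermatAgent.RTLift.LocalRings

end
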