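import Fermat.Agent.RTLift.LocalRings.CaseCc
import Fermat.Agent.RTLift.LocalRings.CaseWall
import Fermat.Agent.RTLift.LocalRings.SqrtExt
import Mathlib.RingTheory.Henselian

/-!
# Each configuration at an index is a model in suitable coordinates: primality and dimension
-/

set_option autoImplicit false

noncomputable section

namespace FermatAgent.RTLift.LocalRings

open IsLocalRing MvPowerSeries Matrix

variable {O : Type} [CommRing O] [IsDomain O] [IsDiscreteValuationRing O]
  [IsAdicComplete (maximalIdeal O) O]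

/-- A square root of a unit residually equal to a square. -/
theorem exists_sqrt_lift {x r : O} (h : residue O x = residue O r ^ 2)
    (hr : residue O (2 * r) ≠ 0) : ∃ y : O, y ^ 2 = x ∧ residue O y = residue O r := by
  obtain ⟨y, hy, hy'⟩ := HenselianRing.is_henselian (I := maximalIdeal O)
    (Polynomial.X ^ 2 - Polynomial.C x) (Polynomial.monic_X_pow_sub_C x two_ne_zero) r
    (by
      rw [← residue_eq_zero_iff]
      simp [h])
    (by
      show IsUnit (Ideal.Quotient.mk (maximalIdeal O) _)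
      rw [Polynomial.derivative_sub, Polynomial.derivative_X_pow, Polynomial.derivative_C, sub_zero]
      simp only [Nat.cast_ofNat, Polynomial.eval_mul, Polynomial.eval_C,
        Polynomial.eval_X, Nat.add_one_sub_one, pow_one]
      exact (isUnit_iff_ne_zero (a := residue O (2 * r))).mpr hr)
  refine ⟨y, sub_eq_zero.mp (by simpa [Polynomial.IsRoot] using hy), ?_⟩
  rw [← sub_eq_zero, ← map_sub, residue_eq_zero_iff]
  exact hy'

variable {O' : Type} [CommRing O'] [IsDomain O'] [IsDiscreteValuationRing O'] [Algebra O O']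
  {ϖ : O} {π : O'} {res : O' →+* ResidueField O}

/-- Each allowed configuration is a model in suitable coordinates. -/
theorem exists_model [CharZero O] (hE : Extends ϖ π res) (hres : ∀ a, res (algebraMap O O' a) = residue O a)
    (h2 : IsUnit (2 : O)) {I : Type} (D : Datum O I) {p : ℕ} {ζ : I → O} (hV : D.Valid p ζ)
    (i : I) (A : Cfg) (hA : D.Allowed i A) :
    ∃ M : Model ϖ π res, M.d = A.dim ∧
      LocalEquiv (cfgIdeal8 A (D.q i) (D.c i) (D.Φ₀ i) (D.n₀ i)) M.J := by
  classical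
  have : CharP (ResidueField O) p := (CharP.charP_iff_prime_eq_zero hV.prime).mpr hV.residueChar
  have : Fact p.Prime := ⟨hV.prime⟩
  set q := D.q i with hq
  set c := D.c i with hc
  set Φ₀ := D.Φ₀ i
  set n₀ := D.n₀ i
  obtain ⟨hh, hh2⟩ := h2.exists_right_inv
  have h2k : (2 : ResidueField O) ≠ 0 := by
    have := h2.map (residue O)
    rw [map_ofNat] at this
    exact this.ne_zero
  have hq0 : (q : ResidueField O) ≠ 0 := fun h =>
    hV.q_ne i ((Nat.prime_dvd_prime_iff_eq hV.prime (hV.q_prime i)).mp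
      ((CharP.cast_eq_zero_iff (ResidueField O) p q).mp h)).symm
  -- `c = ζ + ζ⁻¹`
  obtain ⟨m, hm⟩ := hV.zeta_pow i
  set z := ζ i
  have hpm : 1 ≤ p ^ m := Nat.one_le_pow _ _ hV.prime.pos
  set zi := z ^ (p ^ m - 1) with hzi
  have hzz : z * zi = 1 := by rw [hzi, ← pow_succ', Nat.sub_add_cancel hpm, hm]
  have hz1 : residue O z = 1 := by
    have h := congrArg (residue O) hm
    rw [map_pow, map_one] at h
    have h' : (residue O z - 1) ^ p ^ m = 0 := by rw [sub_pow_char_pow, one_pow, h, sub_self]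
    exact sub_eq_zero.mp (eq_zero_of_pow_eq_zero h')
  have hzi1 : residue O zi = 1 := by rw [hzi, map_pow, hz1, one_pow]
  have hcz : c = z + zi := by linear_combination zi * hV.c_eq i + (z - c) * hzz
  set s := hh * (z - zi) with hsdef
  set γ := hh * c with hγdef
  have hγ : 2 * γ = c := by rw [hγdef, ← mul_assoc, hh2, one_mul]
  have hs : s ^ 2 = γ ^ 2 - 1 := by
    rw [hsdef, hγdef, hcz]
    linear_combination (-(4 * hh ^ 2)) * hzz - (2 * hh + 1) * hh2
  have hs0 : residue O s = 0 := by rw [hsdef, map_mul, map_sub, hz1, hzi1, sub_self, mul_zero]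
  have hsne : s ≠ 0 := by
    intro h
    rcases mul_eq_zero.mp (hsdef ▸ h) with h' | h'
    · rw [h', mul_zero] at hh2; exact zero_ne_one hh2
    have hz2 : z ^ 2 = 1 := by rw [sq]; nth_rewrite 2 [sub_eq_zero.mp h']; exact hzz
    obtain ⟨j, hj⟩ := (hV.prime.odd_of_ne_two hV.odd).pow (n := m)
    rw [hj, pow_succ, pow_mul, hz2, one_pow, one_mul] at hm
    exact hV.zeta_ne_one i hm
  have hγ1 : residue O γ = 1 := by
    have h := congrArg (residue O) hh2
    rw [map_mul, map_ofNat, map_one] at h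
    rw [hγdef, hcz, map_mul, map_add, hz1, hzi1]
    linear_combination h
  obtain ⟨a, ua, hsa⟩ := IsDiscreteValuationRing.eq_unit_mul_pow_irreducible hsne hE.irr
  have ha : 1 ≤ a := by
    rcases Nat.eq_zero_or_pos a with rfl | h
    · rw [pow_zero, mul_one] at hsa
      exact absurd hs0 ((residue_ne_zero_iff_isUnit _).mpr (hsa ▸ ua.isUnit))
    · exact h
  have hϖs : ϖ ∣ s := hsa ▸ (dvd_pow_self ϖ (by omega)).mul_left _
  have hsu : algebraMap O O' s = π ^ (2 * a) * algebraMap O O' ua := by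
    rw [hsa, map_mul, map_pow, ← hE.sq, ← pow_mul, mul_comm]
  have hu0 : res (algebraMap O O' ua) ≠ 0 := by
    rw [hres]; exact (residue_ne_zero_iff_isUnit _).mpr ua.isUnit
  cases A with
  | ur =>
    refine ⟨modelFree hE h2 3 (by norm_num), rfl, ?_⟩
    have hur : Sat .ur (q : ResidueField O) (residue O c) (Φ₀.map (residue O))
      (n₀.map (residue O)) := hA
    by_cases ha0 : residue O (Φ₀ 0 0) = 0
    · set g : Matrix (Fin 2) (Fin 2) O := !![1, 1; 0, 1]
      set gi : Matrix (Fin 2) (Fin 2) O := !![1, -1; 0, 1]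
      have h1 : g * gi = 1 := by
        ext i j; fin_cases i <;> fin_cases j <;> simp [g, gi, Matrix.mul_apply]
      have h1' : gi * g = 1 := by
        ext i j; fin_cases i <;> fin_cases j <;> simp [g, gi, Matrix.mul_apply]
      refine (LocalEquiv.conj h1 h1' rfl rfl).trans (ur_equiv_free ?_ ?_)
      · rw [Matrix.map_mul, Matrix.map_mul, Matrix.map_mul, Matrix.map_mul]
        exact Sat.conj hur _ _ (by rw [← Matrix.map_mul, h1]; simp)
          (by rw [← Matrix.map_mul, h1']; simp)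
      · have hd := (sat_ur_iff.mp hur).2
        rw [Matrix.det_fin_two] at hd
        simp only [Matrix.map_apply, ha0, zero_mul, zero_sub] at hd
        rw [show (g * Φ₀ * gi) 0 0 = Φ₀ 0 0 + Φ₀ 1 0 by
          simp [g, gi, Matrix.mul_apply, Matrix.vecMul, dotProduct, Fin.sum_univ_two], map_add, ha0, zero_add]
        intro h
        rw [h, mul_zero, neg_zero] at hd
        exact hq0 hd.symm
    · exact ur_equiv_free hur ha0
  | wall ε =>
    obtain ⟨hn, hd, ht⟩ := sat_wall_iff.mp (hA : D.ResidualSat i (.wall ε))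
    obtain ⟨g, gi, b₀, z₀, h1, h1', hΦ, -⟩ := exists_normalForm (ε := ε) (q := q) (c := c)
      (Φ₀ := Φ₀) (n₀ := n₀) (sat_st_iff.mpr ⟨hd, ht, by rw [hn]; simp, by rw [hn]; simp,
        by rw [hn]; simp, by rw [hn]; simp⟩)
    have hn0 : (g * n₀ * gi).map (residue O) = (0 : Matrix (Fin 2) (Fin 2) O).map (residue O) := by
      rw [Matrix.map_mul, Matrix.map_mul, hn]
      simp
    by_cases hq1 : (q : ResidueField O) ≠ 1
    · exact ⟨modelFree hE h2 2 (by norm_num), rfl,
        (LocalEquiv.conj h1 h1' hΦ hn0).trans (wall_equiv_free hq1)⟩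
    push Not at hq1
    by_cases hb : residue O b₀ ≠ 0
    · exact ⟨modelFree hE h2 2 (by norm_num), rfl,
        (LocalEquiv.conj h1 h1' hΦ hn0).trans (wall_equiv_free_of_b hb)⟩
    push Not at hb
    set e : O := ((ε : ℤ) : O) with hedef
    have hee : e * e = 1 := int_units_mul_self ε
    set σ := hh * (e * ((q : O) + 1)) with hσdef
    set δ := hh * (e * ((q : O) - 1)) with hδdef
    have hσ : 2 * σ = e * ((q : O) + 1) := by rw [hσdef, ← mul_assoc, hh2, one_mul]
    have hδ : δ ^ 2 = σ ^ 2 - (q : O) := by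
      rw [hσdef, hδdef]
      linear_combination (-(4 * hh ^ 2 * (q : O))) * hee - ((q : O) * (2 * hh + 1)) * hh2
    have hδ0 : residue O δ = 0 := by
      rw [hδdef, map_mul, map_mul, map_sub, map_natCast, map_one, hq1, sub_self, mul_zero, mul_zero]
    have hδne : δ ≠ 0 := by
      refine mul_ne_zero (fun h => ?_) (mul_ne_zero (fun h => ?_) (sub_ne_zero.mpr ?_))
      · rw [h, mul_zero] at hh2; exact zero_ne_one hh2
      · rw [h, mul_zero] at hee; exact zero_ne_one hee
      · exact_mod_cast (hV.q_prime i).one_lt.ne'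
    obtain ⟨b, ub, hδb⟩ := IsDiscreteValuationRing.eq_unit_mul_pow_irreducible hδne hE.irr
    have hb1 : 1 ≤ b := by
      rcases Nat.eq_zero_or_pos b with rfl | h
      · rw [pow_zero, mul_one] at hδb
        exact absurd hδ0 ((residue_ne_zero_iff_isUnit _).mpr (hδb ▸ ub.isUnit))
      · exact h
    refine ⟨modelCone hE δ (hδb ▸ (dvd_pow_self ϖ (by omega)).mul_left _) (2 * b)
      (algebraMap O O' ub) (by omega)
      (by rw [hδb, map_mul, map_pow, ← hE.sq, ← pow_mul, mul_comm])
      (by rw [hres]; exact (residue_ne_zero_iff_isUnit _).mpr ub.isUnit), rfl,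
      (LocalEquiv.conj (Φ₁ := !![σ, 0; 0, σ]) h1 h1' (hΦ.trans ?_) hn0).trans
        (wall_equiv_cone hσ hδ)⟩
    have hσ1 : residue O σ = ((ε : ℤ) : ResidueField O) := by
      have h := congrArg (residue O) hh2
      rw [map_mul, map_ofNat, map_one] at h
      rw [hσdef, map_mul, map_mul, map_add, map_natCast, map_one, hq1, hedef, map_intCast]
      linear_combination ((ε : ℤ) : ResidueField O) * h
    ext i j; fin_cases i <;> fin_cases j <;> simp [hq1, hσ1, hb, hedef]
  | st ε =>
    obtain ⟨g, gi, b₀, z₀, h1, h1', hΦ, hn⟩ := exists_normalForm (ε := ε) (q := q) (c := c)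
      (Φ₀ := Φ₀) (n₀ := n₀) hA
    by_cases hns : (q : ResidueField O) ≠ 1 ∨ residue O b₀ ≠ 0 ∨ residue O z₀ ≠ 0
    · exact ⟨modelFree hE h2 3 (by norm_num), rfl,
        (LocalEquiv.conj h1 h1' hΦ hn).trans (st_free_of_not_scalar hns)⟩
    push Not at hns
    obtain ⟨hq1, hb, hz⟩ := hns
    set t : O := ((ε : ℤ) : O) * ((q : O) - 1) with ht
    have htm : ϖ ∣ t := by
      rw [← Ideal.mem_span_singleton, ← hE.irr.maximalIdeal_eq, ← residue_eq_zero_iff, ht, map_mul,
        map_sub, map_natCast, map_one, hq1, sub_self, mul_zero]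
    obtain ⟨t', ht'⟩ := htm
    refine ⟨modelNode hE h2 t ⟨t', ht'⟩ (π * algebraMap O O' t')
      (by rw [ht', map_mul, ← hE.sq]; ring) ?_, rfl, (LocalEquiv.conj (Φ₁ := !![((ε : ℤ) : O), 0; 0,
        ((ε : ℤ) : O)]) (n₁ := 0) h1 h1' (hΦ.trans ?_) (hn.trans ?_)).trans ?_⟩
    · rw [map_mul, show res π = 0 by
        rw [← RingHom.mem_ker, hE.ker]; exact Ideal.mem_span_singleton_self π, zero_mul]
    · ext i j; fin_cases i <;> fin_cases j <;> simp [hq1, hb]
    · ext i j; fin_cases i <;> fin_cases j <;> simp [hz]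
    · rw [st_scalar_eq_node]
      exact LocalEquiv.refl _
  | cc =>
    obtain ⟨hq1, ε, hst⟩ := hA
    change (q : ResidueField O) = 1 at hq1
    obtain ⟨g, gi, b₀, z₀, h1, h1', hΦ, hn⟩ := exists_normalForm (ε := ε) (q := q) (c := c)
      (Φ₀ := Φ₀) (n₀ := n₀) hst
    have hε0 : ((ε : ℤ) : ResidueField O) ≠ 0 := fun h => by
      simpa [h] using int_units_mul_self (S := ResidueField O) ε
    obtain ⟨ρ, hρ, hρε⟩ := exists_sqrt_lift (x := (q : O)) (r := ((ε : ℤ) : O))
      (by rw [map_natCast, map_intCast, hq1, sq, int_units_mul_self])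
      (by rw [map_mul, map_ofNat, map_intCast]; exact mul_ne_zero h2k hε0)
    rw [map_intCast] at hρε
    have hρ0 : residue O ρ ≠ 0 := by rw [hρε]; exact hε0
    by_cases hz : residue O z₀ ≠ 0
    · refine ⟨modelFree hE h2 3 (by norm_num), rfl,
        (LocalEquiv.conj (Φ₁ := !![ρ, b₀; 0, ρ]) (n₁ := !![γ - 1, z₀; 0, γ - 1]) h1 h1'
          (hΦ.trans ?_) (hn.trans ?_)).trans (cc_free hρ hγ hs hh2 hs0 hρ0 hz)⟩
      · ext i j; fin_cases i <;> fin_cases j <;> simp [hq1, hρε]
      · ext i j; fin_cases i <;> fin_cases j <;> simp [hγ1]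
    push Not at hz
    by_cases hb : residue O b₀ = 0
    · refine ⟨modelSeg hE h2 s hϖs (2 * a) _ (by omega) hsu hu0, rfl,
        (LocalEquiv.conj (Φ₁ := !![ρ, 0; 0, ρ]) (n₁ := !![γ - 1, 0; 0, γ - 1]) h1 h1'
          (hΦ.trans ?_) (hn.trans ?_)).trans (cc_seg hρ hγ hs hh2 hρ0)⟩
      · ext i j; fin_cases i <;> fin_cases j <;> simp [hq1, hρε, hb]
      · ext i j; fin_cases i <;> fin_cases j <;> simp [hγ1, hz]
    · refine ⟨modelAnn hE h2 s hϖs (2 * a) _ (by omega) hsu hu0, rfl,
        (LocalEquiv.conj (Φ₁ := !![ρ, b₀; 0, ρ]) (n₁ := !![γ - 1, 0; 0, γ - 1]) h1 h1'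
          (hΦ.trans ?_) (hn.trans ?_)).trans (cc_ann hρ hγ hs hh2 hρ0 hb)⟩
      · ext i j; fin_cases i <;> fin_cases j <;> simp [hq1, hρε]
      · ext i j; fin_cases i <;> fin_cases j <;> simp [hγ1, hz]

omit O' ϖ π res in
/-- `I_A` is prime, of characteristic zero, of coheight `1 + r + Σ dim A_i`. -/
theorem isPrime_and_dim [CharZero O] {I : Type} [Fintype I] {r : ℕ} (D : Datum O I) {p : ℕ} {ζ : I → O}
    (hV : D.Valid p ζ) {A : I → Cfg} (hA : ∀ i, D.Allowed i (A i)) :
    (D.cfgIdeal r A).IsPrime ∧ (∀ x : O, algebraMap O _ x ∈ D.cfgIdeal r A → x = 0) ∧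
      ringKrullDim (Ambient O I r ⧸ D.cfgIdeal r A) =
        ((1 + r + ∑ i, (A i).dim : ℕ) : WithBot ℕ∞) := by
  classical
  obtain ⟨ϖ, hϖ⟩ := IsDiscreteValuationRing.exists_irreducible O
  obtain ⟨O', _, _, _, _, π, res, _, hπ, hsq, hinj, hker, hres⟩ := exists_sqrtExt hϖ
  have hE : Extends ϖ π res := ⟨hϖ, hπ, hsq, hinj, hker⟩
  have : CharP (ResidueField O) p := (CharP.charP_iff_prime_eq_zero hV.prime).mpr hV.residueChar
  have h2 : IsUnit (2 : O) := by
    rw [← residue_ne_zero_iff_isUnit, map_ofNat]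
    intro h
    exact hV.odd ((Nat.prime_dvd_prime_iff_eq hV.prime Nat.prime_two).mp
      ((CharP.cast_eq_zero_iff (ResidueField O) p 2).mp (by exact_mod_cast h)))
  choose M hMd hM using fun i => exists_model hE hres h2 D hV i (A i) (hA i)
  have hcfg : D.cfgIdeal r A =
      ⨆ i, (cfgIdeal8 (A i) (D.q i) (D.c i) (D.Φ₀ i) (D.n₀ i)).map (rename (R := O) (emI r i)) := by
    rw [Datum.cfgIdeal]
    exact iSup_congr fun i => (rename_cfgIdeal8 r D i (A i)).symm
  have hequiv : LocalEquiv (D.cfgIdeal r A) (modelIdeal M r) := hcfg ▸ LocalEquiv.iSup r hM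
  obtain ⟨e⟩ := hequiv.exists_algEquiv
  obtain ⟨hprime, hconst, hdim⟩ := modelIdeal_isPrime_and_dim M r hE
  have := hprime
  refine ⟨?_, fun x hx => hconst x ?_, ?_⟩
  · have : IsDomain (Ambient O I r ⧸ modelIdeal M r) := Ideal.Quotient.isDomain _
    have : IsDomain (Ambient O I r ⧸ D.cfgIdeal r A) := MulEquiv.isDomain _ e.toMulEquiv
    exact (Ideal.Quotient.isDomain_iff_prime _).mp inferInstance
  · rw [← Ideal.Quotient.eq_zero_iff_mem, Ideal.Quotient.mk_algebraMap] at hx ⊢
    rw [← e.commutes, hx, map_zero]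
  · rw [ringKrullDim_eq_of_ringEquiv e.toRingEquiv, hdim, Finset.sum_congr rfl fun i _ => hMd i]

end FermatAgent.RTLift.LocalRings

end
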