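/-
Local models given by rewriting rules and a Laurent parametrisation, and operations on variables.
-/
import Fermat.Agent.RTLift.LocalRings.Engine
import Mathlib.RingTheory.MvPowerSeries.Rename

set_option autoImplicit false

noncomputable section

namespace FermatAgent.RTLift.LocalRings

open IsLocalRing MvPowerSeries

variable {τ τ' : Type} {S : Type} [CommRing S]

/-- Keep only the variables in `A` (the others are set to zero). -/
def proj (A : Set τ) : MvPowerSeries τ S →ₐ[S] MvPowerSeries τ S :=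
  (rename (Function.Embedding.subtype (· ∈ A))).comp (killCompl (Function.Embedding.subtype (· ∈ A)))

theorem coeff_proj (A : Set τ) [DecidablePred (· ∈ A)] (f : MvPowerSeries τ S) (n : τ →₀ ℕ) :
    coeff n (proj A f) = if ∀ t ∈ n.support, t ∈ A then coeff n f else 0 := by
  classical
  split_ifs with h
  · have hn : n = Finsupp.embDomain (Function.Embedding.subtype (· ∈ A)) (n.subtypeDomain (· ∈ A)) := by
      ext t
      by_cases ht : t ∈ A
      · exact (Finsupp.embDomain_apply_self (Function.Embedding.subtype (· ∈ A)) (n.subtypeDomain (· ∈ A)) ⟨t, ht⟩).symm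
      · rw [Finsupp.embDomain_of_notMem_range _ _ _ (fun ⟨x, hx⟩ => ht (hx ▸ x.2))]
        exact Finsupp.notMem_support_iff.mp fun hh => ht (h t hh)
    show coeff n (rename _ (killCompl _ f)) = _
    conv_lhs => rw [hn]
    rw [coeff_embDomain_rename, coeff_killCompl, ← hn]
  · show coeff n (rename _ (killCompl _ f)) = _
    refine coeff_rename_eq_zero _ _ ?_
    rintro ⟨x, hx⟩
    refine h fun t ht => ?_
    rw [← hx] at ht
    obtain ⟨y, -, rfl⟩ := Finset.mem_image.mp (Finsupp.mapDomain_support ht)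
    exact y.2

theorem proj_C (A : Set τ) (a : S) : proj A (C a : MvPowerSeries τ S) = C a := by
  rw [proj, AlgHom.comp_apply, killCompl_C, rename_C]

theorem proj_proj_of_subset {A B : Set τ} (h : A ⊆ B) (f : MvPowerSeries τ S) :
    proj A (proj B f) = proj A f := by
  classical
  ext n
  rw [coeff_proj, coeff_proj, coeff_proj]
  by_cases h1 : ∀ t ∈ n.support, t ∈ A
  · rw [if_pos h1, if_pos h1, if_pos fun t ht => h (h1 t ht)]
  · rw [if_neg h1, if_neg h1]

theorem proj_rename (e : τ ↪ τ') (A : Set τ') (f : MvPowerSeries τ S) :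
    proj A (rename e f) = rename e (proj (e ⁻¹' A) f) := by
  classical
  ext n
  rw [coeff_proj]
  by_cases hn : ∃ m : τ →₀ ℕ, Finsupp.embDomain e m = n
  · obtain ⟨m, rfl⟩ := hn
    rw [coeff_embDomain_rename, coeff_embDomain_rename, coeff_proj]
    simp only [Finsupp.support_embDomain, Finset.mem_map, forall_exists_index, and_imp,
      forall_apply_eq_imp_iff₂, Set.mem_preimage]
  · have hz : ∀ g : MvPowerSeries τ S, coeff n (rename e g) = 0 := fun g =>
      coeff_rename_eq_zero _ _ fun ⟨m, hm⟩ =>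
        hn ⟨m, by rw [Finsupp.embDomain_eq_mapDomain]; exact hm⟩
    rw [hz, hz, ite_self]

/-! ### Exponents along an embedding -/

/-- Extend an exponent by zero along an embedding. -/
def extZ (e : τ ↪ τ') : (τ → ℤ) →+ (τ' → ℤ) where
  toFun x := Function.extend e x 0
  map_zero' := Function.extend_zero e
  map_add' x y := by
    funext t
    rcases em (∃ s, e s = t) with ⟨s, rfl⟩ | h
    · simp [e.injective.extend_apply]
    · simp [Function.extend_apply' _ _ _ h]

theorem extZ_apply_self (e : τ ↪ τ') (x : τ → ℤ) (s : τ) : extZ e x (e s) = x s :=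
  e.injective.extend_apply _ _ _

theorem extZ_apply_of_notMem (e : τ ↪ τ') (x : τ → ℤ) {t : τ'} (h : ¬ ∃ s, e s = t) :
    extZ e x t = 0 :=
  Function.extend_apply' _ _ _ h

theorem extZ_injective (e : τ ↪ τ') : Function.Injective (extZ e) := fun x y h =>
  funext fun s => by rw [← extZ_apply_self e x s, h, extZ_apply_self]

/-- The map of Laurent polynomials along an embedding. -/
def extL (e : τ ↪ τ') : AddMonoidAlgebra S (τ → ℤ) →+* AddMonoidAlgebra S (τ' → ℤ) :=
  AddMonoidAlgebra.mapDomainRingHom S (extZ e)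

theorem rename_emb [Fintype τ] [Fintype τ'] (e : τ ↪ τ') (L : AddMonoidAlgebra S (τ → ℤ)) :
    rename e (emb L) = emb (extL e L) := by
  classical
  suffices h : (rename e).toRingHom.comp (emb (τ := τ) (S := S)).toRingHom =
      (emb (τ := τ') (S := S)).toRingHom.comp (extL e) from RingHom.congr_fun h L
  have hu : ∀ v : τ, Units.map (rename (R := S) e).toRingHom.toMonoidHom (tUnit v) = tUnit (e v) :=
    fun v => Units.ext (by
      rw [Units.coe_map, coe_tUnit, coe_tUnit]
      simp [rename_X])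
  refine AddMonoidAlgebra.ringHom_ext (fun a => ?_) fun x => ?_
  · simp [extL, emb_single, MvPowerSeries.smul_eq_C_mul, rename_C]
  · simp only [RingHom.coe_comp, Function.comp_apply, AlgHom.toRingHom_eq_coe, RingHom.coe_coe,
      emb_single, one_smul, extL, AddMonoidAlgebra.mapDomainRingHom_apply,
      AddMonoidAlgebra.mapDomain_single]
    show (rename (R := S) e) ((∏ v, tUnit v ^ x v : (MvPowerSeries τ S)ˣ) : MvPowerSeries τ S) =
      ((∏ v, tUnit v ^ extZ e x v : (MvPowerSeries τ' S)ˣ) : MvPowerSeries τ' S)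
    refine (Units.coe_map (rename (R := S) e).toRingHom.toMonoidHom _).symm.trans (congrArg _ ?_)
    rw [map_prod, ← Finset.prod_subset (Finset.subset_univ (Finset.univ.map e)), Finset.prod_map]
    · exact Finset.prod_congr rfl fun v _ => by
        rw [map_zpow, extZ_apply_self]
        exact congrArg (· ^ x v) (hu v)
    · intro t _ ht
      rw [extZ_apply_of_notMem, zpow_zero]
      exact fun ⟨s, hs⟩ => ht (Finset.mem_map.mpr ⟨s, Finset.mem_univ _, hs⟩)

theorem coeff_extL_self (e : τ ↪ τ') (L : AddMonoidAlgebra S (τ → ℤ)) (x : τ → ℤ) :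
    (extL e L).coeff (extZ e x) = L.coeff x :=
  Finsupp.mapDomain_apply (extZ_injective e) _ _

theorem exists_of_coeff_extL_ne_zero (e : τ ↪ τ') (L : AddMonoidAlgebra S (τ → ℤ)) {y : τ' → ℤ}
    (h : (extL e L).coeff y ≠ 0) : ∃ x, extZ e x = y ∧ L.coeff x ≠ 0 := by
  classical
  obtain ⟨x, hx, rfl⟩ := Finset.mem_image.mp (Finsupp.mapDomain_support (Finsupp.mem_support_iff.mpr h))
  exact ⟨x, rfl, Finsupp.mem_support_iff.mp hx⟩

theorem extL_map {S' : Type} [CommRing S'] (e : τ ↪ τ') (f : S →+* S')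
    (L : AddMonoidAlgebra S (τ → ℤ)) :
    AddMonoidAlgebra.mapRingHom (τ' → ℤ) f (extL e L) =
      extL e (AddMonoidAlgebra.mapRingHom (τ → ℤ) f L) := by
  suffices h : (AddMonoidAlgebra.mapRingHom (τ' → ℤ) f).comp (extL e) =
      (extL e).comp (AddMonoidAlgebra.mapRingHom (τ → ℤ) f) from RingHom.congr_fun h L
  refine AddMonoidAlgebra.ringHom_ext (fun a => ?_) fun x => ?_ <;>
    simp [extL, AddMonoidAlgebra.mapDomain_single]

theorem HasLead.ext [Fintype τ] {e : τ ↪ τ'} {L : AddMonoidAlgebra S (τ → ℤ)}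
    {G : (τ → ℤ) →+ ℤ} {G' : (τ' → ℤ) →+ ℤ} {ℓ : τ → ℤ} (hG : ∀ x, G' (extZ e x) = G x)
    (h : HasLead G L ℓ) : HasLead G' (extL e L) (extZ e ℓ) := by
  refine ⟨by rw [coeff_extL_self]; exact h.1, fun y hy => ?_⟩
  obtain ⟨x, rfl, hx⟩ := exists_of_coeff_extL_ne_zero e L hy
  rcases h.2 x hx with rfl | h'
  · exact Or.inl rfl
  · exact Or.inr (by rwa [hG, hG])

/-! ### Models -/

variable {O : Type} [CommRing O] {O' : Type} [CommRing O'] [Algebra O O'] {k : Type} [Field k]

/-- A local model in eight variables: ideal, parametrisation, rewriting rules modulo `ϖ`,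
a system of parameters of the special fibre and a triangular family. -/
structure Model (ϖ : O) (π : O') (res : O' →+* k) where
  /-- the ideal -/
  J : Ideal (MvPowerSeries (Fin 8) O)
  /-- the number of parameters -/
  d : ℕ
  /-- the weights -/
  w : Fin 8 → ℕ
  hw : ∀ v, 1 ≤ w v
  /-- the parametrisation -/
  L : Fin 8 → AddMonoidAlgebra O' (Fin d → ℤ)
  hJ : ∀ φ : MvPowerSeries (Fin 8) O →ₐ[O] MvPowerSeries (Fin d) O',
    (∀ v, φ (X v) = C (π ^ w v) * emb (L v)) → J ≤ RingHom.ker φ.toRingHom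
  /-- the weight defining leading exponents -/
  G : (Fin d → ℤ) →+ ℤ
  /-- the leading exponents -/
  ℓ : Fin 8 → Fin d → ℤ
  /-- the rewriting rules -/
  rules : List ((Fin 8 →₀ ℕ) × O × (Fin 8 →₀ ℕ))
  /-- the termination weights -/
  μ : Fin 8 → ℕ
  hrules : ∀ ρ ∈ rules, monomial ρ.1 1 - monomial ρ.2.2 ρ.2.1 ∈
      J ⊔ Ideal.span {algebraMap O (MvPowerSeries (Fin 8) O) ϖ} ∧
    (ρ.2.1 = 0 ∨ (ρ.2.2.degree = ρ.1.degree ∧ ∑ v, ρ.2.2 v * μ v < ∑ v, ρ.1 v * μ v))
  hlead : ∀ m : Fin 8 →₀ ℕ, (∀ ρ ∈ rules, ¬ ρ.1 ≤ m) → ∀ v, m v ≠ 0 →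
    HasLead G (AddMonoidAlgebra.mapRingHom (Fin d → ℤ) res (L v)) (ℓ v)
  hinj : ∀ m m' : Fin 8 →₀ ℕ, (∀ ρ ∈ rules, ¬ ρ.1 ≤ m) → (∀ ρ ∈ rules, ¬ ρ.1 ≤ m') →
    ∑ v, m v • ℓ v = ∑ v, m' v • ℓ v → m = m'
  /-- parameters of the special fibre -/
  u : Fin d → MvPowerSeries (Fin 8) O
  hum : ∀ t, ¬ IsUnit (constantCoeff (u t))
  hu : ∀ P : Ideal (MvPowerSeries (Fin 8) O), P.IsPrime → J ≤ P → algebraMap O _ ϖ ∈ P →
    (∀ t, u t ∈ P) → ∀ v, X v ∈ P
  htri : ∀ φ : MvPowerSeries (Fin 8) O →ₐ[O] MvPowerSeries (Fin d) O',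
    (∀ v, φ (X v) = C (π ^ w v) * emb (L v)) → ∀ t : Fin d, ∃ g : MvPowerSeries (Fin 8) O,
      proj {s | s < t} (φ g) = 0 ∧ proj {s | s ≤ t} (φ g) ≠ 0

/-- The normal monomials of a model. -/
def Model.Normal {ϖ : O} {π : O'} {res : O' →+* k} (M : Model ϖ π res) (m : Fin 8 →₀ ℕ) : Prop :=
  ∀ ρ ∈ M.rules, ¬ ρ.1 ≤ m

end FermatAgent.RTLift.LocalRings

end
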