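import Fermat.Agent.RTLift.LocalRings.ModelFree

/-!
# The model `y² D = s²` with two further free parameters
-/

set_option autoImplicit false

noncomputable section

namespace FermatAgent.RTLift.LocalRings

open MvPowerSeries

variable {O : Type} [CommRing O] [IsDomain O] [IsDiscreteValuationRing O]
  {O' : Type} [CommRing O'] [IsDomain O'] [IsDiscreteValuationRing O'] [Algebra O O']
  {k : Type} [Field k] {ϖ : O} {π : O'} {res : O' →+* k}

/-- The ideal of the annulus model in the variables `y, D, b, h`. -/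
def annIdeal (s : O) : Ideal (MvPowerSeries (Fin 8) O) :=
  Ideal.span {X 0 ^ 2 * X 1 - C (s ^ 2), X 4, X 5, X 6, X 7}

/-- The annulus model. -/
def modelAnn (hE : Extends ϖ π res) (h2 : IsUnit (2 : O)) (s : O) (hs : ϖ ∣ s) (e : ℕ) (u : O')
    (he : 2 ≤ e) (hsu : algebraMap O O' s = π ^ e * u) (hu : res u ≠ 0) : Model ϖ π res where
  J := annIdeal s
  d := 3
  w := ![1, 2 * e - 2, 1, 1, 1, 1, 1, 1]
  hw v := by
    fin_cases v <;> simp
    omega
  L := ![AddMonoidAlgebra.single ![1, 0, 0] 1, AddMonoidAlgebra.single ![-2, 0, 0] (u ^ 2),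
    AddMonoidAlgebra.single ![0, 1, 0] 1, AddMonoidAlgebra.single ![0, 0, 1] 1, 0, 0, 0, 0]
  hJ φ hφ := by
    have hC : ∀ x : O, φ (C x) = C (algebraMap O O' x) := fun x =>
      (φ.commutes x).trans (MvPowerSeries.algebraMap_apply (R := O) (A := O') (r := x))
    have h0 := hφ 0
    have h1 := hφ 1
    simp [-coe_tUnit, emb_single3] at h0 h1
    rw [annIdeal, Ideal.span_le]
    rintro x (rfl | rfl | rfl | rfl | rfl)
    · obtain ⟨m, rfl⟩ : ∃ m, e = m + 2 := ⟨e - 2, by omega⟩
      show φ (X 0 ^ 2 * X 1 - C (s ^ 2)) = 0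
      rw [map_sub, map_mul, map_pow, h0, h1, hC, map_pow, hsu,
        show 2 * (m + 2) - 2 = 2 * m + 2 by omega]
      simp only [map_pow, map_mul]
      linear_combination (C π ^ (2 * m + 4) * C u ^ 2 * (pv (0 : Fin 3) * pvi 0 + 1) :
        MvPowerSeries (Fin 3) O') * (pv_mul_pvi (S := O') (0 : Fin 3))
    all_goals
      show φ (X _) = 0
      rw [hφ]
      simp
  G := 0
  ℓ := ![![1, 0, 0], ![-2, 0, 0], ![0, 1, 0], ![0, 0, 1], 0, 0, 0, 0]
  rules := [(Finsupp.single 0 2 + Finsupp.single 1 1, 0, 0), (Finsupp.single 4 1, 0, 0),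
    (Finsupp.single 5 1, 0, 0), (Finsupp.single 6 1, 0, 0), (Finsupp.single 7 1, 0, 0)]
  μ _ := 0
  hrules := by
    intro ρ hρ
    refine ⟨?_, ?_⟩
    · simp only [List.mem_cons, List.not_mem_nil, or_false] at hρ
      rcases hρ with rfl | rfl | rfl | rfl | rfl
      · obtain ⟨a, rfl⟩ := hs
        rw [map_zero, sub_zero, mon21, map_one, one_mul,
          show (X 0 ^ 2 * X 1 : MvPowerSeries (Fin 8) O) =
            (X 0 ^ 2 * X 1 - C ((ϖ * a) ^ 2)) + C (ϖ * a * a) * algebraMap O _ ϖ by
              rw [MvPowerSeries.algebraMap_apply, Algebra.algebraMap_self, RingHom.id_apply,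
                ← map_mul, show (ϖ * a) ^ 2 = ϖ * a * a * ϖ by ring]
              ring]
        exact Submodule.add_mem_sup (Ideal.subset_span (Or.inl rfl))
          (Ideal.mem_span_singleton'.mpr ⟨_, rfl⟩)
      all_goals
        rw [map_zero, sub_zero, mon1, map_one, one_mul]
        exact Ideal.mem_sup_left (Ideal.subset_span (by simp))
    · simp only [List.mem_cons, List.not_mem_nil, or_false] at hρ
      rcases hρ with rfl | rfl | rfl | rfl | rfl <;> exact Or.inl rfl
  hlead := by
    intro m hm v hv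
    simp only [List.forall_mem_cons, List.not_mem_nil, single_le_iff] at hm
    fin_cases v
    case «0» => simp; exact hasLead_single one_ne_zero
    case «1» => simp; exact hasLead_single (pow_ne_zero 2 hu)
    case «2» => simp; exact hasLead_single one_ne_zero
    case «3» => simp; exact hasLead_single one_ne_zero
    all_goals simp at hv; omega
  hinj := by
    intro m m' hm hm' he
    simp only [List.forall_mem_cons, List.not_mem_nil, single_le_iff,
      single2_le_iff (show (0 : Fin 8) ≠ 1 by decide)] at hm hm'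
    have e0 := congrFun he 0
    have e1 := congrFun he 1
    have e2 := congrFun he 2
    simp [Fin.sum_univ_eight] at e0 e1 e2
    ext v
    fin_cases v <;> simp <;> omega
  u := ![X 0 + X 1, X 2, X 3]
  hum t := by fin_cases t <;> simp
  hu P hP hJ hϖ hu := by
    have g : ∀ {x}, x ∈ ({X 0 ^ 2 * X 1 - C (s ^ 2), X 4, X 5, X 6, X 7} :
        Set (MvPowerSeries (Fin 8) O)) → x ∈ P := fun h => hJ (Ideal.subset_span h)
    have hd : C (s ^ 2) ∈ P := by
      obtain ⟨a, rfl⟩ := hs
      rw [show (ϖ * a) ^ 2 = ϖ * (a * a * ϖ) by ring, map_mul]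
      rw [MvPowerSeries.algebraMap_apply, Algebra.algebraMap_self, RingHom.id_apply] at hϖ
      exact P.mul_mem_right _ hϖ
    have h01 : X 0 ^ 2 * X 1 ∈ P := by simpa using P.add_mem (g (Or.inl rfl)) hd
    have hy : (X 0 : MvPowerSeries (Fin 8) O) ∈ P := by
      refine hP.mem_of_pow_mem 3 ?_
      rw [show (X 0 : MvPowerSeries (Fin 8) O) ^ 3 = X 0 ^ 2 * (X 0 + X 1) - X 0 ^ 2 * X 1 by ring]
      exact P.sub_mem (P.mul_mem_left _ (hu 0)) h01
    intro v
    fin_cases v
    · exact hy
    · simpa using P.sub_mem (hu 0) hy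
    · exact hu 1
    · exact hu 2
    all_goals exact g (by simp)
  htri φ hφ t := by
    have hC : ∀ x : O, φ (algebraMap O _ x) = C (algebraMap O O' x) := fun x =>
      (φ.commutes x).trans (MvPowerSeries.algebraMap_apply (R := O) (A := O') (r := x))
    have hval : φ (X (![0, 2, 3] t)) = C π * pv t := by
      rw [hφ]
      fin_cases t <;> simp [emb_single3]
    refine ⟨X (![0, 2, 3] t) ^ 2 - algebraMap O _ ϖ, ?_⟩
    have e' : φ (X (![0, 2, 3] t) ^ 2 - algebraMap O _ ϖ) = C π ^ 2 * ((pv t) ^ 2 - 1) := by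
      rw [map_sub, map_pow, hval, hC, ← hE.sq, map_pow]
      ring
    rw [e']
    simp only [map_mul, proj_C, map_sub, map_pow, map_one]
    refine ⟨?_, ?_⟩
    · rw [proj_pv_notMem (show t ∉ {s : Fin 3 | s < t} from lt_irrefl t), one_pow, sub_self,
        mul_zero]
    · rw [proj_pv_mem (show t ∈ {s : Fin 3 | s ≤ t} from le_refl t)]
      refine mul_ne_zero (pow_ne_zero 2 fun h => ?_) (pv_sq_sub_one_ne_zero t (two_ne_zero_of_isUnit h2))
      exact hE.irrπ.ne_zero (by simpa using congrArg constantCoeff h)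

end FermatAgent.RTLift.LocalRings

end
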