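import Fermat.Agent.RTLift.LocalRings.ModelTools

/-!
# Monomials for rewriting rules

Small lemmas for rewriting rules.
-/

set_option autoImplicit false

noncomputable section

namespace FermatAgent.RTLift.LocalRings

open MvPowerSeries

variable {ι : Type} {O : Type} [CommRing O]

theorem monomial_eq_C_mul (m : ι →₀ ℕ) (c : O) :
    (monomial m c : MvPowerSeries ι O) = C c * monomial m 1 := by
  rw [← monomial_zero_eq_C_apply, monomial_mul_monomial, zero_add, mul_one]

theorem mon1 (a : ι) (c : O) : (monomial (Finsupp.single a 1) c : MvPowerSeries ι O) = C c * X a :=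
  monomial_eq_C_mul _ c

theorem mon11 (a b : ι) (c : O) :
    (monomial (Finsupp.single a 1 + Finsupp.single b 1) c : MvPowerSeries ι O) =
      C c * (X a * X b) := by
  rw [X_def, X_def, monomial_mul_monomial, mul_one, ← monomial_eq_C_mul]

theorem mon2 (a : ι) (c : O) :
    (monomial (Finsupp.single a 2) c : MvPowerSeries ι O) = C c * X a ^ 2 := by
  rw [X_pow_eq, ← monomial_eq_C_mul]

theorem mon21 (a b : ι) (c : O) :
    (monomial (Finsupp.single a 2 + Finsupp.single b 1) c : MvPowerSeries ι O) =
      C c * (X a ^ 2 * X b) := by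
  rw [X_pow_eq, X_def, monomial_mul_monomial, mul_one, ← monomial_eq_C_mul]

theorem mon111 (a b d : ι) (c : O) :
    (monomial (Finsupp.single a 1 + Finsupp.single b 1 + Finsupp.single d 1) c :
      MvPowerSeries ι O) = C c * (X a * X b * X d) := by
  rw [X_def, X_def, X_def, monomial_mul_monomial, monomial_mul_monomial, mul_one, mul_one,
    ← monomial_eq_C_mul]

theorem single_le_iff (a : ι) (p : ℕ) (m : ι →₀ ℕ) : Finsupp.single a p ≤ m ↔ p ≤ m a := by
  classical
  refine ⟨fun h => by simpa using h a, fun h x => ?_⟩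
  by_cases hx : a = x
  · subst hx; simpa using h
  · simp [hx]

theorem single2_le_iff {a b : ι} (hab : a ≠ b) (p q : ℕ) (m : ι →₀ ℕ) :
    Finsupp.single a p + Finsupp.single b q ≤ m ↔ p ≤ m a ∧ q ≤ m b := by
  classical
  refine ⟨fun h => ⟨by simpa [Finsupp.single_apply, Ne.symm hab] using h a,
    by simpa [Finsupp.single_apply, hab] using h b⟩, fun ⟨h1, h2⟩ x => ?_⟩
  by_cases hxa : a = x
  · subst hxa; simpa [Finsupp.single_apply, Ne.symm hab] using h1
  · by_cases hxb : b = x
    · subst hxb; simpa [Finsupp.single_apply, hab] using h2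
    · simp [hxa, hxb]

theorem single3_le_iff {a b d : ι} (hab : a ≠ b) (had : a ≠ d) (hbd : b ≠ d) (m : ι →₀ ℕ) :
    Finsupp.single a 1 + Finsupp.single b 1 + Finsupp.single d 1 ≤ m ↔
      1 ≤ m a ∧ 1 ≤ m b ∧ 1 ≤ m d := by
  classical
  refine ⟨fun h => ⟨by simpa [Finsupp.single_apply, Ne.symm hab, Ne.symm had] using h a,
    by simpa [Finsupp.single_apply, hab, Ne.symm hbd] using h b,
    by simpa [Finsupp.single_apply, had, hbd] using h d⟩, fun ⟨h1, h2, h3⟩ x => ?_⟩
  by_cases hxa : a = x
  · subst hxa; simpa [Finsupp.single_apply, Ne.symm hab, Ne.symm had] using h1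
  · by_cases hxb : b = x
    · subst hxb; simpa [Finsupp.single_apply, hab, Ne.symm hbd] using h2
    · by_cases hxd : d = x
      · subst hxd; simpa [Finsupp.single_apply, had, hbd] using h3
      · simp [hxa, hxb, hxd]

end FermatAgent.RTLift.LocalRings

end
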