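import Fermat.Agent.RTLift.LocalRings.Model
import Fermat.Agent.RTLift.LocalRings.Defs
import Mathlib.RingTheory.Ideal.KrullsHeightTheorem
import Mathlib.RingTheory.KrullDimension.Basic
import Mathlib.Data.Fintype.Sort

/-!
# Products of local models: primality and dimension
-/

set_option autoImplicit false

noncomputable section

namespace FermatAgent.RTLift.LocalRings

open IsLocalRing MvPowerSeries

variable {O : Type} [CommRing O] [IsDomain O] [IsDiscreteValuationRing O]
  {O' : Type} [CommRing O'] [IsDomain O'] [IsDiscreteValuationRing O'] [Algebra O O']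
  {k : Type} [Field k]

/-- The coefficient extension used by models. -/
structure Extends (ϖ : O) (π : O') (res : O' →+* k) : Prop where
  irr : Irreducible ϖ
  irrπ : Irreducible π
  sq : π ^ 2 = algebraMap O O' ϖ
  inj : Function.Injective (algebraMap O O')
  ker : RingHom.ker res = Ideal.span {π}

variable {ϖ : O} {π : O'} {res : O' →+* k} {I : Type} [Fintype I] (M : I → Model ϖ π res) (r : ℕ)

/-- The parameters of a product of models. -/
abbrev Params : Type := (Σ i, Fin (M i).d) ⊕ Fin r

/-- The variables of the index `i`. -/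
def emI (i : I) : Fin 8 ↪ Vars I r :=
  ⟨fun v => Sum.inl (i, v), fun a b h => by simpa using h⟩

/-- The parameters of the index `i`. -/
def emT (i : I) : Fin (M i).d ↪ Params M r :=
  ⟨fun t => Sum.inl ⟨i, t⟩, fun a b h => by simpa using h⟩

/-- The ideal of a product of models. -/
def modelIdeal : Ideal (Ambient O I r) :=
  ⨆ i, (M i).J.map (rename (R := O) (emI r i))

/-- The Laurent images of the variables. -/
def modelL : Vars I r → AddMonoidAlgebra O' (Params M r → ℤ) := by
  classical
  exact Sum.elim (fun iv => extL (emT M r iv.1) ((M iv.1).L iv.2))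
    (fun j => AddMonoidAlgebra.single (Pi.single (Sum.inr j) 1) 1)

/-- The weights. -/
def modelW : Vars I r → ℕ := Sum.elim (fun iv => (M iv.1).w iv.2) (fun _ => 1)

omit [IsDomain O] [IsDiscreteValuationRing O] [IsDomain O'] [IsDiscreteValuationRing O']
  [Fintype I] in
theorem one_le_modelW (x : Vars I r) : 1 ≤ modelW M r x := by
  rcases x with ⟨i, v⟩ | j
  · exact (M i).hw v
  · exact le_rfl

/-- The leading exponents. -/
def modelLead : Vars I r → (Params M r → ℤ) := by
  classical
  exact Sum.elim (fun iv => extZ (emT M r iv.1) ((M iv.1).ℓ iv.2))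
    (fun j => Pi.single (Sum.inr j) 1)

/-- The weight of exponents. -/
def modelG : (Params M r → ℤ) →+ ℤ where
  toFun e := ∑ i, (M i).G fun t => e (Sum.inl ⟨i, t⟩)
  map_zero' := Finset.sum_eq_zero fun i _ => map_zero (M i).G
  map_add' a b := by
    rw [← Finset.sum_add_distrib]
    exact Finset.sum_congr rfl fun i _ =>
      map_add (M i).G (fun t => a (Sum.inl ⟨i, t⟩)) fun t => b (Sum.inl ⟨i, t⟩)

omit [IsDomain O] [IsDiscreteValuationRing O] [IsDomain O'] [IsDiscreteValuationRing O'] in
theorem modelG_extZ (i : I) (x : Fin (M i).d → ℤ) :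
    modelG M r (extZ (emT M r i) x) = (M i).G x := by
  classical
  show ∑ i', _ = _
  rw [Finset.sum_eq_single i]
  · exact congrArg _ (funext fun t => extZ_apply_self (emT M r i) x t)
  · intro i' _ hi'
    convert map_zero (M i').G using 2
    funext t
    refine extZ_apply_of_notMem (emT M r i) x ?_
    rintro ⟨s, hs⟩
    exact hi' ((Sigma.mk.inj (Sum.inl_injective hs)).1).symm
  · simp

/-- Restriction of an exponent to an index. -/
def restr (i : I) (m : Vars I r →₀ ℕ) : Fin 8 →₀ ℕ :=
  Finsupp.comapDomain (emI r i) m (emI r i).injective.injOn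

omit [Fintype I] in
theorem restr_apply (i : I) (m : Vars I r →₀ ℕ) (v : Fin 8) : restr r i m v = m (Sum.inl (i, v)) :=
  Finsupp.comapDomain_apply _ _ _ _

/-- Normal monomials of a product. -/
def ModelNormal (m : Vars I r →₀ ℕ) : Prop := ∀ i, (M i).Normal (restr r i m)

omit [IsDomain O'] [IsDiscreteValuationRing O'] [IsDomain O] [IsDiscreteValuationRing O]
  [Fintype I] in
theorem map_varIdeal_mem (e : Vars I r → MvPowerSeries (Params M r) O') (he : ∀ x, ∃ y, e x = C π * y)
    (hπ : ¬ IsUnit π) [IsLocalRing O'] (x : Vars I r) :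
    e x ∈ maximalIdeal (MvPowerSeries (Params M r) O') := by
  obtain ⟨y, hy⟩ := he x
  rw [hy, FermatAgent.DefRing.mem_maximalIdeal_iff, map_mul, constantCoeff_C]
  exact Ideal.mul_mem_right _ _ ((IsLocalRing.mem_maximalIdeal _).mpr hπ)

variable [IsAdicComplete (maximalIdeal O) O] [IsAdicComplete (maximalIdeal O') O']

omit [IsAdicComplete (maximalIdeal O) O] [IsDomain O] [IsDiscreteValuationRing O] in
theorem exists_param (hE : Extends ϖ π res) :
    ∃ Φ : Ambient O I r →ₐ[O] MvPowerSeries (Params M r) O',
      ∀ x, Φ (X x) = C (π ^ modelW M r x) * emb (modelL M r x) := by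
  have := FermatAgent.DefRing.isAdicComplete_mvPowerSeries (ι := Params M r) (𝒪 := O')
  refine FermatAgent.DefRing.exists_eval _ fun x =>
    map_varIdeal_mem M r (fun x => C (π ^ modelW M r x) * emb (modelL M r x)) (fun y => ?_)
      hE.irrπ.not_isUnit x
  obtain ⟨w, hw⟩ := Nat.exists_eq_succ_of_ne_zero (Nat.one_le_iff_ne_zero.mp (one_le_modelW M r y))
  exact ⟨C (π ^ w) * emb (modelL M r y), by rw [hw, pow_succ', map_mul, mul_assoc]⟩

omit [IsAdicComplete (maximalIdeal O) O] [IsDomain O] [IsDiscreteValuationRing O] [Fintype I] in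
theorem exists_local_param (hE : Extends ϖ π res) (i : I) :
    ∃ φ : MvPowerSeries (Fin 8) O →ₐ[O] MvPowerSeries (Fin (M i).d) O',
      ∀ v, φ (X v) = C (π ^ (M i).w v) * emb ((M i).L v) := by
  have := FermatAgent.DefRing.isAdicComplete_mvPowerSeries (ι := Fin (M i).d) (𝒪 := O')
  refine FermatAgent.DefRing.exists_eval _ fun v => ?_
  obtain ⟨w, hw⟩ := Nat.exists_eq_succ_of_ne_zero (Nat.one_le_iff_ne_zero.mp ((M i).hw v))
  rw [FermatAgent.DefRing.mem_maximalIdeal_iff, map_mul, constantCoeff_C, hw, pow_succ', mul_assoc]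
  exact Ideal.mul_mem_right _ _ ((IsLocalRing.mem_maximalIdeal _).mpr hE.irrπ.not_isUnit)

omit [IsAdicComplete (maximalIdeal O) O] [IsAdicComplete (maximalIdeal O') O'] [IsDomain O]
  [IsDiscreteValuationRing O] in
theorem param_rename (hE : Extends ϖ π res)
    (Φ : Ambient O I r →ₐ[O] MvPowerSeries (Params M r) O')
    (hΦ : ∀ x, Φ (X x) = C (π ^ modelW M r x) * emb (modelL M r x)) (i : I)
    (φ : MvPowerSeries (Fin 8) O →ₐ[O] MvPowerSeries (Fin (M i).d) O')
    (hφ : ∀ v, φ (X v) = C (π ^ (M i).w v) * emb ((M i).L v)) (f : MvPowerSeries (Fin 8) O) :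
    Φ (rename (emI r i) f) = rename (emT M r i) (φ f) := by
  have key : Φ.comp (rename (R := O) (emI r i)) =
      ((rename (R := O') (emT M r i)).restrictScalars O).comp φ := by
    refine FermatAgent.DefRing.algHom_ext_of_hausdorff _ _ (fun v => ?_) (fun v => ?_)
    · rw [AlgHom.comp_apply, rename_X]
      refine map_varIdeal_mem M r (fun x => Φ (X x)) (fun y => ?_) hE.irrπ.not_isUnit _
      obtain ⟨w, hw⟩ := Nat.exists_eq_succ_of_ne_zero
        (Nat.one_le_iff_ne_zero.mp (one_le_modelW M r y))
      exact ⟨C (π ^ w) * emb (modelL M r y), by rw [hΦ, hw, pow_succ', map_mul, mul_assoc]⟩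
    · simp only [AlgHom.comp_apply, rename_X, AlgHom.coe_restrictScalars', hΦ, hφ, map_mul,
        rename_C, rename_emb]
      rfl
  exact DFunLike.congr_fun key f

theorem ker_param (hE : Extends ϖ π res)
    (Φ : Ambient O I r →ₐ[O] MvPowerSeries (Params M r) O')
    (hΦ : ∀ x, Φ (X x) = C (π ^ modelW M r x) * emb (modelL M r x)) :
    RingHom.ker Φ.toRingHom = modelIdeal M r := by
  classical
  refine ker_eq_of_rewriting hE.irr hE.irrπ res hE.ker hE.inj (modelIdeal M r) Φ ?_ (modelW M r)
    (one_le_modelW M r) (modelL M r) hΦ (modelG M r) (modelLead M r) (ModelNormal M r) ?_ ?_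
    (fun m => ∑ i, ∑ v, m (Sum.inl (i, v)) * (M i).μ v) ?_
  · refine iSup_le fun i => ?_
    obtain ⟨φ, hφ⟩ := exists_local_param M hE i
    rw [Ideal.map_le_iff_le_comap]
    intro f hf
    have h0 : φ f = 0 := (M i).hJ φ hφ hf
    show Φ (rename (emI r i) f) = 0
    rw [param_rename M r hE Φ hΦ i φ hφ, h0, map_zero]
  · intro m hm x hx
    rcases x with ⟨i, v⟩ | j
    · simp only [modelL, modelLead, Sum.elim_inl, extL_map]
      exact ((M i).hlead (restr r i m) (hm i) v (by rwa [restr_apply])).ext (modelG_extZ M r i)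
    · simp only [modelL, modelLead, Sum.elim_inr, AddMonoidAlgebra.mapRingHom_single, map_one]
      exact hasLead_single one_ne_zero
  · intro m m' hm hm' heq
    have hsum : ∀ m : Vars I r →₀ ℕ, ∀ y : Params M r,
        (∑ x, m x • modelLead M r x) y = (∑ i, ∑ v, (m (Sum.inl (i, v)) : ℤ) *
          extZ (emT M r i) ((M i).ℓ v) y) +
          ∑ j, (m (Sum.inr j) : ℤ) * (Pi.single (Sum.inr j) 1 : Params M r → ℤ) y := by
      intro m y
      simp [Fintype.sum_sum_type, Fintype.sum_prod_type, modelLead, Finset.sum_apply]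
    ext x
    rcases x with ⟨i, v⟩ | j
    · have h := (M i).hinj (restr r i m) (restr r i m') (hm i) (hm' i) (funext fun t => ?_)
      · have := congrArg (fun f : Fin 8 →₀ ℕ => f v) h
        simpa only [restr_apply] using this
      have h := congrFun heq (emT M r i t)
      rw [hsum, hsum] at h
      have hother : ∀ m : Vars I r →₀ ℕ, (∑ i', ∑ v, (m (Sum.inl (i', v)) : ℤ) *
          extZ (emT M r i') ((M i').ℓ v) (emT M r i t)) = ∑ v, (m (Sum.inl (i, v)) : ℤ) * (M i).ℓ v t := by
        intro m
        rw [Finset.sum_eq_single i]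
        · simp only [extZ_apply_self]
        · intro i' _ hi'
          refine Finset.sum_eq_zero fun v _ => ?_
          rw [extZ_apply_of_notMem, mul_zero]
          rintro ⟨s, hs⟩
          exact hi' ((Sigma.mk.inj (Sum.inl_injective hs)).1)
        · simp
      rw [hother, hother] at h
      simpa [emT, restr_apply, Finset.sum_apply] using h
    · have h := congrFun heq (Sum.inr j)
      rw [hsum, hsum] at h
      have hz : ∀ i v, extZ (emT M r i) ((M i).ℓ v) (Sum.inr j) = 0 := fun i v =>
        extZ_apply_of_notMem _ _ fun ⟨s, hs⟩ => by simp [emT] at hs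
      simp [hz, Pi.single_apply] at h
      exact h
  · intro m hm
    simp only [ModelNormal, Model.Normal] at hm
    push Not at hm
    obtain ⟨i, ρ, hρ, hle⟩ := hm
    obtain ⟨hmem, hμ⟩ := (M i).hrules ρ hρ
    let up : (Fin 8 →₀ ℕ) → (Vars I r →₀ ℕ) := Finsupp.embDomain (emI r i)
    have hup : up ρ.1 ≤ m := fun x => by
      rcases em (∃ v, emI r i v = x) with ⟨v, rfl⟩ | h
      · rw [Finsupp.embDomain_apply_self]
        exact (restr_apply r i m v) ▸ hle v
      · rw [Finsupp.embDomain_of_notMem_range _ _ _ h]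
        exact Nat.zero_le _
    set m₀ := m - up ρ.1
    have hm₀ : m₀ + up ρ.1 = m := tsub_add_cancel_of_le hup
    refine ⟨ρ.2.1, m₀ + up ρ.2.2, ?_, hμ.imp id fun ⟨hd, hw⟩ => ⟨?_, ?_⟩⟩
    · have e : monomial m (1 : O) - monomial (m₀ + up ρ.2.2) ρ.2.1 =
          monomial m₀ 1 * rename (emI r i) (monomial ρ.1 1 - monomial ρ.2.2 ρ.2.1) := by
        rw [map_sub, rename_monomial, rename_monomial, mul_sub, monomial_mul_monomial,
          monomial_mul_monomial, ← Finsupp.embDomain_eq_mapDomain, ← Finsupp.embDomain_eq_mapDomain,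
          hm₀, one_mul, one_mul]
      rw [e]
      refine Ideal.mul_mem_left _ _ ?_
      obtain ⟨a, ha, b, hb, hab⟩ := Submodule.mem_sup.mp hmem
      rw [← hab, map_add]
      refine Submodule.add_mem_sup (Ideal.mem_iSup_of_mem i (Ideal.mem_map_of_mem _ ha)) ?_
      obtain ⟨b, rfl⟩ := Ideal.mem_span_singleton'.mp hb
      rw [map_mul, AlgHom.commutes]
      exact Ideal.mem_span_singleton'.mpr ⟨_, rfl⟩
    · have he : ∀ p, (up p).degree = p.degree := fun p => by
        rw [Finsupp.degree_eq_sum, Finsupp.degree_eq_sum]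
        rw [← Finset.sum_subset (Finset.subset_univ (Finset.univ.map (emI r i))), Finset.sum_map]
        · simp only [up, Finsupp.embDomain_apply_self]
        · intro x _ hx
          exact Finsupp.embDomain_of_notMem_range _ _ _ fun ⟨v, hv⟩ =>
            hx (Finset.mem_map.mpr ⟨v, Finset.mem_univ _, hv⟩)
      conv_rhs => rw [← hm₀]
      rw [map_add, map_add, he, he, hd]
    · conv_rhs => rw [← hm₀]
      have hμup : ∀ p, (∑ i', ∑ v, up p (Sum.inl (i', v)) * (M i').μ v) = ∑ v, p v * (M i).μ v := by
        intro p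
        rw [Finset.sum_eq_single i]
        · refine Finset.sum_congr rfl fun v _ => ?_
          rw [show (Sum.inl (i, v) : Vars I r) = emI r i v from rfl, Finsupp.embDomain_apply_self]
        · intro i' _ hi'
          refine Finset.sum_eq_zero fun v _ => ?_
          rw [show up p (Sum.inl (i', v)) = 0 from Finsupp.embDomain_of_notMem_range _ _ _ ?_, zero_mul]
          rintro ⟨s, hs⟩
          exact hi' (congrArg Prod.fst (Sum.inl_injective hs)).symm
        · simp
      simp only [Finsupp.coe_add, Pi.add_apply, add_mul, Finset.sum_add_distrib, hμup]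
      omega

omit [IsAdicComplete (maximalIdeal O) O] [IsAdicComplete (maximalIdeal O') O'] in
theorem maximalIdeal_le_of_vars {ι : Type} [Finite ι] (hϖ : Irreducible ϖ)
    {P : Ideal (MvPowerSeries ι O)} (h : ∀ x, X x ∈ P) (hP : algebraMap O _ ϖ ∈ P) :
    maximalIdeal (MvPowerSeries ι O) ≤ P := by
  rw [FermatAgent.DefRing.maximalIdeal_eq]
  refine sup_le ?_ ?_
  · rw [hϖ.maximalIdeal_eq, Ideal.map_span, Set.image_singleton, Ideal.span_le,
      Set.singleton_subset_iff]
    exact hP
  · rw [FermatAgent.DefRing.varIdeal, Ideal.span_le]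
    rintro _ ⟨x, rfl⟩
    exact h x

theorem modelIdeal_isPrime_and_dim (hE : Extends ϖ π res) :
    (modelIdeal M r).IsPrime ∧ (∀ x : O, algebraMap O _ x ∈ modelIdeal M r → x = 0) ∧
      ringKrullDim (Ambient O I r ⧸ modelIdeal M r) =
        ((1 + r + ∑ i, (M i).d : ℕ) : WithBot ℕ∞) := by
  classical
  obtain ⟨Φ, hΦ⟩ := exists_param M r hE
  have hker := ker_param M r hE Φ hΦ
  have : IsDomain (MvPowerSeries (Params M r) O') := NoZeroDivisors.to_isDomain _
  have hprime : (modelIdeal M r).IsPrime := hker ▸ RingHom.ker_isPrime Φ.toRingHom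
  have hC : ∀ x : O, Φ (algebraMap O _ x) = C (algebraMap O O' x) := fun x => by
    rw [Φ.commutes, MvPowerSeries.algebraMap_apply]
  have hconst : ∀ x : O, algebraMap O _ x ∈ modelIdeal M r → x = 0 := by
    intro x hx
    rw [← hker] at hx
    have h0 := congrArg constantCoeff (RingHom.mem_ker.mp hx)
    change constantCoeff (Φ (algebraMap O _ x)) = _ at h0
    rw [hC, constantCoeff_C, map_zero] at h0
    exact hE.inj (h0.trans (map_zero _).symm)
  refine ⟨hprime, hconst, ?_⟩
  set A := Ambient O I r ⧸ modelIdeal M r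
  have : IsDomain A := Ideal.Quotient.isDomain _
  have : IsLocalRing A := IsLocalRing.of_surjective' (Ideal.Quotient.mk _) Ideal.Quotient.mk_surjective
  have : IsLocalHom (Ideal.Quotient.mk (modelIdeal M r)) :=
    IsLocalHom.of_surjective _ Ideal.Quotient.mk_surjective
  set N := Fintype.card (Params M r)
  have hN : 1 + r + ∑ i, (M i).d = N + 1 := by
    simp [N, Fintype.card_sum, Fintype.card_sigma]
    ring
  rw [hN]
  refine le_antisymm ?_ ?_
  · -- upper bound by Krull's height theorem
    let uu : Params M r → Ambient O I r :=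
      Sum.elim (fun it => rename (emI r it.1) ((M it.1).u it.2)) (fun j => X (Sum.inr j))
    let U : Finset A := insert (Ideal.Quotient.mk _ (algebraMap O _ ϖ))
      (Finset.univ.image fun x => Ideal.Quotient.mk (modelIdeal M r) (uu x))
    have hmax : ∀ Q : Ideal A, Q.IsPrime → (U : Set A) ⊆ Q → maximalIdeal A ≤ Q := by
      intro Q hQ hUQ
      set P := Q.comap (Ideal.Quotient.mk (modelIdeal M r)) with hP
      have : P.IsPrime := Ideal.IsPrime.comap _
      have hJP : modelIdeal M r ≤ P := fun x hx => by
        rw [hP, Ideal.mem_comap, Ideal.Quotient.eq_zero_iff_mem.mpr hx]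
        exact zero_mem _
      have hϖP : algebraMap O _ ϖ ∈ P := hUQ (Finset.mem_insert_self _ _)
      have huP : ∀ x, uu x ∈ P := fun x =>
        hUQ (Finset.mem_insert_of_mem (Finset.mem_image.mpr ⟨x, Finset.mem_univ _, rfl⟩))
      have hle : maximalIdeal (Ambient O I r) ≤ P := by
        refine maximalIdeal_le_of_vars hE.irr (fun x => ?_) hϖP
        rcases x with ⟨i, v⟩ | j
        · have := (M i).hu (P.comap (rename (R := O) (emI r i))) (Ideal.IsPrime.comap _)
            (Ideal.map_le_iff_le_comap.mp ((le_iSup _ i).trans hJP))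
            (by rw [Ideal.mem_comap, AlgHom.commutes]; exact hϖP)
            (fun t => huP (Sum.inl ⟨i, t⟩)) v
          rw [Ideal.mem_comap, rename_X] at this
          exact this
        · exact huP (Sum.inr j)
      intro a ha
      obtain ⟨b, rfl⟩ := Ideal.Quotient.mk_surjective a
      refine hle ((IsLocalRing.mem_maximalIdeal _).mpr fun hb => ?_)
      exact (IsLocalRing.mem_maximalIdeal _).mp ha (hb.map _)
    have hUm : Ideal.span (U : Set A) ≤ maximalIdeal A := by
      rw [Ideal.span_le]
      intro a ha
      refine (IsLocalRing.mem_maximalIdeal a).mpr fun hu => ?_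
      obtain ⟨b, hb, rfl⟩ : ∃ b, ¬ IsUnit b ∧ Ideal.Quotient.mk (modelIdeal M r) b = a := by
        rcases Finset.mem_insert.mp ha with rfl | ha'
        · refine ⟨_, fun h => hE.irr.not_isUnit ?_, rfl⟩
          rw [MvPowerSeries.algebraMap_apply, isUnit_iff_constantCoeff, constantCoeff_C] at h
          simpa using h
        · obtain ⟨x, -, rfl⟩ := Finset.mem_image.mp ha'
          refine ⟨_, fun h => ?_, rfl⟩
          rcases x with ⟨i, t⟩ | j
          · rw [isUnit_iff_constantCoeff] at h
            exact (M i).hum t (by simpa [uu, constantCoeff_rename] using h)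
          · rw [show uu (Sum.inr j) = X (Sum.inr j) from rfl, isUnit_iff_constantCoeff,
              constantCoeff_X] at h
            exact not_isUnit_zero h
      exact hb ((isUnit_map_iff _ b).mp hu)
    have hmin : maximalIdeal A ∈ (Ideal.span (U : Set A)).minimalPrimes :=
      ⟨⟨inferInstance, hUm⟩, fun Q hQ _ => hmax Q hQ.1 fun a ha => hQ.2 (Ideal.subset_span ha)⟩
    rw [← IsLocalRing.maximalIdeal_height_eq_ringKrullDim]
    refine WithBot.coe_le_coe.mpr ((Ideal.height_le_spanRank_toENat_of_mem_minimalPrimes _ _ hmin).trans ?_)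
    refine (Cardinal.toENat.monotone' (Submodule.spanRank_span_le_card (U : Set A))).trans ?_
    refine le_trans (le_of_eq (show Cardinal.toENat (Cardinal.mk (U : Set A)) = (U.card : ℕ∞) by simp)) ?_
    refine Nat.cast_le.mpr ((Finset.card_insert_le _ _).trans ?_)
    exact Nat.succ_le_succ (Finset.card_image_le.trans (le_of_eq (Finset.card_univ)))
  · -- lower bound by a chain of primes
    let key : Params M r → ℕ ×ₗ ℕ := Sum.elim
      (fun it => toLex ((Fintype.equivFin I it.1).val, it.2.val))
      (fun j => toLex (Fintype.card I, j.val))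
    have hkey : Function.Injective key := by
      rintro (⟨i, t⟩ | j) (⟨i', t'⟩ | j') h <;>
        simp only [key, Sum.elim_inl, Sum.elim_inr, EmbeddingLike.apply_eq_iff_eq, Prod.mk.injEq] at h
      · obtain rfl : i = i' := (Fintype.equivFin I).injective (Fin.ext h.1)
        rw [Fin.ext h.2]
      · exact absurd h.1 (Fintype.equivFin I i).isLt.ne
      · exact absurd h.1.symm (Fintype.equivFin I i').isLt.ne
      · rw [Fin.ext h.2]
    let rank : Params M r → ℕ := fun x => (Finset.univ.filter fun y => key y < key x).card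
    have hrank : ∀ {x y}, key x < key y → rank x < rank y := fun {x y} h =>
      Finset.card_lt_card ⟨fun z hz => Finset.mem_filter.mpr
        ⟨Finset.mem_univ _, (Finset.mem_filter.mp hz).2.trans h⟩,
        fun hsub => lt_irrefl _ (Finset.mem_filter.mp (hsub (Finset.mem_filter.mpr
          ⟨Finset.mem_univ _, h⟩))).2⟩
    have hrk : ∀ x y, rank x < rank y ↔ key x < key y := fun x y => by
      refine ⟨fun h => ?_, hrank⟩
      rcases lt_trichotomy (key x) (key y) with h' | h' | h'
      · exact h'
      · rw [hkey h'] at h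
        exact absurd h (lt_irrefl _)
      · exact absurd (hrank h') h.not_gt
    have hrkN : ∀ x, rank x < N := fun x =>
      Finset.card_lt_card ((Finset.filter_ssubset).mpr ⟨x, Finset.mem_univ _, lt_irrefl _⟩)
    have hrinj : Function.Injective rank := fun x y h => hkey <| by
      rcases lt_trichotomy (key x) (key y) with h' | h' | h'
      · exact absurd (hrank h') h.not_lt
      · exact h'
      · exact absurd (hrank h') h.symm.not_lt
    let e : Fin N → Params M r := (Equiv.ofBijective (fun x => (⟨rank x, hrkN x⟩ : Fin N))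
      ((Fintype.bijective_iff_injective_and_card _).mpr
        ⟨fun x y h => hrinj (by simpa using h), (Fintype.card_fin N).symm⟩)).symm
    have hre : ∀ j, rank (e j) = j.val := fun j => congrArg Fin.val
      ((Equiv.ofBijective (fun x => (⟨rank x, hrkN x⟩ : Fin N)) _).apply_symm_apply j)
    let S : ℕ → Set (Params M r) := fun j => {x | rank x < j}
    have hSmono : ∀ j, S j ⊆ S (j + 1) := fun j x hx => Nat.lt_succ_of_lt hx
    let ψ : ℕ → A →+* MvPowerSeries (Params M r) O' := fun j =>
      Ideal.Quotient.lift _ ((proj (S := O') (S j)).toRingHom.comp Φ.toRingHom) fun a ha => by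
        rw [← hker] at ha
        rw [RingHom.comp_apply, RingHom.mem_ker.mp ha, map_zero]
    have hψ : ∀ j a, ψ j (Ideal.Quotient.mk _ a) = proj (S j) (Φ a) := fun j a => rfl
    have hmono : ∀ j, RingHom.ker (ψ (j + 1)) ≤ RingHom.ker (ψ j) := by
      intro j a ha
      obtain ⟨a, rfl⟩ := Ideal.Quotient.mk_surjective a
      rw [RingHom.mem_ker, hψ] at ha ⊢
      rw [← proj_proj_of_subset (hSmono j), ha, map_zero]
    have hstrict : ∀ j : Fin N, ∃ g, proj (S j) (Φ g) = 0 ∧ proj (S (j + 1)) (Φ g) ≠ 0 := by
      intro j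
      have hS : ∀ x, (x ∈ S j ↔ key x < key (e j)) ∧ (x ∈ S (j + 1) ↔ key x ≤ key (e j)) := by
        refine fun x => ⟨(hre j ▸ Iff.rfl : x ∈ S j ↔ rank x < rank (e j)).trans (hrk _ _), ?_⟩
        rw [← not_lt, ← hrk, hre, not_lt]
        exact Nat.lt_succ_iff
      rcases hx : e j with ⟨i, t⟩ | l
      · obtain ⟨φ, hφ⟩ := exists_local_param M hE i
        obtain ⟨g, h0, h1⟩ := (M i).htri φ hφ t
        have hlt : ∀ s : Fin (M i).d, (key (emT M r i s) < key (Sum.inl ⟨i, t⟩) ↔ s < t) ∧
            (key (emT M r i s) ≤ key (Sum.inl ⟨i, t⟩) ↔ s ≤ t) := fun s => by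
          constructor
          · show key (Sum.inl ⟨i, s⟩) < key (Sum.inl ⟨i, t⟩) ↔ _
            simp [key, Prod.Lex.toLex_lt_toLex]
          · show key (Sum.inl ⟨i, s⟩) ≤ key (Sum.inl ⟨i, t⟩) ↔ _
            simp [key, Prod.Lex.toLex_le_toLex]
        have p1 : emT M r i ⁻¹' S j = {s | s < t} :=
          Set.ext fun s => ((hS _).1.trans (hx ▸ Iff.rfl)).trans (hlt s).1
        have p2 : emT M r i ⁻¹' S (j + 1) = {s | s ≤ t} :=
          Set.ext fun s => ((hS _).2.trans (hx ▸ Iff.rfl)).trans (hlt s).2
        refine ⟨rename (emI r i) g, ?_, ?_⟩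
        · rw [param_rename M r hE Φ hΦ i φ hφ, proj_rename, p1, h0, map_zero]
        · rw [param_rename M r hE Φ hΦ i φ hφ, proj_rename, p2]
          exact fun h => h1 (rename_injective _ (h.trans (map_zero _).symm))
      · refine ⟨X (Sum.inr l) ^ 2 - algebraMap O _ ϖ, ?_, ?_⟩ <;>
          rw [map_sub, map_pow, hΦ, hC, ← hE.sq] <;>
          rw [show modelW M r (Sum.inr l) = 1 from rfl, pow_one,
            show emb (modelL M r (Sum.inr l)) = (1 + X (Sum.inr l) : MvPowerSeries _ O') by
              rw [show modelL M r (Sum.inr l) = AddMonoidAlgebra.single (Pi.single (Sum.inr l) 1) 1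
                from rfl, emb_single, one_smul]
              have hp : (Pi.single (Sum.inr l) 1 : Params M r → ℤ) =
                  fun v => (((Pi.single (Sum.inr l) 1 : Params M r → ℕ) v : ℕ) : ℤ) := by
                funext v
                by_cases hv : v = Sum.inr l <;> simp [hv]
              rw [hp, tPow_natCast, Finset.prod_eq_single (Sum.inr l)]
              · simp
              · intro b _ hb
                simp [hb]
              · simp]
        · have hl : Sum.inr l ∉ S j := fun h => by simpa [hx] using (hS _).1.mp h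
          have hX : proj (S j) (X (Sum.inr l) : MvPowerSeries (Params M r) O') = 0 := by
            ext n
            rw [coeff_proj, coeff_X, map_zero]
            split_ifs with h1 h2
            · exact absurd (h1 _ (by simp [h2])) hl
            · rfl
            · rfl
          simp only [map_sub, map_pow, map_mul, map_add, map_one, hX, add_zero, mul_one]
          exact sub_self _
        · have hl : Sum.inr l ∈ S (j + 1) := (hS _).2.mpr (le_of_eq (congrArg key hx).symm)
          intro h
          have h2 := congrArg (coeff (Finsupp.single (Sum.inr l) 2)) h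
          rw [coeff_proj, if_pos (fun t ht => by
            rw [Finset.mem_singleton.mp (Finsupp.support_single_subset ht)]; exact hl)] at h2
          rw [show (C π * (1 + X (Sum.inr l))) ^ 2 - C (π ^ 2) =
            C (π ^ 2) * (X (Sum.inr l) + X (Sum.inr l) + X (Sum.inr l) ^ 2 :
              MvPowerSeries (Params M r) O') by rw [map_pow]; ring, coeff_C_mul, map_add,
            map_add, coeff_X, coeff_X_pow, if_pos rfl,
            if_neg (fun hh => by simpa using congrArg (fun f => f (Sum.inr l)) hh),
            map_zero, zero_add, zero_add, mul_one] at h2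
          exact pow_ne_zero 2 hE.irrπ.ne_zero h2
    let T : Fin (N + 2) → PrimeSpectrum A := fun j =>
      if j.val ≤ N then ⟨RingHom.ker (ψ (N - j.val)), RingHom.ker_isPrime _⟩ else closedPoint A
    have hT : StrictMono T := by
      refine Fin.strictMono_iff_lt_succ.mpr fun j => ?_
      have hjN : j.val ≤ N := Nat.lt_succ_iff.mp j.isLt
      simp only [T, Fin.val_castSucc, Fin.val_succ, hjN, if_true]
      by_cases hj : j.val + 1 ≤ N
      · rw [if_pos hj]
        have hsucc : N - j.val = N - (j.val + 1) + 1 := by omega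
        rw [← PrimeSpectrum.asIdeal_lt_asIdeal]
        show RingHom.ker (ψ (N - j.val)) < RingHom.ker (ψ (N - (j.val + 1)))
        rw [hsucc]
        refine lt_of_le_of_ne (hmono _) fun h => ?_
        obtain ⟨g, h0, h1⟩ := hstrict ⟨N - (j.val + 1), by omega⟩
        have hg : Ideal.Quotient.mk _ g ∈ RingHom.ker (ψ (N - (j.val + 1))) :=
          RingHom.mem_ker.mpr ((hψ _ g).trans h0)
        rw [← h, RingHom.mem_ker, hψ] at hg
        exact h1 hg
      · rw [if_neg hj]
        refine lt_of_le_of_ne (IsLocalRing.le_maximalIdeal (RingHom.ker_isPrime _).ne_top) fun h => ?_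
        have hmem : Ideal.Quotient.mk (modelIdeal M r) (algebraMap O _ ϖ) ∈ maximalIdeal A := by
          rw [IsLocalRing.mem_maximalIdeal]
          intro hu
          have := (isUnit_map_iff _ _).mp hu
          rw [MvPowerSeries.algebraMap_apply, isUnit_iff_constantCoeff, constantCoeff_C] at this
          exact hE.irr.not_isUnit (by simpa using this)
        have h' : RingHom.ker (ψ (N - j.val)) = maximalIdeal A := congrArg PrimeSpectrum.asIdeal h
        rw [← h', RingHom.mem_ker, hψ, hC, proj_C] at hmem
        have h2 := congrArg constantCoeff hmem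
        rw [constantCoeff_C, map_zero] at h2
        exact hE.irr.ne_zero (hE.inj (h2.trans (map_zero _).symm))
    let LS : LTSeries (PrimeSpectrum A) := LTSeries.mk (N + 1) T hT
    have := Order.LTSeries.length_le_krullDim LS
    simpa [LS, ringKrullDim] using this

end FermatAgent.RTLift.LocalRings

end
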