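import Fermat.Agent.RTLift.LocalRings.ModelBasics
import Fermat.Agent.RTLift.LocalRings.Product

/-!
# The model with `d` free parameters
-/

set_option autoImplicit false

noncomputable section

namespace FermatAgent.RTLift.LocalRings

open MvPowerSeries

variable {O : Type} [CommRing O] [IsDomain O] [IsDiscreteValuationRing O]
  {O' : Type} [CommRing O'] [IsDomain O'] [IsDiscreteValuationRing O'] [Algebra O O']
  {k : Type} [Field k] {ϖ : O} {π : O'} {res : O' →+* k}

/-- The ideal of the free model: the variables from `d` on. -/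
def freeIdeal (O : Type) [CommRing O] (d : ℕ) : Ideal (MvPowerSeries (Fin 8) O) :=
  Ideal.span (X '' {v : Fin 8 | d ≤ v.val})

omit [IsDiscreteValuationRing O] [IsDiscreteValuationRing O'] [IsDomain O] in
theorem two_ne_zero_of_isUnit (h2 : IsUnit (2 : O)) : (2 : O') ≠ 0 := by
  have := h2.map (algebraMap O O')
  rw [map_ofNat] at this
  exact this.ne_zero

/-- The free model. -/
def modelFree (hE : Extends ϖ π res) (h2 : IsUnit (2 : O)) (d : ℕ) (hd : d ≤ 8) :
    Model ϖ π res where
  J := freeIdeal O d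
  d := d
  w _ := 1
  hw _ := le_rfl
  L v := if h : v.val < d then AddMonoidAlgebra.single (Pi.single ⟨v.val, h⟩ 1) 1 else 0
  hJ φ hφ := by
    rw [freeIdeal, Ideal.span_le]
    rintro _ ⟨v, hv, rfl⟩
    show φ (X v) = 0
    rw [hφ v, dif_neg (not_lt.mpr (show d ≤ v.val from hv)), map_zero, mul_zero]
  G := 0
  ℓ v := if h : v.val < d then Pi.single ⟨v.val, h⟩ 1 else 0
  rules := ((List.finRange 8).filter fun v => decide (d ≤ v.val)).map fun v =>
    (Finsupp.single v 1, 0, 0)
  μ _ := 0
  hrules := by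
    intro ρ hρ
    obtain ⟨v, hv, rfl⟩ := List.mem_map.mp hρ
    refine ⟨?_, Or.inl rfl⟩
    refine Ideal.mem_sup_left ?_
    rw [map_zero, sub_zero, mon1, map_one, one_mul]
    exact Ideal.subset_span ⟨v, by simpa using hv, rfl⟩
  hlead := by
    intro m hm v hv
    have hlt : v.val < d := by
      by_contra h
      exact hm (Finsupp.single v 1, 0, 0) (List.mem_map.mpr ⟨v, by simpa using not_lt.mp h, rfl⟩)
        ((single_le_iff v 1 m).mpr (Nat.one_le_iff_ne_zero.mpr hv))
    rw [dif_pos hlt, dif_pos hlt, AddMonoidAlgebra.mapRingHom_single, map_one]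
    exact hasLead_single one_ne_zero
  hinj := by
    intro m m' hm hm' he
    have hz : ∀ m : Fin 8 →₀ ℕ, (∀ ρ ∈ ((List.finRange 8).filter fun v => decide (d ≤ v.val)).map
        (fun v => ((Finsupp.single v 1, 0, 0) : (Fin 8 →₀ ℕ) × O × (Fin 8 →₀ ℕ))), ¬ ρ.1 ≤ m) →
        ∀ v : Fin 8, d ≤ v.val → m v = 0 := fun m hm v hv => by
      by_contra h
      exact hm (Finsupp.single v 1, 0, 0) (List.mem_map.mpr ⟨v, by simpa using hv, rfl⟩)
        ((single_le_iff v 1 m).mpr (Nat.one_le_iff_ne_zero.mpr h))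
    ext v
    by_cases hv : v.val < d
    · have h := congrFun he ⟨v.val, hv⟩
      have key : ∀ m : Fin 8 →₀ ℕ, (∑ w : Fin 8, m w •
          (if h : w.val < d then (Pi.single ⟨w.val, h⟩ 1 : Fin d → ℤ) else 0)) ⟨v.val, hv⟩ = m v := by
        intro m
        rw [Finset.sum_apply, Finset.sum_eq_single v]
        · simp [hv]
        · intro w _ hw
          by_cases hwd : w.val < d
          · have : (⟨v.val, hv⟩ : Fin d) ≠ ⟨w.val, hwd⟩ := fun h =>
              hw (Fin.ext (congrArg Fin.val h).symm)
            simp [hwd, this]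
          · simp [hwd]
        · simp
      rw [key, key] at h
      exact_mod_cast h
    · rw [hz m hm v (not_lt.mp hv), hz m' hm' v (not_lt.mp hv)]
  u t := X ⟨t.val, t.isLt.trans_le hd⟩
  hum t := by simp
  hu P _ hJ _ hu v := by
    by_cases hv : v.val < d
    · exact hu ⟨v.val, hv⟩
    · exact hJ (Ideal.subset_span ⟨v, not_lt.mp hv, rfl⟩)
  htri φ hφ t := by
    refine ⟨X ⟨t.val, t.isLt.trans_le hd⟩ ^ 2 - algebraMap O _ ϖ, ?_⟩
    have hval : φ (X ⟨t.val, t.isLt.trans_le hd⟩) = C π * pv t := by
      rw [hφ, dif_pos t.isLt, pow_one, emb_single_eq, map_one, one_mul, Finset.prod_eq_single t]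
      · simp
      · intro b _ hb
        simp [hb]
      · simp
    have e : φ (X ⟨t.val, t.isLt.trans_le hd⟩ ^ 2 - algebraMap O _ ϖ) =
        C (π ^ 2) * ((pv t) ^ 2 - 1) := by
      rw [map_sub, map_pow, hval, φ.commutes, MvPowerSeries.algebraMap_apply, ← hE.sq, map_pow]
      ring
    constructor
    · rw [e]
      simp only [map_mul, proj_C, map_sub, map_pow, map_one]
      rw [proj_pv_notMem (show t ∉ {s : Fin d | s < t} from lt_irrefl t), one_pow, sub_self,
        mul_zero]
    · rw [e]
      simp only [map_mul, proj_C, map_sub, map_pow, map_one]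
      rw [proj_pv_mem (show t ∈ {s : Fin d | s ≤ t} from le_refl t)]
      refine mul_ne_zero ?_ (pv_sq_sub_one_ne_zero t (two_ne_zero_of_isUnit h2))
      intro h
      exact pow_ne_zero 2 hE.irrπ.ne_zero (by simpa using congrArg constantCoeff h)

end FermatAgent.RTLift.LocalRings

end
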