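import Fermat.Agent.RTLift.LocalRings.Model
import Mathlib.Tactic.FinCases

/-!
# Tools to check models: evaluation of Laurent monomials in three parameters
-/

set_option autoImplicit false

noncomputable section

namespace FermatAgent.RTLift.LocalRings

open MvPowerSeries

variable {τ : Type} [Fintype τ] {S : Type} [CommRing S]

/-- `T_v = 1 + X_v`. -/
abbrev pv (v : τ) : MvPowerSeries τ S := ((tUnit v : (MvPowerSeries τ S)ˣ) : MvPowerSeries τ S)

/-- The inverse of `T_v`. -/
abbrev pvi (v : τ) : MvPowerSeries τ S :=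
  (((tUnit v : (MvPowerSeries τ S)ˣ)⁻¹ : (MvPowerSeries τ S)ˣ) : MvPowerSeries τ S)

omit [Fintype τ] in
theorem pv_mul_pvi (v : τ) : (pv v : MvPowerSeries τ S) * pvi v = 1 := Units.mul_inv _

theorem coe_zpow_split {M : Type*} [Monoid M] (g : Mˣ) (a : ℤ) :
    ((g ^ a : Mˣ) : M) = (g : M) ^ a.toNat * ((g⁻¹ : Mˣ) : M) ^ (-a).toNat := by
  obtain ⟨n, rfl | rfl⟩ := a.eq_nat_or_neg
  · simp
  · simp [zpow_neg, ← inv_pow, ← Units.val_pow_eq_pow_val]

theorem emb_single_eq (e : τ → ℤ) (a : S) :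
    emb (AddMonoidAlgebra.single e a) =
      C a * ∏ v, (pv v ^ (e v).toNat * pvi v ^ (-(e v)).toNat) := by
  rw [emb_single, MvPowerSeries.smul_eq_C_mul]
  congr 1
  show ((∏ v, tUnit v ^ e v : (MvPowerSeries τ S)ˣ) : MvPowerSeries τ S) = _
  rw [Units.coe_prod]
  exact Finset.prod_congr rfl fun v _ => coe_zpow_split _ _

theorem emb_single3 (a b c : ℤ) (x : S) :
    emb (AddMonoidAlgebra.single (![a, b, c] : Fin 3 → ℤ) x) =
      C x * ((pv 0 ^ a.toNat * pvi 0 ^ (-a).toNat) * (pv 1 ^ b.toNat * pvi 1 ^ (-b).toNat) *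
        (pv 2 ^ c.toNat * pvi 2 ^ (-c).toNat) : MvPowerSeries (Fin 3) S) := by
  rw [emb_single_eq, Fin.prod_univ_three]
  rfl

omit [Fintype τ] in
theorem proj_X (A : Set τ) [DecidablePred (· ∈ A)] (v : τ) :
    proj A (X v : MvPowerSeries τ S) = if v ∈ A then X v else 0 := by
  classical
  ext n
  rw [coeff_proj, coeff_X]
  by_cases hn : n = Finsupp.single v 1
  · subst hn
    by_cases hv : v ∈ A
    · rw [if_pos fun t ht => by
        rw [Finset.mem_singleton.mp (Finsupp.support_single_subset ht)]; exact hv, if_pos hv,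
        coeff_X, if_pos rfl]
    · rw [if_neg fun h => hv (h v (by simp)), if_neg hv, map_zero]
  · simp only [if_neg hn]
    split_ifs <;> simp [coeff_X, hn]

omit [Fintype τ] in
theorem proj_pv_mem {A : Set τ} {v : τ} (h : v ∈ A) : proj A (pv v : MvPowerSeries τ S) = pv v := by
  classical
  rw [pv, coe_tUnit, map_add, map_one, proj_X, if_pos h]

omit [Fintype τ] in
theorem proj_pv_notMem {A : Set τ} {v : τ} (h : v ∉ A) :
    proj A (pv v : MvPowerSeries τ S) = 1 := by
  classical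
  rw [pv, coe_tUnit, map_add, map_one, proj_X, if_neg h, add_zero]

omit [Fintype τ] in
theorem X_ne_zero' [Nontrivial S] (v : τ) : (X v : MvPowerSeries τ S) ≠ 0 := fun h => by
  classical
  have := congrArg (coeff (Finsupp.single v 1)) h
  simp [coeff_X] at this

omit [Fintype τ] in
theorem pv_sub_one_ne_zero [Nontrivial S] (v : τ) : (pv v : MvPowerSeries τ S) - 1 ≠ 0 := by
  rw [pv, coe_tUnit, add_sub_cancel_left]
  exact X_ne_zero' v

omit [Fintype τ] in
theorem pv_sq_sub_one_ne_zero [IsDomain S] (v : τ) (h2 : (2 : S) ≠ 0) :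
    (pv v : MvPowerSeries τ S) ^ 2 - 1 ≠ 0 := by
  rw [show (pv v : MvPowerSeries τ S) ^ 2 - 1 = (pv v - 1) * (pv v + 1) by ring]
  refine mul_ne_zero (pv_sub_one_ne_zero v) fun h => h2 ?_
  have := congrArg constantCoeff h
  simpa [one_add_one_eq_two] using this

omit [Fintype τ] in
theorem hasLead_add_single {G : (τ → ℤ) →+ ℤ} {ℓ e : τ → ℤ} {a b : S} (ha : a ≠ 0)
    (hlt : G ℓ < G e) :
    HasLead G (AddMonoidAlgebra.single ℓ a + AddMonoidAlgebra.single e b) ℓ := by
  classical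
  have hne : e ≠ ℓ := fun h => hlt.ne (h ▸ rfl)
  refine ⟨by simpa [AddMonoidAlgebra.coeff_single, Finsupp.single_apply, hne] using ha,
    fun x hx => ?_⟩
  by_cases h1 : x = ℓ
  · exact Or.inl h1
  by_cases h2 : x = e
  · exact Or.inr (h2 ▸ hlt)
  exact absurd (by simp [AddMonoidAlgebra.coeff_single, Ne.symm h1, Ne.symm h2]) hx

end FermatAgent.RTLift.LocalRings

end
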